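/-
IHARA track, package [HM] (helper1): **the `χ`-coinvariants of a free `𝒪[G]`-module** (pure algebra).

`G` a commutative group (given as `[Group G]` together with `hG : ∀ a b, a * b = b * a`, so that the
instance path of `Subgroup G` is the user's) acting `𝒪`-linearly on `M` through `ρ : G →* End_𝒪 M`,
`M` with an `𝒪`-basis
`b (i, g) = ρ g (w i)`; `G₁ ≤ G`, `χ : G₁ →* 𝒪`.
* `ihmChiSub ρ G₁ χ`  = the span of the `ρ g m - χ g • m` (`g ∈ G₁`), `IhmChi ρ G₁ χ` the quotient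
  (`M^χ = M ⊗_{𝒪[G₁], χ} 𝒪`);
* `ihmChiMap`         : endomorphisms commuting with `ρ G₁` descend to `M^χ`, `ihmChiRho` the induced
  action of `G`;
* `ihm_chi_basis`     : `M^χ` is `𝒪`-free on the classes of `ρ (s x) (w i)`, `x ∈ G ⧸ G₁`;
* `ihm_chi_free`      : for a complement `G₂` of `G₁`, `M^χ` has the basis `ρ̄ g₂ (w̄ i)`, `g₂ ∈ G₂`;
* `ihmChiSub_sup_eq`  : if `χ ≡ 1` modulo an ideal `𝔞` then `M^χ / 𝔞 = M^1 / 𝔞` (same submodule of `M`);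
* `ihm_chi_kill`      : if `t` kills `M^1` then `t M^χ ⊆ 𝔞 M^χ`.
-/
import Mathlib

set_option autoImplicit false
set_option linter.unusedSectionVars false
set_option linter.unusedVariables false

namespace Fermat.Agent.Ihara

open Module Submodule

section Chi

variable {𝒪 : Type*} [CommRing 𝒪] {M : Type*} [AddCommGroup M] [Module 𝒪 M]
  {G : Type*} [Group G] (hG : ∀ a b : G, a * b = b * a) (ρ : G →* Module.End 𝒪 M)
  (G₁ : Subgroup G) (χ : G₁ →* 𝒪)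

/-- the submodule generated by the `ρ g m - χ g • m`, `g ∈ G₁` -/
def ihmChiSub : Submodule 𝒪 M :=
  Submodule.span 𝒪 {y | ∃ (g : G₁) (m : M), y = ρ g m - χ g • m}

/-- the `χ`-coinvariants `M^χ` -/
abbrev IhmChi : Type _ := M ⧸ ihmChiSub ρ G₁ χ

theorem ihm_chi_sub_mem (g : G₁) (m : M) : ρ g m - χ g • m ∈ ihmChiSub ρ G₁ χ :=
  Submodule.subset_span ⟨g, m, rfl⟩

/-- in `M^χ` the group `G₁` acts through `χ` -/
theorem ihm_chi_mk_rho (g : G₁) (m : M) :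
    (Submodule.Quotient.mk (ρ g m) : IhmChi ρ G₁ χ) = χ g • Submodule.Quotient.mk m := by
  rw [← Submodule.Quotient.mk_smul, Submodule.Quotient.eq]
  exact ihm_chi_sub_mem ρ G₁ χ g m

/-- an endomorphism commuting with `ρ G₁` preserves `ihmChiSub` -/
theorem ihmChiSub_le_comap (t : Module.End 𝒪 M) (ht : ∀ g : G₁, Commute t (ρ g)) :
    ihmChiSub ρ G₁ χ ≤ (ihmChiSub ρ G₁ χ).comap t := by
  refine Submodule.span_le.mpr ?_
  rintro _ ⟨g, m, rfl⟩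
  show t (ρ g m - χ g • m) ∈ ihmChiSub ρ G₁ χ
  have h : t (ρ g m) = ρ g (t m) := LinearMap.congr_fun (ht g).eq m
  rw [map_sub, map_smul, h]
  exact ihm_chi_sub_mem ρ G₁ χ g (t m)

/-- the endomorphism of `M^χ` induced by an endomorphism commuting with `ρ G₁` -/
def ihmChiMap (t : Module.End 𝒪 M) (ht : ∀ g : G₁, Commute t (ρ g)) :
    Module.End 𝒪 (IhmChi ρ G₁ χ) :=
  (ihmChiSub ρ G₁ χ).mapQ _ t (ihmChiSub_le_comap ρ G₁ χ t ht)

@[simp] theorem ihmChiMap_mk (t : Module.End 𝒪 M) (ht : ∀ g : G₁, Commute t (ρ g)) (m : M) :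
    ihmChiMap ρ G₁ χ t ht (Submodule.Quotient.mk m) = Submodule.Quotient.mk (t m) := rfl

theorem ihmChiMap_one : ihmChiMap ρ G₁ χ 1 (fun g => Commute.one_left _) = 1 := by
  refine LinearMap.ext fun x => ?_
  obtain ⟨m, rfl⟩ := Submodule.Quotient.mk_surjective _ x
  rfl

theorem ihmChiMap_mul (t t' : Module.End 𝒪 M) (ht : ∀ g : G₁, Commute t (ρ g))
    (ht' : ∀ g : G₁, Commute t' (ρ g)) :
    ihmChiMap ρ G₁ χ (t * t') (fun g => (ht g).mul_left (ht' g))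
      = ihmChiMap ρ G₁ χ t ht * ihmChiMap ρ G₁ χ t' ht' := by
  refine LinearMap.ext fun x => ?_
  obtain ⟨m, rfl⟩ := Submodule.Quotient.mk_surjective _ x
  rfl

theorem ihmChiMap_add (t t' : Module.End 𝒪 M) (ht : ∀ g : G₁, Commute t (ρ g))
    (ht' : ∀ g : G₁, Commute t' (ρ g)) :
    ihmChiMap ρ G₁ χ (t + t') (fun g => (ht g).add_left (ht' g))
      = ihmChiMap ρ G₁ χ t ht + ihmChiMap ρ G₁ χ t' ht' := by
  refine LinearMap.ext fun x => ?_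
  obtain ⟨m, rfl⟩ := Submodule.Quotient.mk_surjective _ x
  rfl

theorem ihmChiMap_commute (t t' : Module.End 𝒪 M) (ht : ∀ g : G₁, Commute t (ρ g))
    (ht' : ∀ g : G₁, Commute t' (ρ g)) (h : Commute t t') :
    Commute (ihmChiMap ρ G₁ χ t ht) (ihmChiMap ρ G₁ χ t' ht') := by
  refine LinearMap.ext fun x => ?_
  obtain ⟨m, rfl⟩ := Submodule.Quotient.mk_surjective _ x
  show (Submodule.Quotient.mk (t (t' m)) : IhmChi ρ G₁ χ) = Submodule.Quotient.mk (t' (t m))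
  rw [show t (t' m) = t' (t m) from LinearMap.congr_fun h.eq m]

include hG in
theorem ihm_rho_commute (g h : G) : Commute (ρ g) (ρ h) := by
  show ρ g * ρ h = ρ h * ρ g
  rw [← map_mul, ← map_mul, hG]

/-- the induced action of `G` on `M^χ` -/
def ihmChiRho : G →* Module.End 𝒪 (IhmChi ρ G₁ χ) where
  toFun g := ihmChiMap ρ G₁ χ (ρ g) (fun h => ihm_rho_commute hG ρ g h)
  map_one' := by
    refine LinearMap.ext fun x => ?_
    obtain ⟨m, rfl⟩ := Submodule.Quotient.mk_surjective _ x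
    show (Submodule.Quotient.mk (ρ 1 m) : IhmChi ρ G₁ χ) = Submodule.Quotient.mk m
    rw [map_one]; rfl
  map_mul' g h := by
    refine LinearMap.ext fun x => ?_
    obtain ⟨m, rfl⟩ := Submodule.Quotient.mk_surjective _ x
    show (Submodule.Quotient.mk (ρ (g * h) m) : IhmChi ρ G₁ χ)
      = Submodule.Quotient.mk (ρ g (ρ h m))
    rw [map_mul]; rfl

@[simp] theorem ihmChiRho_mk (g : G) (m : M) :
    ihmChiRho hG ρ G₁ χ g (Submodule.Quotient.mk m) = Submodule.Quotient.mk (ρ g m) := rfl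

/-- `G₁` acts on `M^χ` through `χ` -/
theorem ihmChiRho_of_mem (g : G₁) (x : IhmChi ρ G₁ χ) : ihmChiRho hG ρ G₁ χ g x = χ g • x := by
  obtain ⟨m, rfl⟩ := Submodule.Quotient.mk_surjective _ x
  exact ihm_chi_mk_rho ρ G₁ χ g m

theorem ihmChiMap_commute_rho (t : Module.End 𝒪 M) (ht : ∀ g : G, Commute t (ρ g)) (g : G) :
    Commute (ihmChiMap ρ G₁ χ t (fun h => ht h)) (ihmChiRho hG ρ G₁ χ g) :=
  ihmChiMap_commute ρ G₁ χ t (ρ g) (fun h => ht h) (fun h => ihm_rho_commute hG ρ g h) (ht g)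

/-! ### The basis -/

section Basis

variable {ι : Type*} (w : ι → M) (b : Basis (ι × G) 𝒪 M) (hb : ∀ i g, b (i, g) = ρ g (w i))
  (s : G ⧸ G₁ → G) (hs : ∀ x, (s x : G ⧸ G₁) = x)

include hs in
theorem ihm_chi_sec_mem (g : G) : (s (g : G ⧸ G₁))⁻¹ * g ∈ G₁ :=
  QuotientGroup.eq.mp (hs (g : G ⧸ G₁))

/-- `g = s(ḡ) · c(g)` with `c(g) ∈ G₁` -/
def ihmChiC (g : G) : G₁ := ⟨(s (g : G ⧸ G₁))⁻¹ * g, ihm_chi_sec_mem G₁ s hs g⟩

include hG in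
theorem ihm_chi_mk_mul (h : G₁) (g : G) : (((h : G) * g : G) : G ⧸ G₁) = (g : G ⧸ G₁) := by
  rw [QuotientGroup.eq]
  have : ((h : G) * g)⁻¹ * g = (h : G)⁻¹ := by
    rw [mul_inv_rev, hG (g⁻¹) _, mul_assoc, inv_mul_cancel, mul_one]
  rw [this]
  exact inv_mem h.2

include hG in
theorem ihmChiC_mul (h : G₁) (g : G) : ihmChiC G₁ s hs (h * g) = h * ihmChiC G₁ s hs g := by
  apply Subtype.ext
  show (s ((h * g : G) : G ⧸ G₁))⁻¹ * ((h : G) * g) = (h : G) * ((s (g : G ⧸ G₁))⁻¹ * g)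
  rw [ihm_chi_mk_mul hG G₁ h g, ← mul_assoc, ← mul_assoc, hG _ (h : G)]

theorem ihmChiC_sec (x : G ⧸ G₁) : ihmChiC G₁ s hs (s x) = 1 := by
  apply Subtype.ext
  show (s ((s x : G) : G ⧸ G₁))⁻¹ * s x = 1
  rw [hs x, inv_mul_cancel]

include hG in
theorem ihm_chi_eq_sec_mul (g : G) : g = (ihmChiC G₁ s hs g : G) * s (g : G ⧸ G₁) := by
  show g = (s (g : G ⧸ G₁))⁻¹ * g * s (g : G ⧸ G₁)
  rw [hG, mul_inv_cancel_left]

/-- the coordinates `M → (ι × G ⧸ G₁ →₀ 𝒪)` -/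
noncomputable def ihmChiPhi : M →ₗ[𝒪] (ι × (G ⧸ G₁) →₀ 𝒪) :=
  b.constr 𝒪 fun x : ι × G =>
    Finsupp.single (x.1, (x.2 : G ⧸ G₁)) (χ (ihmChiC G₁ s hs x.2))

theorem ihmChiPhi_basis (i : ι) (g : G) :
    ihmChiPhi G₁ χ b s hs (b (i, g))
      = Finsupp.single (i, (g : G ⧸ G₁)) (χ (ihmChiC G₁ s hs g)) := by
  unfold ihmChiPhi
  rw [Basis.constr_basis]

include hb in
theorem ihm_rho_basis (h g : G) (i : ι) : ρ h (b (i, g)) = b (i, h * g) := by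
  rw [hb, hb, map_mul]; rfl

include hG hb in
theorem ihmChiPhi_kill : ihmChiSub ρ G₁ χ ≤ LinearMap.ker (ihmChiPhi G₁ χ b s hs) := by
  refine Submodule.span_le.mpr ?_
  rintro _ ⟨h, m, rfl⟩
  rw [SetLike.mem_coe, LinearMap.mem_ker]
  have key : (ihmChiPhi G₁ χ b s hs) ∘ₗ (ρ h - χ h • LinearMap.id) = 0 := by
    refine b.ext fun x => ?_
    obtain ⟨i, g⟩ := x
    rw [LinearMap.comp_apply, LinearMap.sub_apply, LinearMap.smul_apply, LinearMap.id_apply,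
      ihm_rho_basis ρ w b hb, map_sub, map_smul, ihmChiPhi_basis, ihmChiPhi_basis,
      ihmChiC_mul hG, map_mul, LinearMap.zero_apply, Finsupp.smul_single, smul_eq_mul]
    rw [ihm_chi_mk_mul hG G₁ h g, sub_self]
  have := LinearMap.congr_fun key m
  rwa [LinearMap.comp_apply, LinearMap.sub_apply, LinearMap.smul_apply, LinearMap.id_apply,
    LinearMap.zero_apply] at this

/-- the coordinates on `M^χ` -/
noncomputable def ihmChiPhiBar : IhmChi ρ G₁ χ →ₗ[𝒪] (ι × (G ⧸ G₁) →₀ 𝒪) :=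
  (ihmChiSub ρ G₁ χ).liftQ (ihmChiPhi G₁ χ b s hs) (ihmChiPhi_kill hG ρ G₁ χ w b hb s hs)

/-- the parametrisation `(ι × G ⧸ G₁ →₀ 𝒪) → M^χ` -/
noncomputable def ihmChiPsi : (ι × (G ⧸ G₁) →₀ 𝒪) →ₗ[𝒪] IhmChi ρ G₁ χ :=
  Finsupp.linearCombination 𝒪 fun x : ι × (G ⧸ G₁) =>
    (Submodule.Quotient.mk (b (x.1, s x.2)) : IhmChi ρ G₁ χ)

include hG hb in
theorem ihm_chi_mk_basis (i : ι) (g : G) :
    (Submodule.Quotient.mk (b (i, g)) : IhmChi ρ G₁ χ)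
      = χ (ihmChiC G₁ s hs g) • Submodule.Quotient.mk (b (i, s (g : G ⧸ G₁))) := by
  have h1 : b (i, g) = ρ (ihmChiC G₁ s hs g : G) (b (i, s (g : G ⧸ G₁))) := by
    rw [ihm_rho_basis ρ w b hb, ← ihm_chi_eq_sec_mul hG G₁ s hs g]
  conv_lhs => rw [h1]
  exact ihm_chi_mk_rho ρ G₁ χ _ _

include hG hb in
/-- **`M^χ ≃ 𝒪^(ι × G/G₁)`** -/
noncomputable def ihmChiEquiv : IhmChi ρ G₁ χ ≃ₗ[𝒪] (ι × (G ⧸ G₁) →₀ 𝒪) :=
  LinearEquiv.ofLinearMap (ihmChiPhiBar hG ρ G₁ χ w b hb s hs) (ihmChiPsi ρ G₁ χ b s)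
    (by
      refine Finsupp.lhom_ext fun x a => ?_
      obtain ⟨i, y⟩ := x
      rw [LinearMap.comp_apply, LinearMap.id_apply]
      unfold ihmChiPsi
      rw [Finsupp.linearCombination_single, map_smul]
      show a • (ihmChiSub ρ G₁ χ).liftQ (ihmChiPhi G₁ χ b s hs) _
        (Submodule.Quotient.mk (b (i, s y))) = _
      rw [Submodule.liftQ_apply, ihmChiPhi_basis, ihmChiC_sec, map_one, hs y,
        Finsupp.smul_single, smul_eq_mul, mul_one])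
    (by
      refine LinearMap.ext fun x => ?_
      obtain ⟨m, rfl⟩ := Submodule.Quotient.mk_surjective _ x
      rw [LinearMap.comp_apply, LinearMap.id_apply]
      show ihmChiPsi ρ G₁ χ b s (ihmChiPhi G₁ χ b s hs m) = Submodule.Quotient.mk m
      have key : (ihmChiPsi ρ G₁ χ b s) ∘ₗ (ihmChiPhi G₁ χ b s hs)
          = (ihmChiSub ρ G₁ χ).mkQ := by
        refine b.ext fun x => ?_
        obtain ⟨i, g⟩ := x
        rw [LinearMap.comp_apply, ihmChiPhi_basis]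
        unfold ihmChiPsi
        rw [Finsupp.linearCombination_single]
        exact (ihm_chi_mk_basis hG ρ G₁ χ w b hb s hs i g).symm
      exact LinearMap.congr_fun key m)

include hG hb hs in
/-- **`M^χ` is free on the classes of `ρ (s x) (w i)`**, `x ∈ G ⧸ G₁` -/
theorem ihm_chi_basis :
    ∃ b' : Basis (ι × (G ⧸ G₁)) 𝒪 (IhmChi ρ G₁ χ),
      ∀ i x, b' (i, x) = Submodule.Quotient.mk (ρ (s x) (w i)) := by
  refine ⟨Basis.ofRepr (ihmChiEquiv hG ρ G₁ χ w b hb s hs), fun i x => ?_⟩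
  rw [Basis.apply_eq_iff]
  show ihmChiEquiv hG ρ G₁ χ w b hb s hs (Submodule.Quotient.mk (ρ (s x) (w i))) = _
  rw [← hb]
  show (ihmChiSub ρ G₁ χ).liftQ (ihmChiPhi G₁ χ b s hs) _
    (Submodule.Quotient.mk (b (i, s x))) = _
  rw [Submodule.liftQ_apply, ihmChiPhi_basis, ihmChiC_sec, map_one, hs x]

end Basis

/-! ### A complement of `G₁` -/

section Compl

variable {ι : Type*} (w : ι → M) (b : Basis (ι × G) 𝒪 M) (hb : ∀ i g, b (i, g) = ρ g (w i))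
  (G₂ : Subgroup G) (hc : IsCompl G₁ G₂)

include hG hc in
theorem ihm_compl_bijective :
    Function.Bijective (fun g : G₂ => ((g : G) : G ⧸ G₁)) := by
  constructor
  · intro g g' h
    have h1 : (g : G)⁻¹ * (g' : G) ∈ G₁ := QuotientGroup.eq.mp h
    have h2 : (g : G)⁻¹ * (g' : G) ∈ G₂ := G₂.mul_mem (G₂.inv_mem g.2) g'.2
    have h3 : (g : G)⁻¹ * (g' : G) ∈ G₁ ⊓ G₂ := ⟨h1, h2⟩
    rw [hc.inf_eq_bot, Subgroup.mem_bot] at h3
    apply Subtype.ext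
    exact inv_mul_eq_one.mp h3
  · intro x
    obtain ⟨g, rfl⟩ := QuotientGroup.mk_surjective x
    have hg : g ∈ G₁ ⊔ G₂ := by rw [hc.sup_eq_top]; exact Subgroup.mem_top g
    haveI : G₂.Normal := ⟨fun n hn g => by rw [hG g n, mul_inv_cancel_right]; exact hn⟩
    obtain ⟨y, hy, z, hz, rfl⟩ := Subgroup.mem_sup_of_normal_right.mp hg
    refine ⟨⟨z, hz⟩, ?_⟩
    show ((z : G) : G ⧸ G₁) = ((y * z : G) : G ⧸ G₁)
    exact (ihm_chi_mk_mul hG G₁ ⟨y, hy⟩ z).symm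

include hG hb hc in
/-- **for a complement `G₂` of `G₁`, `M^χ` is free over `𝒪[G₂]`** with basis `ρ̄ g₂ (w̄ i)` -/
theorem ihm_chi_free :
    ∃ b' : Basis (ι × G₂) 𝒪 (IhmChi ρ G₁ χ),
      ∀ (i : ι) (g : G₂), b' (i, g)
        = ihmChiRho hG ρ G₁ χ (g : G) (Submodule.Quotient.mk (w i)) := by
  classical
  set e : G₂ ≃ G ⧸ G₁ := Equiv.ofBijective _ (ihm_compl_bijective hG G₁ G₂ hc) with he
  set s : G ⧸ G₁ → G := fun x => ((e.symm x : G₂) : G) with hs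
  have hs' : ∀ x, (s x : G ⧸ G₁) = x := fun x => e.apply_symm_apply x
  obtain ⟨b', hb'⟩ := ihm_chi_basis hG ρ G₁ χ w b hb s hs'
  refine ⟨b'.reindex ((Equiv.refl ι).prodCongr e.symm), fun i g => ?_⟩
  rw [Basis.reindex_apply]
  have h1 : ((Equiv.refl ι).prodCongr e.symm).symm (i, g) = (i, e g) := rfl
  rw [h1, hb' i (e g)]
  show (Submodule.Quotient.mk (ρ ((e.symm (e g) : G₂) : G) (w i)) : IhmChi ρ G₁ χ) = _
  rw [e.symm_apply_apply]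
  rfl

end Compl

/-! ### Comparison modulo an ideal -/

section Mod

variable (𝔞 : Ideal 𝒪)

theorem ihm_quot_mem_smul_top_iff (N : Submodule 𝒪 M) (m : M) :
    (Submodule.Quotient.mk m : M ⧸ N) ∈ 𝔞 • (⊤ : Submodule 𝒪 (M ⧸ N))
      ↔ m ∈ N ⊔ 𝔞 • (⊤ : Submodule 𝒪 M) := by
  have h1 : 𝔞 • (⊤ : Submodule 𝒪 (M ⧸ N)) = (𝔞 • (⊤ : Submodule 𝒪 M)).map N.mkQ := by
    rw [Submodule.map_smul'', Submodule.map_top, Submodule.range_mkQ]
  rw [h1, ← Submodule.comap_map_mkQ]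
  rfl

variable (χ' : G₁ →* 𝒪) (hχ : ∀ g : G₁, χ g - χ' g ∈ 𝔞)

include hχ in
theorem ihmChiSub_le_sup : ihmChiSub ρ G₁ χ ≤ ihmChiSub ρ G₁ χ' ⊔ 𝔞 • (⊤ : Submodule 𝒪 M) := by
  refine Submodule.span_le.mpr ?_
  rintro _ ⟨g, m, rfl⟩
  have h1 : ρ g m - χ g • m = (ρ g m - χ' g • m) + (χ' g - χ g) • m := by
    rw [sub_smul]; abel
  rw [SetLike.mem_coe, h1]
  refine Submodule.add_mem_sup (ihm_chi_sub_mem ρ G₁ χ' g m)
    (Submodule.smul_mem_smul ?_ Submodule.mem_top)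
  have := 𝔞.neg_mem (hχ g)
  rwa [neg_sub] at this

include hχ in
/-- **if `χ ≡ χ'` modulo `𝔞` then `M^χ / 𝔞 = M^χ' / 𝔞`** (the same quotient of `M`) -/
theorem ihmChiSub_sup_eq :
    ihmChiSub ρ G₁ χ ⊔ 𝔞 • (⊤ : Submodule 𝒪 M) = ihmChiSub ρ G₁ χ' ⊔ 𝔞 • (⊤ : Submodule 𝒪 M) := by
  apply le_antisymm
  · exact sup_le (ihmChiSub_le_sup ρ G₁ χ 𝔞 χ' hχ) le_sup_right
  · refine sup_le (ihmChiSub_le_sup ρ G₁ χ' 𝔞 χ (fun g => ?_)) le_sup_right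
    have := 𝔞.neg_mem (hχ g)
    rwa [neg_sub] at this

include hχ in
theorem ihm_chi_mod_iff (m : M) :
    (Submodule.Quotient.mk m : IhmChi ρ G₁ χ) ∈ 𝔞 • (⊤ : Submodule 𝒪 (IhmChi ρ G₁ χ))
      ↔ (Submodule.Quotient.mk m : IhmChi ρ G₁ χ') ∈ 𝔞 • (⊤ : Submodule 𝒪 (IhmChi ρ G₁ χ')) := by
  rw [ihm_quot_mem_smul_top_iff, ihm_quot_mem_smul_top_iff, ihmChiSub_sup_eq ρ G₁ χ 𝔞 χ' hχ]

include hχ in
/-- **if `t` kills `M^χ'` then `t M^χ ⊆ 𝔞 M^χ`** -/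
theorem ihm_chi_kill (t : Module.End 𝒪 M) (ht : ∀ g : G₁, Commute t (ρ g))
    (h0 : ihmChiMap ρ G₁ χ' t ht = 0) (x : IhmChi ρ G₁ χ) :
    ihmChiMap ρ G₁ χ t ht x ∈ 𝔞 • (⊤ : Submodule 𝒪 (IhmChi ρ G₁ χ)) := by
  obtain ⟨m, rfl⟩ := Submodule.Quotient.mk_surjective _ x
  rw [ihmChiMap_mk, ihm_chi_mod_iff ρ G₁ χ 𝔞 χ' hχ]
  have h1 := LinearMap.congr_fun h0 (Submodule.Quotient.mk m)
  rw [ihmChiMap_mk, LinearMap.zero_apply] at h1
  rw [h1]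
  exact Submodule.zero_mem _

/-- the reduction `M^χ / 𝔞 M^χ` -/
abbrev IhmChiMod : Type _ := IhmChi ρ G₁ χ ⧸ (𝔞 • (⊤ : Submodule 𝒪 (IhmChi ρ G₁ χ)))

/-- the endomorphism of `M^χ / 𝔞` induced by an endomorphism commuting with `ρ G₁` -/
def ihmChiMapMod (t : Module.End 𝒪 M) (ht : ∀ g : G₁, Commute t (ρ g)) :
    Module.End 𝒪 (IhmChiMod ρ G₁ χ 𝔞) :=
  (𝔞 • (⊤ : Submodule 𝒪 (IhmChi ρ G₁ χ))).mapQ _ (ihmChiMap ρ G₁ χ t ht) (by
    refine Submodule.smul_le.mpr fun a ha x _ => ?_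
    show ihmChiMap ρ G₁ χ t ht (a • x) ∈ 𝔞 • (⊤ : Submodule 𝒪 (IhmChi ρ G₁ χ))
    rw [map_smul]
    exact Submodule.smul_mem_smul ha Submodule.mem_top)

theorem ihmChiMapMod_mk (t : Module.End 𝒪 M) (ht : ∀ g : G₁, Commute t (ρ g)) (m : M) :
    ihmChiMapMod ρ G₁ χ 𝔞 t ht (Submodule.Quotient.mk (Submodule.Quotient.mk m))
      = Submodule.Quotient.mk (Submodule.Quotient.mk (t m)) := rfl

/-- `M^χ / 𝔞 ≃ M / (N_χ + 𝔞 M)` -/
noncomputable def ihmChiModEquivSup :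
    IhmChiMod ρ G₁ χ 𝔞 ≃ₗ[𝒪] M ⧸ (ihmChiSub ρ G₁ χ ⊔ 𝔞 • (⊤ : Submodule 𝒪 M)) :=
  (Submodule.quotEquivOfEq _ _ (by
    rw [Submodule.map_smul'', Submodule.map_top, Submodule.range_mkQ])).trans
    (Submodule.quotientQuotientEquivQuotientSup (ihmChiSub ρ G₁ χ) (𝔞 • (⊤ : Submodule 𝒪 M)))

theorem ihmChiModEquivSup_mk (m : M) :
    ihmChiModEquivSup ρ G₁ χ 𝔞 (Submodule.Quotient.mk (Submodule.Quotient.mk m))
      = Submodule.Quotient.mk m := rfl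

include hχ in
/-- **the canonical isomorphism `M^χ / 𝔞 ≃ M^χ' / 𝔞`** for `χ ≡ χ'` modulo `𝔞` -/
noncomputable def ihmChiModEquiv : IhmChiMod ρ G₁ χ 𝔞 ≃ₗ[𝒪] IhmChiMod ρ G₁ χ' 𝔞 :=
  ((ihmChiModEquivSup ρ G₁ χ 𝔞).trans
    (Submodule.quotEquivOfEq _ _ (ihmChiSub_sup_eq ρ G₁ χ 𝔞 χ' hχ))).trans
    (ihmChiModEquivSup ρ G₁ χ' 𝔞).symm

theorem ihmChiModEquiv_mk (m : M) :
    ihmChiModEquiv ρ G₁ χ 𝔞 χ' hχ (Submodule.Quotient.mk (Submodule.Quotient.mk m))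
      = Submodule.Quotient.mk (Submodule.Quotient.mk m) := by
  unfold ihmChiModEquiv
  rw [LinearEquiv.trans_apply, LinearEquiv.trans_apply, ihmChiModEquivSup_mk,
    Submodule.quotEquivOfEq_mk, LinearEquiv.symm_apply_eq, ihmChiModEquivSup_mk]

/-- the canonical isomorphism is compatible with every endomorphism commuting with `ρ G₁` -/
theorem ihmChiModEquiv_map (t : Module.End 𝒪 M) (ht : ∀ g : G₁, Commute t (ρ g))
    (x : IhmChiMod ρ G₁ χ 𝔞) :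
    ihmChiModEquiv ρ G₁ χ 𝔞 χ' hχ (ihmChiMapMod ρ G₁ χ 𝔞 t ht x)
      = ihmChiMapMod ρ G₁ χ' 𝔞 t ht (ihmChiModEquiv ρ G₁ χ 𝔞 χ' hχ x) := by
  obtain ⟨y, rfl⟩ := Submodule.Quotient.mk_surjective _ x
  obtain ⟨m, rfl⟩ := Submodule.Quotient.mk_surjective _ y
  rw [ihmChiMapMod_mk, ihmChiModEquiv_mk, ihmChiModEquiv_mk, ihmChiMapMod_mk]

end Mod


end Chi

end Fermat.Agent.Ihara
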