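/-
IHARA track, package [HM] (helper1): **commutativity of the Hecke operators at `Γ_H(M)`-level**.

`Γ₁(M) ≤ Γ_H(M)`, the coset systems `ihfSysT/U/D M H` have the same representatives as the systems
`tgmSysT/U/D M` of `Γ₁(M)`, restriction to `Γ₁(M)` is injective on homomorphisms with torsion-free
values and intertwines the operators; at `Γ₁(M)`-level the operators are the images of the
commutative ring `tgHeckeAlg M ∅` under `tgeHecke` (Eichler–Shimura, `6 ≤ M`).
-/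
import Mathlib
import Fermat.Agent.Lib.T1G.ES.HeckeAlgGlue
import Fermat.Agent.Lib.T1G.ES.DictModel
import Fermat.Agent.Lib.Ihara.Fr.Step
import Fermat.Agent.Lib.Ihara.Fr.Defs

set_option autoImplicit false
set_option linter.unusedSectionVars false
set_option linter.unusedVariables false
set_option linter.style.haveILetI false

namespace Fermat.Agent.Ihara

open Matrix MatrixGroups CongruenceSubgroup ModularCurve ModularCurve.Period Module
open Fermat.Agent.DS Fermat.Agent.T1 Fermat.Agent.T1G Fermat.Agent.T2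
open scoped TensorProduct

/-! ### Injectivity of the restriction -/

/-- restriction to a finite-index subgroup is injective on homomorphisms to a torsion-free group -/
theorem ihm_res_injective {Γ Γ' : Subgroup SL(2, ℤ)} (hle : Γ ≤ Γ') [Γ.FiniteIndex]
    {A : Type*} [AddCommGroup A] (hA : ∀ n : ℕ, n ≠ 0 → ∀ a : A, n • a = 0 → a = 0) :
    Function.Injective (t2fRes hle A) := by
  intro ψ ψ' h
  refine AddMonoidHom.ext fun δ' => ?_
  obtain ⟨δ, rfl⟩ := Additive.ofMul.surjective δ'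
  obtain ⟨n, hn0, -, hn⟩ := Subgroup.exists_pow_mem_of_index_ne_zero
    (Subgroup.FiniteIndex.index_ne_zero (H := Γ)) (δ : SL(2, ℤ))
  have h1 := DFunLike.congr_fun h (Additive.ofMul (⟨(δ : SL(2, ℤ)) ^ n, hn⟩ : Γ))
  rw [t2fRes_apply, t2fRes_apply] at h1
  have h2 : Subgroup.inclusion hle (⟨(δ : SL(2, ℤ)) ^ n, hn⟩ : Γ) = δ ^ n := Subtype.ext rfl
  rw [h2, ofMul_pow, map_nsmul, map_nsmul] at h1
  have h3 : n • (ψ (Additive.ofMul δ) - ψ' (Additive.ofMul δ)) = 0 := by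
    rw [smul_sub, h1, sub_self]
  exact sub_eq_zero.mp (hA n hn0.ne' _ h3)

/-! ### From the lattice to coefficients in a domain of characteristic zero -/

/-- two coset-system operators which commute on the `ℤ`-lattice commute with `R`-coefficients -/
theorem ihm_comm_of_lattice (Γ : Subgroup SL(2, ℤ)) [Γ.FiniteIndex] (R : Type*) [CommRing R]
    [IsDomain R] [CharZero R] {ι ι' : Type} [Fintype ι] [Fintype ι']
    (S : tdmCosetSys Γ ι) (S' : tdmCosetSys Γ ι')
    (hcomm : ∀ x : ↥(tgeL Γ), S.homPar ℤ ℤ (S'.homPar ℤ ℤ x) = S'.homPar ℤ ℤ (S.homPar ℤ ℤ x))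
    (x : ↥(parabolicHoms R Γ R)) :
    S.homPar R R (S'.homPar R R x) = S'.homPar R R (S.homPar R R x) := by
  obtain ⟨y, rfl⟩ := (tgeBC Γ R).surjective x
  rw [← tgeBC_homPar, ← tgeBC_homPar, ← tgeBC_homPar, ← tgeBC_homPar]
  congr 1
  induction y using TensorProduct.induction_on with
  | zero => simp
  | tmul a φ =>
    simp only [LinearMap.baseChange_tmul]
    rw [hcomm]
  | add y₁ y₂ h₁ h₂ => simp only [map_add, h₁, h₂]

/-! ### From `Γ₁(M)` to `Γ_H(M)` -/

section Transfer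

variable {M : ℕ} [NeZero M] (H : Subgroup (ZMod M)ˣ) (R : Type*) [CommRing R] [IsDomain R]
  [CharZero R]

theorem ihm_tf : ∀ n : ℕ, n ≠ 0 → ∀ a : R, n • a = 0 → a = 0 := by
  intro n hn a h
  rw [nsmul_eq_mul] at h
  rcases mul_eq_zero.mp h with h | h
  · exact absurd (by exact_mod_cast h) hn
  · exact h

/-- two operators on `Hom_par(Γ_H(M), R)` whose `Γ₁(M)`-analogues (same representatives) commute on
the lattice commute -/
theorem ihm_comm_of_Gamma1 {ι ι' : Type} [Fintype ι] [Fintype ι']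
    (S₁ : tdmCosetSys (Gamma1 M) ι) (S₁' : tdmCosetSys (Gamma1 M) ι')
    (S : tdmCosetSys (ihfGammaH M H) ι) (S' : tdmCosetSys (ihfGammaH M H) ι')
    (h : S₁.rep = S.rep) (h' : S₁'.rep = S'.rep)
    (hcomm : ∀ x : ↥(tgeL (Gamma1 M)),
      S₁.homPar ℤ ℤ (S₁'.homPar ℤ ℤ x) = S₁'.homPar ℤ ℤ (S₁.homPar ℤ ℤ x))
    (x : IhfH R R M H) : S.homPar R R (S'.homPar R R x) = S'.homPar R R (S.homPar R R x) := by
  have hle : Gamma1 M ≤ ihfGammaH M H := ihfGamma1_le_GammaH
  apply Subtype.ext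
  apply ihm_res_injective hle (ihm_tf R)
  show t2fRes hle R (S.hom R (S'.hom R x.1)) = t2fRes hle R (S'.hom R (S.hom R x.1))
  rw [ihf_res_hom hle S₁ S h, ihf_res_hom hle S₁' S' h', ihf_res_hom hle S₁' S' h',
    ihf_res_hom hle S₁ S h]
  exact congrArg Subtype.val
    (ihm_comm_of_lattice (Gamma1 M) R S₁ S₁' hcomm (t2fResPar hle R R x))

end Transfer

/-! ### The commutation relations -/

section Relations

variable {M : ℕ} [NeZero M] (hM : 6 ≤ M) (H : Subgroup (ZMod M)ˣ) (R : Type*) [CommRing R]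
  [IsDomain R] [CharZero R]

include hM in
theorem ihm_lat_commute (a b : tgHeckeAlg M (∅ : Set ℕ)) (x : ↥(tgeL (Gamma1 M))) :
    tgeHecke M (tgePair_surjective_Gamma1_six M hM) ∅ a
        (tgeHecke M (tgePair_surjective_Gamma1_six M hM) ∅ b x)
      = tgeHecke M (tgePair_surjective_Gamma1_six M hM) ∅ b
        (tgeHecke M (tgePair_surjective_Gamma1_six M hM) ∅ a x) := by
  have h : tgeHecke M (tgePair_surjective_Gamma1_six M hM) ∅ a
      * tgeHecke M (tgePair_surjective_Gamma1_six M hM) ∅ b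
      = tgeHecke M (tgePair_surjective_Gamma1_six M hM) ∅ b
        * tgeHecke M (tgePair_surjective_Gamma1_six M hM) ∅ a := by
    rw [← map_mul, ← map_mul, mul_comm]
  exact congrArg (fun f : Module.End ℤ ↥(tgeL (Gamma1 M)) => f x) h

variable {ℓ ℓ' : ℕ} (hℓ : ℓ.Prime) (hℓM : ¬ ℓ ∣ M) (hℓ' : ℓ'.Prime) (hℓ'M : ¬ ℓ' ∣ M)
  {q q' : ℕ} (hq : q.Prime) (hqM : q ∣ M) (hq' : q'.Prime) (hq'M : q' ∣ M)

include hM in
/-- `T_ℓ T_ℓ' = T_ℓ' T_ℓ` -/
theorem ihm_T_T_comm (x : IhfH R R M H) :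
    (ihfSysT M H hℓ hℓM).homPar R R ((ihfSysT M H hℓ' hℓ'M).homPar R R x)
      = (ihfSysT M H hℓ' hℓ'M).homPar R R ((ihfSysT M H hℓ hℓM).homPar R R x) := by
  refine ihm_comm_of_Gamma1 H R (tgmSysT M hℓ hℓM) (tgmSysT M hℓ' hℓ'M) _ _ rfl rfl ?_ x
  intro y
  have := ihm_lat_commute hM (tgT hℓ hℓM (Set.notMem_empty ℓ)) (tgT hℓ' hℓ'M (Set.notMem_empty ℓ')) y
  rwa [tgeHecke_T, tgeHecke_T] at this

include hM in
/-- `T_ℓ U_q = U_q T_ℓ` -/
theorem ihm_T_U_comm (x : IhfH R R M H) :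
    (ihfSysT M H hℓ hℓM).homPar R R ((ihfSysU M H hqM hq.ne_zero).homPar R R x)
      = (ihfSysU M H hqM hq.ne_zero).homPar R R ((ihfSysT M H hℓ hℓM).homPar R R x) := by
  refine ihm_comm_of_Gamma1 H R (tgmSysT M hℓ hℓM) (tgmSysU M hqM hq.ne_zero) _ _ rfl rfl ?_ x
  intro y
  have := ihm_lat_commute hM (tgT hℓ hℓM (Set.notMem_empty ℓ)) (tgU hq hqM (Set.notMem_empty q)) y
  rwa [tgeHecke_T, tgeHecke_U] at this

include hM in
/-- `U_q U_q' = U_q' U_q` -/
theorem ihm_U_U_comm (x : IhfH R R M H) :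
    (ihfSysU M H hqM hq.ne_zero).homPar R R ((ihfSysU M H hq'M hq'.ne_zero).homPar R R x)
      = (ihfSysU M H hq'M hq'.ne_zero).homPar R R ((ihfSysU M H hqM hq.ne_zero).homPar R R x) := by
  refine ihm_comm_of_Gamma1 H R (tgmSysU M hqM hq.ne_zero) (tgmSysU M hq'M hq'.ne_zero) _ _ rfl rfl
    ?_ x
  intro y
  have := ihm_lat_commute hM (tgU hq hqM (Set.notMem_empty q)) (tgU hq' hq'M (Set.notMem_empty q')) y
  rwa [tgeHecke_U, tgeHecke_U] at this

include hM in
/-- `U_q ⟨d⟩ = ⟨d⟩ U_q` -/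
theorem ihm_U_D_comm (d : (ZMod M)ˣ) (x : IhfH R R M H) :
    (ihfSysU M H hqM hq.ne_zero).homPar R R ((ihfSysD M H d).homPar R R x)
      = (ihfSysD M H d).homPar R R ((ihfSysU M H hqM hq.ne_zero).homPar R R x) := by
  refine ihm_comm_of_Gamma1 H R (tgmSysU M hqM hq.ne_zero) (tgmSysD M d) _ _ rfl ?_ ?_ x
  · funext i; rfl
  · intro y
    have := ihm_lat_commute hM (tgU hq hqM (Set.notMem_empty q)) (tgDia M ∅ d) y
    rwa [tgeHecke_U, tgeHecke_D] at this

end Relations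

end Fermat.Agent.Ihara
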