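/-
IHARA track, package [HM] (helper1): **the Hecke module at `Γ_H(M)`-level**.

* `ihmOp O M H ℓ`   : the Hecke operator at the prime `ℓ` on `Hom_par(Γ_H(M), O)` (`U_ℓ` if `ℓ ∣ M`,
  `T_ℓ` otherwise), `ihmDia O M H d` the diamond operators; they all commute (`6 ≤ M`);
* `ihmPart O M H Ps θ`, `ihmCopart O M H Ps θ` : the `θ`-part (`ih4pNil`) and its complement
  (`ih4pInv`) for the family `ihmOp ℓ - θ ℓ` (`ℓ ∈ Ps`);
* `ihm_summand` : the `θ`-part is an `IhfSummand` if `θ ℓ₀ - (ℓ₀ + 1)` is a unit for some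
  `ℓ₀ ∈ Ps`, `ℓ₀ ∤ M`;
* `ihm_cor_mem_part`, `ihm_cor_mem_copart`, `ihm_res_mem_part`, `ihm_res_mem_copart` : the transfer
  and the restriction respect the parts;
* `ihm_free`, `ihm_control` : freeness over `O[Δ]` and control for the `θ`-parts.
-/
import Mathlib
import Fermat.Agent.Lib.Ihara.Hm.Comm
import Fermat.Agent.Lib.Ihara.H4.Part
import Fermat.Agent.Lib.Ihara.Fr.Main

set_option autoImplicit false
set_option linter.unusedSectionVars false
set_option linter.unusedVariables false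
set_option linter.style.haveILetI false

namespace Fermat.Agent.Ihara

open Matrix MatrixGroups CongruenceSubgroup ModularCurve ModularCurve.Period Module
open Fermat.Agent.DS Fermat.Agent.T1 Fermat.Agent.T1G Fermat.Agent.T2

/-! ### The operators -/

section Op

variable (O : Type*) [CommRing O] (M : ℕ) [NeZero M] (H : Subgroup (ZMod M)ˣ)

/-- the Hecke operator at the prime `ℓ` on `Hom_par(Γ_H(M), O)`: `U_ℓ` if `ℓ ∣ M`, `T_ℓ` otherwise
(and `0` if `ℓ` is not prime) -/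
noncomputable def ihmOp (ℓ : ℕ) : Module.End O (IhfH O O M H) := by
  classical
  exact if hℓ : ℓ.Prime then
    (if hM : ℓ ∣ M then (ihfSysU M H hM hℓ.ne_zero).homPar O O
      else (ihfSysT M H hℓ hM).homPar O O) else 0

theorem ihmOp_of_dvd {ℓ : ℕ} (hℓ : ℓ.Prime) (hM : ℓ ∣ M) :
    ihmOp O M H ℓ = (ihfSysU M H hM hℓ.ne_zero).homPar O O := by
  unfold ihmOp
  rw [dif_pos hℓ, dif_pos hM]

theorem ihmOp_of_not_dvd {ℓ : ℕ} (hℓ : ℓ.Prime) (hM : ¬ ℓ ∣ M) :
    ihmOp O M H ℓ = (ihfSysT M H hℓ hM).homPar O O := by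
  unfold ihmOp
  rw [dif_pos hℓ, dif_neg hM]

theorem ihmOp_of_not_prime {ℓ : ℕ} (hℓ : ¬ ℓ.Prime) : ihmOp O M H ℓ = 0 := by
  unfold ihmOp
  rw [dif_neg hℓ]

/-- the diamond operator `⟨d⟩` on `Hom_par(Γ_H(M), O)` -/
noncomputable def ihmDia (d : (ZMod M)ˣ) : Module.End O (IhfH O O M H) :=
  (ihfSysD M H d).homPar O O

end Op

section Comm

variable (O : Type*) [CommRing O] [IsDomain O] [CharZero O] (M : ℕ) [NeZero M] (hM : 6 ≤ M)
  (H : Subgroup (ZMod M)ˣ)

include hM in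
/-- the Hecke operators at level `Γ_H(M)` commute -/
theorem ihmOp_commute (ℓ ℓ' : ℕ) : Commute (ihmOp O M H ℓ) (ihmOp O M H ℓ') := by
  by_cases hℓ : ℓ.Prime
  swap
  · rw [ihmOp_of_not_prime O M H hℓ]; exact Commute.zero_left _
  by_cases hℓ' : ℓ'.Prime
  swap
  · rw [ihmOp_of_not_prime O M H hℓ']; exact Commute.zero_right _
  by_cases h1 : ℓ ∣ M <;> by_cases h2 : ℓ' ∣ M
  · rw [ihmOp_of_dvd O M H hℓ h1, ihmOp_of_dvd O M H hℓ' h2]
    exact LinearMap.ext fun x => ihm_U_U_comm hM H O hℓ h1 hℓ' h2 x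
  · rw [ihmOp_of_dvd O M H hℓ h1, ihmOp_of_not_dvd O M H hℓ' h2]
    exact LinearMap.ext fun x => (ihm_T_U_comm hM H O hℓ' h2 hℓ h1 x).symm
  · rw [ihmOp_of_not_dvd O M H hℓ h1, ihmOp_of_dvd O M H hℓ' h2]
    exact LinearMap.ext fun x => ihm_T_U_comm hM H O hℓ h1 hℓ' h2 x
  · rw [ihmOp_of_not_dvd O M H hℓ h1, ihmOp_of_not_dvd O M H hℓ' h2]
    exact LinearMap.ext fun x => ihm_T_T_comm hM H O hℓ h1 hℓ' h2 x

include hM in
/-- the Hecke operators commute with the diamond operators -/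
theorem ihmOp_commute_dia (ℓ : ℕ) (d : (ZMod M)ˣ) :
    Commute (ihmOp O M H ℓ) (ihmDia O M H d) := by
  by_cases hℓ : ℓ.Prime
  swap
  · rw [ihmOp_of_not_prime O M H hℓ]; exact Commute.zero_left _
  by_cases h1 : ℓ ∣ M
  · rw [ihmOp_of_dvd O M H hℓ h1]
    exact LinearMap.ext fun x => ihm_U_D_comm hM H O hℓ h1 d x
  · rw [ihmOp_of_not_dvd O M H hℓ h1]
    exact LinearMap.ext fun x => Subtype.ext (ihf_T_D_comm hℓ h1 d x.1)

include hM in
/-- the Hecke operators commute with the conjugations by `Γ₀(M)` -/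
theorem ihmOp_conj (ℓ : ℕ) (g : SL(2, ℤ)) (hg : g ∈ Gamma0 M) (x : IhfH O O M H) :
    ihmOp O M H ℓ ((ihfSysC M H g hg).homPar O O x)
      = (ihfSysC M H g hg).homPar O O (ihmOp O M H ℓ x) := by
  have h1 : (ihfSysC M H g hg).homPar O O = ihmDia O M H (ihfUnitHom M ⟨g, hg⟩) := by
    refine LinearMap.ext fun y => Subtype.ext ?_
    exact (ihfSysD_hom_eq M H _ g hg (ihfUnitHom_coe ⟨g, hg⟩).symm y.1).symm
  rw [h1]
  exact LinearMap.congr_fun (ihmOp_commute_dia O M hM H ℓ _).eq x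

end Comm

/-! ### The transfer and the restriction -/

section Cor

variable (O : Type*) [CommRing O] [IsDomain O] [CharZero O] (M : ℕ) [NeZero M] (hM : 6 ≤ M)
  {H H' : Subgroup (ZMod M)ˣ} (hle : H ≤ H') {I : Type} [Fintype I]
  (τ : IhfTrans (ihfGammaH M H) (ihfGammaH M H') I)

/-- the restriction commutes with the Hecke operators -/
theorem ihm_res_op (ℓ : ℕ) (x : IhfH O O M H') :
    t2fResPar (ihfGammaH_mono hle) O O (ihmOp O M H' ℓ x)
      = ihmOp O M H ℓ (t2fResPar (ihfGammaH_mono hle) O O x) := by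
  by_cases hℓ : ℓ.Prime
  swap
  · rw [ihmOp_of_not_prime O M H hℓ, ihmOp_of_not_prime O M H' hℓ, LinearMap.zero_apply,
      LinearMap.zero_apply, map_zero]
  by_cases h1 : ℓ ∣ M
  · rw [ihmOp_of_dvd O M H hℓ h1, ihmOp_of_dvd O M H' hℓ h1]
    exact Subtype.ext (ihf_res_hom (ihfGammaH_mono hle) (ihfSysU M H h1 hℓ.ne_zero)
      (ihfSysU M H' h1 hℓ.ne_zero) rfl x.1)
  · rw [ihmOp_of_not_dvd O M H hℓ h1, ihmOp_of_not_dvd O M H' hℓ h1]
    exact Subtype.ext (ihf_res_T hℓ h1 hle x.1)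

include hM in
/-- the transfer commutes with the Hecke operators -/
theorem ihm_cor_op (ℓ : ℕ) (x : IhfH O O M H) :
    (τ.sys (ihfGammaH_mono hle)).corPar O O (ihmOp O M H ℓ x)
      = ihmOp O M H' ℓ ((τ.sys (ihfGammaH_mono hle)).corPar O O x) := by
  have hinj : Function.Injective (t2fResPar (ihfGammaH_mono hle) O O) := by
    intro a b hab
    apply Subtype.ext
    exact ihm_res_injective (ihfGammaH_mono hle) (ihm_tf O) (congrArg Subtype.val hab)
  apply hinj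
  rw [ihm_res_op O M hle]
  have key : ∀ y : IhfH O O M H,
      t2fResPar (ihfGammaH_mono hle) O O ((τ.sys (ihfGammaH_mono hle)).corPar O O y)
        = ∑ i, (ihfSysC M H (τ.c i) (ihfGammaH_le_Gamma0 (τ.mem i))).homPar O O y := by
    intro y
    apply Subtype.ext
    rw [Submodule.coe_sum]
    exact ihf_res_cor hle τ y.1
  rw [key, key, map_sum]
  refine Finset.sum_congr rfl fun i _ => ?_
  exact (ihmOp_conj O M hM H ℓ _ _ x).symm

end Cor

/-! ### The `θ`-part -/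

section Part

variable (O : Type) [CommRing O] (M : ℕ) [NeZero M] (H : Subgroup (ZMod M)ˣ)

/-- the family `ihmOp ℓ - θ ℓ` (`ℓ ∈ Ps`) -/
noncomputable def ihmFam [IsLocalRing O] (Ps : Set ℕ) (θ : ℕ → O) :
    Ps → Module.End O (IhfH O O M H) :=
  fun ℓ => ihmOp O M H ℓ - algebraMap O (Module.End O (IhfH O O M H)) (θ ℓ)

/-- the `θ`-part of `Hom_par(Γ_H(M), O)` with respect to the Hecke operators at the primes in `Ps` -/
noncomputable def ihmPart [IsLocalRing O] (Ps : Set ℕ) (θ : ℕ → O) :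
    Submodule O (IhfH O O M H) :=
  ih4pNil (IsLocalRing.maximalIdeal O) (ihmFam O M H Ps θ)

/-- the complement of the `θ`-part -/
noncomputable def ihmCopart [IsLocalRing O] (Ps : Set ℕ) (θ : ℕ → O) :
    Submodule O (IhfH O O M H) :=
  ih4pInv (ihmFam O M H Ps θ)

variable [IsDomain O] [IsDiscreteValuationRing O] [CharZero O]
  [IsAdicComplete (IsLocalRing.maximalIdeal O) O] (hM : 6 ≤ M) (Ps : Set ℕ) (θ : ℕ → O)

include hM in
theorem ihmFam_commute (i j : Ps) : Commute (ihmFam O M H Ps θ i) (ihmFam O M H Ps θ j) := by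
  unfold ihmFam
  have h1 : Commute (ihmOp O M H i) (ihmOp O M H j) := ihmOp_commute O M hM H i j
  exact Commute.sub_left (R := Module.End O (IhfH O O M H))
    (Commute.sub_right (R := Module.End O (IhfH O O M H)) h1
      (Algebra.commute_algebraMap_right (θ j) (ihmOp O M H i)))
    (Algebra.commute_algebraMap_left (θ i) _)

include hM in
theorem ihmOp_commute_fam (ℓ : ℕ) (j : Ps) : Commute (ihmOp O M H ℓ) (ihmFam O M H Ps θ j) := by
  unfold ihmFam
  exact Commute.sub_right (R := Module.End O (IhfH O O M H)) (ihmOp_commute O M hM H ℓ j)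
    (Algebra.commute_algebraMap_right (θ j) (ihmOp O M H ℓ))

include hM in
theorem ihmDia_commute_fam (d : (ZMod M)ˣ) (j : Ps) :
    Commute (ihmDia O M H d) (ihmFam O M H Ps θ j) := by
  unfold ihmFam
  exact Commute.sub_right (R := Module.End O (IhfH O O M H))
    (ihmOp_commute_dia O M hM H j d).symm
    (Algebra.commute_algebraMap_right (θ j) (ihmDia O M H d))

include hM in
/-- the `θ`-part is a direct summand -/
theorem ihm_isCompl : IsCompl (ihmPart O M H Ps θ) (ihmCopart O M H Ps θ) :=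
  ih4p_isCompl (ihmFam O M H Ps θ) (ihmFam_commute O M H hM Ps θ)

include hM in
/-- **the `θ`-part is a non-Eisenstein summand** as soon as `θ ℓ₀ ≢ ℓ₀ + 1` for one `ℓ₀ ∈ Ps` -/
theorem ihm_summand {ℓ₀ : ℕ} (hℓ₀ : ℓ₀.Prime) (hℓ₀M : ¬ ℓ₀ ∣ M) (hℓ₀Ps : ℓ₀ ∈ Ps)
    (hθ : IsUnit (θ ℓ₀ - ((ℓ₀ : O) + 1))) :
    IhfSummand M H hℓ₀ hℓ₀M (ihmPart O M H Ps θ) (ihmCopart O M H Ps θ) := by
  have hT : (ihfSysT M H hℓ₀ hℓ₀M).homPar O O = ihmOp O M H ℓ₀ :=
    (ihmOp_of_not_dvd O M H hℓ₀ hℓ₀M).symm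
  refine ⟨ihm_isCompl O M H hM Ps θ, ?_, ?_, ?_, ?_⟩
  · intro d x hx
    exact ih4pNil_commute (f := ihmDia O M H d) (ihmDia_commute_fam O M H hM Ps θ d) hx
  · intro d y hy
    exact ih4pInv_commute (f := ihmDia O M H d) (ihmDia_commute_fam O M H hM Ps θ d) hy
  · intro x hx
    rw [hT]
    exact ih4pNil_commute (f := ihmOp O M H ℓ₀) (ihmOp_commute_fam O M H hM Ps θ ℓ₀) hx
  · intro x hx hmem
    obtain ⟨V, -, hV⟩ := ih4p_exists_inv_unit_add (ihmFam O M H Ps θ)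
      (ihmFam_commute O M H hM Ps θ) ⟨ℓ₀, hℓ₀Ps⟩ hθ
    have h1 : ihmFam O M H Ps θ ⟨ℓ₀, hℓ₀Ps⟩ x + (θ ℓ₀ - ((ℓ₀ : O) + 1)) • x
        = (ihfSysT M H hℓ₀ hℓ₀M).homPar O O x - ((ℓ₀ : O) + 1) • x := by
      unfold ihmFam
      rw [LinearMap.sub_apply, Module.algebraMap_end_apply, hT]
      show ihmOp O M H ℓ₀ x - θ ℓ₀ • x + (θ ℓ₀ - ((ℓ₀ : O) + 1)) • x = _
      module
    have h2 := (hV x hx).1
    rw [h1] at h2
    rw [← h2]
    have hVmem : ∀ z ∈ IsLocalRing.maximalIdeal O • ihmPart O M H Ps θ,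
        V z ∈ IsLocalRing.maximalIdeal O • ihmPart O M H Ps θ := by
      intro z hz
      refine Submodule.smul_induction_on hz ?_ ?_
      · intro a ha w hw
        rw [map_smul]
        exact Submodule.smul_mem_smul ha (hV w hw).2.2
      · intro w w' hw hw'
        rw [map_add]
        exact Submodule.add_mem _ hw hw'
    exact hVmem _ hmem

end Part

/-! ### Functoriality of the parts, freeness and control -/

section Main

variable (O : Type) [CommRing O] [IsDomain O] [IsDiscreteValuationRing O] [CharZero O]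
  [IsAdicComplete (IsLocalRing.maximalIdeal O) O] (M : ℕ) [NeZero M] (hM : 6 ≤ M)
  {H H' : Subgroup (ZMod M)ˣ} (hle : H ≤ H') {I : Type} [Fintype I]
  (τ : IhfTrans (ihfGammaH M H) (ihfGammaH M H') I) (Ps : Set ℕ) (θ : ℕ → O)

include hM in
theorem ihm_cor_fam (i : Ps) (y : IhfH O O M H) :
    (τ.sys (ihfGammaH_mono hle)).corPar O O (ihmFam O M H Ps θ i y)
      = ihmFam O M H' Ps θ i ((τ.sys (ihfGammaH_mono hle)).corPar O O y) := by
  unfold ihmFam
  rw [LinearMap.sub_apply, LinearMap.sub_apply, map_sub, ihm_cor_op O M hM hle τ,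
    Module.algebraMap_end_apply, Module.algebraMap_end_apply, map_smul]

theorem ihm_res_fam (i : Ps) (y : IhfH O O M H') :
    t2fResPar (ihfGammaH_mono hle) O O (ihmFam O M H' Ps θ i y)
      = ihmFam O M H Ps θ i (t2fResPar (ihfGammaH_mono hle) O O y) := by
  unfold ihmFam
  rw [LinearMap.sub_apply, LinearMap.sub_apply, map_sub, ihm_res_op O M hle,
    Module.algebraMap_end_apply, Module.algebraMap_end_apply, map_smul]

include hM in
/-- the transfer maps the `θ`-part into the `θ`-part -/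
theorem ihm_cor_mem_part {x : IhfH O O M H} (hx : x ∈ ihmPart O M H Ps θ) :
    (τ.sys (ihfGammaH_mono hle)).corPar O O x ∈ ihmPart O M H' Ps θ :=
  ih4pNil_map (f := (τ.sys (ihfGammaH_mono hle)).corPar O O)
    (fun i y => ihm_cor_fam O M hM hle τ Ps θ i y) hx

include hM in
/-- the transfer maps the complement into the complement -/
theorem ihm_cor_mem_copart {x : IhfH O O M H} (hx : x ∈ ihmCopart O M H Ps θ) :
    (τ.sys (ihfGammaH_mono hle)).corPar O O x ∈ ihmCopart O M H' Ps θ :=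
  ih4pInv_map (f := (τ.sys (ihfGammaH_mono hle)).corPar O O)
    (fun i y => ihm_cor_fam O M hM hle τ Ps θ i y) hx

/-- the restriction maps the `θ`-part into the `θ`-part -/
theorem ihm_res_mem_part {x : IhfH O O M H'} (hx : x ∈ ihmPart O M H' Ps θ) :
    t2fResPar (ihfGammaH_mono hle) O O x ∈ ihmPart O M H Ps θ :=
  ih4pNil_map (f := t2fResPar (ihfGammaH_mono hle) O O)
    (fun i y => ihm_res_fam O M hle Ps θ i y) hx

/-- the restriction maps the complement into the complement -/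
theorem ihm_res_mem_copart {x : IhfH O O M H'} (hx : x ∈ ihmCopart O M H' Ps θ) :
    t2fResPar (ihfGammaH_mono hle) O O x ∈ ihmCopart O M H Ps θ :=
  ih4pInv_map (f := t2fResPar (ihfGammaH_mono hle) O O)
    (fun i y => ihm_res_fam O M hle Ps θ i y) hx

variable {p : ℕ} (hL : IhfLevel p M H) (hpO : (p : O) ∈ IsLocalRing.maximalIdeal O)
  {ℓ₀ : ℕ} (hℓ₀ : ℓ₀.Prime) (hℓ₀M : ¬ ℓ₀ ∣ M) (hℓ₀Ps : ℓ₀ ∈ Ps)
  (hθ : IsUnit (θ ℓ₀ - ((ℓ₀ : O) + 1)))

include hM hL hpO hℓ₀ hℓ₀M hℓ₀Ps hθ in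
/-- **FREENESS of the `θ`-part over `O[Δ]`**, `Δ = (ℤ/M)ˣ / H`: it has an `O`-basis `⟨d⟩ w_i` -/
theorem ihm_free :
    ∃ (n : ℕ) (w : Fin n → IhfH O O M H)
      (b : Module.Basis (Fin n × ((ZMod M)ˣ ⧸ H)) O (ihmPart O M H Ps θ)),
      ∀ (i : Fin n) (d : (ZMod M)ˣ),
        ((b (i, (d : (ZMod M)ˣ ⧸ H)) : ihmPart O M H Ps θ) : IhfH O O M H)
          = ihmDia O M H d (w i) :=
  ihf_free hL hpO hℓ₀ hℓ₀M _ _ (ihm_summand O M H hM Ps θ hℓ₀ hℓ₀M hℓ₀Ps hθ)

include hM hL hpO hℓ₀ hℓ₀M hℓ₀Ps hθ in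
/-- **CONTROL for the `θ`-parts**: the transfer maps the `θ`-part at level `Γ_H` onto the `θ`-part at
level `Γ_{H'}`, with kernel `∑_{d ∈ H'} (⟨d⟩ - 1)` of the `θ`-part -/
theorem ihm_control :
    (∀ x' ∈ ihmPart O M H' Ps θ, ∃ x ∈ ihmPart O M H Ps θ,
      (τ.sys (ihfGammaH_mono hle)).corPar O O x = x') ∧
    (∀ x ∈ ihmPart O M H Ps θ, (τ.sys (ihfGammaH_mono hle)).corPar O O x = 0 →
      x ∈ Submodule.span O {y | ∃ d ∈ H', ∃ z ∈ ihmPart O M H Ps θ, y = ihmDia O M H d z - z}) :=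
  ihf_control_main hL hle hpO hℓ₀ hℓ₀M τ _ _
    (ihm_summand O M H hM Ps θ hℓ₀ hℓ₀M hℓ₀Ps hθ) _ _
    (ihm_summand O M H' hM Ps θ hℓ₀ hℓ₀M hℓ₀Ps hθ)
    (fun x hx => ihm_cor_mem_part O M hM hle τ Ps θ hx)
    (fun y hy => ihm_cor_mem_copart O M hM hle τ Ps θ hy)

end Main

end Fermat.Agent.Ihara
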