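/-
IHARA track, package [HM] (helper1): **the diamond action as a monoid homomorphism**, on
`Hom_par(Γ_H(M), O)` and on the `θ`-part, and the freeness statement in that language.
-/
import Mathlib
import Fermat.Agent.Lib.Ihara.Hm.Part

set_option autoImplicit false
set_option linter.unusedSectionVars false
set_option linter.unusedVariables false
set_option linter.style.haveILetI false

namespace Fermat.Agent.Ihara

open Matrix MatrixGroups CongruenceSubgroup ModularCurve ModularCurve.Period Module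
open Fermat.Agent.DS Fermat.Agent.T1 Fermat.Agent.T1G Fermat.Agent.T2

section Whole

variable (O : Type*) [CommRing O] (M : ℕ) [NeZero M] (H : Subgroup (ZMod M)ˣ)

theorem ihmDia_one : ihmDia O M H 1 = 1 :=
  LinearMap.ext fun x => Subtype.ext (ihfSysD_hom_one M H x.1)

theorem ihmDia_mul (d d' : (ZMod M)ˣ) : ihmDia O M H (d * d') = ihmDia O M H d * ihmDia O M H d' :=
  LinearMap.ext fun x => Subtype.ext (ihfSysD_hom_mul M H d d' x.1)

theorem ihmDia_of_mem {h : (ZMod M)ˣ} (hh : h ∈ H) : ihmDia O M H h = 1 :=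
  LinearMap.ext fun x => Subtype.ext (ihfSysD_hom_of_mem M H h hh x.1)

/-- the diamond action of `(ℤ/M)ˣ` on `Hom_par(Γ_H(M), O)` -/
noncomputable def ihmDiaHom : (ZMod M)ˣ →* Module.End O (IhfH O O M H) where
  toFun := ihmDia O M H
  map_one' := ihmDia_one O M H
  map_mul' := ihmDia_mul O M H

@[simp] theorem ihmDiaHom_apply (d : (ZMod M)ˣ) : ihmDiaHom O M H d = ihmDia O M H d := rfl

theorem ihmDiaHom_ker : H ≤ (ihmDiaHom O M H).ker := fun h hh =>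
  MonoidHom.mem_ker.mpr (ihmDia_of_mem O M H hh)

/-- the diamond action of `Δ = (ℤ/M)ˣ / H` on `Hom_par(Γ_H(M), O)` -/
noncomputable def ihmDiaQ : (ZMod M)ˣ ⧸ H →* Module.End O (IhfH O O M H) :=
  QuotientGroup.lift H (ihmDiaHom O M H) (ihmDiaHom_ker O M H)

@[simp] theorem ihmDiaQ_mk (d : (ZMod M)ˣ) :
    ihmDiaQ O M H (d : (ZMod M)ˣ ⧸ H) = ihmDia O M H d := rfl

end Whole

section OnPart

variable (O : Type) [CommRing O] [IsDomain O] [IsDiscreteValuationRing O] [CharZero O]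
  [IsAdicComplete (IsLocalRing.maximalIdeal O) O] (M : ℕ) [NeZero M] (hM : 6 ≤ M)
  (H : Subgroup (ZMod M)ˣ) (Ps : Set ℕ) (θ : ℕ → O)

include hM in
theorem ihmDia_mem_part (d : (ZMod M)ˣ) {x : IhfH O O M H} (hx : x ∈ ihmPart O M H Ps θ) :
    ihmDia O M H d x ∈ ihmPart O M H Ps θ :=
  ih4pNil_commute (f := ihmDia O M H d) (ihmDia_commute_fam O M H hM Ps θ d) hx

include hM in
theorem ihmDia_mem_copart (d : (ZMod M)ˣ) {x : IhfH O O M H} (hx : x ∈ ihmCopart O M H Ps θ) :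
    ihmDia O M H d x ∈ ihmCopart O M H Ps θ :=
  ih4pInv_commute (f := ihmDia O M H d) (ihmDia_commute_fam O M H hM Ps θ d) hx

include hM in
theorem ihmOp_mem_part (ℓ : ℕ) {x : IhfH O O M H} (hx : x ∈ ihmPart O M H Ps θ) :
    ihmOp O M H ℓ x ∈ ihmPart O M H Ps θ :=
  ih4pNil_commute (f := ihmOp O M H ℓ) (ihmOp_commute_fam O M H hM Ps θ ℓ) hx

include hM in
theorem ihmOp_mem_copart (ℓ : ℕ) {x : IhfH O O M H} (hx : x ∈ ihmCopart O M H Ps θ) :
    ihmOp O M H ℓ x ∈ ihmCopart O M H Ps θ :=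
  ih4pInv_commute (f := ihmOp O M H ℓ) (ihmOp_commute_fam O M H hM Ps θ ℓ) hx

/-- the diamond action of `(ℤ/M)ˣ` on the `θ`-part -/
noncomputable def ihmPartDiaHom :
    (ZMod M)ˣ →* Module.End O ↥(ihmPart O M H Ps θ) where
  toFun d := (ihmDia O M H d).restrict fun x hx => ihmDia_mem_part O M hM H Ps θ d hx
  map_one' := by
    refine LinearMap.ext fun x => Subtype.ext ?_
    show ihmDia O M H 1 x.1 = x.1
    rw [ihmDia_one]; rfl
  map_mul' d d' := by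
    refine LinearMap.ext fun x => Subtype.ext ?_
    show ihmDia O M H (d * d') x.1 = ihmDia O M H d (ihmDia O M H d' x.1)
    rw [ihmDia_mul]; rfl

theorem ihmPartDiaHom_coe (d : (ZMod M)ˣ) (x : ↥(ihmPart O M H Ps θ)) :
    ((ihmPartDiaHom O M hM H Ps θ d x : ↥(ihmPart O M H Ps θ)) : IhfH O O M H)
      = ihmDia O M H d x.1 := rfl

theorem ihmPartDiaHom_ker : H ≤ (ihmPartDiaHom O M hM H Ps θ).ker := by
  intro h hh
  rw [MonoidHom.mem_ker]
  refine LinearMap.ext fun x => Subtype.ext ?_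
  show ihmDia O M H h x.1 = x.1
  rw [ihmDia_of_mem O M H hh]; rfl

/-- **the diamond action of `Δ = (ℤ/M)ˣ / H` on the `θ`-part** -/
noncomputable def ihmPartDia : (ZMod M)ˣ ⧸ H →* Module.End O ↥(ihmPart O M H Ps θ) :=
  QuotientGroup.lift H (ihmPartDiaHom O M hM H Ps θ) (ihmPartDiaHom_ker O M hM H Ps θ)

theorem ihmPartDia_mk (d : (ZMod M)ˣ) :
    ihmPartDia O M hM H Ps θ (d : (ZMod M)ˣ ⧸ H) = ihmPartDiaHom O M hM H Ps θ d := rfl

theorem ihmPartDia_coe (d : (ZMod M)ˣ) (x : ↥(ihmPart O M H Ps θ)) :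
    ((ihmPartDia O M hM H Ps θ (d : (ZMod M)ˣ ⧸ H) x : ↥(ihmPart O M H Ps θ)) : IhfH O O M H)
      = ihmDia O M H d x.1 := rfl

/-- the Hecke operators on the `θ`-part -/
noncomputable def ihmPartOp (ℓ : ℕ) : Module.End O ↥(ihmPart O M H Ps θ) :=
  (ihmOp O M H ℓ).restrict fun x hx => ihmOp_mem_part O M hM H Ps θ ℓ hx

theorem ihmPartOp_coe (ℓ : ℕ) (x : ↥(ihmPart O M H Ps θ)) :
    ((ihmPartOp O M hM H Ps θ ℓ x : ↥(ihmPart O M H Ps θ)) : IhfH O O M H)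
      = ihmOp O M H ℓ x.1 := rfl

theorem ihmPartOp_commute (ℓ ℓ' : ℕ) :
    Commute (ihmPartOp O M hM H Ps θ ℓ) (ihmPartOp O M hM H Ps θ ℓ') := by
  refine LinearMap.ext fun x => Subtype.ext ?_
  exact LinearMap.congr_fun (ihmOp_commute O M hM H ℓ ℓ').eq x.1

theorem ihmPartOp_commute_dia (ℓ : ℕ) (δ : (ZMod M)ˣ ⧸ H) :
    Commute (ihmPartOp O M hM H Ps θ ℓ) (ihmPartDia O M hM H Ps θ δ) := by
  obtain ⟨d, rfl⟩ := QuotientGroup.mk_surjective δ
  refine LinearMap.ext fun x => Subtype.ext ?_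
  exact LinearMap.congr_fun (ihmOp_commute_dia O M hM H ℓ d).eq x.1

variable {p : ℕ} (hL : IhfLevel p M H) (hpO : (p : O) ∈ IsLocalRing.maximalIdeal O)
  {ℓ₀ : ℕ} (hℓ₀ : ℓ₀.Prime) (hℓ₀M : ¬ ℓ₀ ∣ M) (hℓ₀Ps : ℓ₀ ∈ Ps)
  (hθ : IsUnit (θ ℓ₀ - ((ℓ₀ : O) + 1)))

include hL hpO hℓ₀ hℓ₀M hℓ₀Ps hθ in
/-- **FREENESS of the `θ`-part over `O[Δ]`** in the language of the action `ihmPartDia`:
a basis of the form `δ • w_i`, `δ ∈ Δ = (ℤ/M)ˣ / H` -/
theorem ihm_free' :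
    ∃ (n : ℕ) (w : Fin n → ↥(ihmPart O M H Ps θ))
      (b : Module.Basis (Fin n × ((ZMod M)ˣ ⧸ H)) O ↥(ihmPart O M H Ps θ)),
      ∀ (i : Fin n) (δ : (ZMod M)ˣ ⧸ H), b (i, δ) = ihmPartDia O M hM H Ps θ δ (w i) := by
  obtain ⟨n, w, b, hb⟩ := ihm_free O M hM Ps θ hL hpO hℓ₀ hℓ₀M hℓ₀Ps hθ
  have hw : ∀ i, w i ∈ ihmPart O M H Ps θ := by
    intro i
    have h1 := hb i 1
    rw [ihmDia_one] at h1
    have h2 : w i = ((b (i, ((1 : (ZMod M)ˣ) : (ZMod M)ˣ ⧸ H)) : ↥(ihmPart O M H Ps θ)) :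
        IhfH O O M H) := h1.symm
    rw [h2]
    exact Subtype.property _
  refine ⟨n, fun i => ⟨w i, hw i⟩, b, fun i δ => ?_⟩
  obtain ⟨d, rfl⟩ := QuotientGroup.mk_surjective δ
  apply Subtype.ext
  rw [hb i d]
  rfl

end OnPart

end Fermat.Agent.Ihara
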