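/-
IHARA track, package [HM] (helper1): **the `θ`-part as a type of its own**.

`↥(ihmPart O M H Ps θ)` is a submodule of a submodule of `Additive Γ →+ O`; feeding it to abstract
algebra stated for `[AddCommGroup M] [Module O M]` makes the unifier compare two instance paths
(`Submodule.addCommMonoid` versus `Submodule.addCommGroup.toAddCommMonoid`) through three levels,
which is very slow.  `IhmPartT O M H Ps θ` is the same type behind a `def`, with ONE instance path;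
use it (with `ihmPartTDia`, `ihmPartTOp`, `ihm_free_T`) whenever the `θ`-part is the `M` of an
abstract statement (quotients, `Module.End`-algebra, …).
-/
import Mathlib
import Fermat.Agent.Lib.Ihara.Hm.Dia

set_option autoImplicit false
set_option linter.unusedSectionVars false
set_option linter.unusedVariables false
set_option linter.style.haveILetI false

namespace Fermat.Agent.Ihara

open Matrix MatrixGroups CongruenceSubgroup ModularCurve ModularCurve.Period Module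
open Fermat.Agent.DS Fermat.Agent.T1 Fermat.Agent.T1G Fermat.Agent.T2

section PartT

variable (O : Type) [CommRing O] [IsDomain O] [IsDiscreteValuationRing O] [CharZero O]
  [IsAdicComplete (IsLocalRing.maximalIdeal O) O] (M : ℕ) [NeZero M] (hM : 6 ≤ M)
  (H : Subgroup (ZMod M)ˣ) (Ps : Set ℕ) (θ : ℕ → O)

/-- the `θ`-part of `Hom_par(Γ_H(M), O)` as a type of its own -/
def IhmPartT : Type := ↥(ihmPart O M H Ps θ)

noncomputable instance ihmPartT_addCommGroup : AddCommGroup (IhmPartT O M H Ps θ) :=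
  inferInstanceAs (AddCommGroup ↥(ihmPart O M H Ps θ))

noncomputable instance ihmPartT_module : Module O (IhmPartT O M H Ps θ) :=
  inferInstanceAs (Module O ↥(ihmPart O M H Ps θ))

/-- the identification with the submodule -/
noncomputable def ihmPartTEquiv : IhmPartT O M H Ps θ ≃ₗ[O] ↥(ihmPart O M H Ps θ) :=
  LinearEquiv.refl O ↥(ihmPart O M H Ps θ)

/-- the inclusion of the `θ`-part into `Hom_par(Γ_H(M), O)` -/
noncomputable def ihmPartTIncl : IhmPartT O M H Ps θ →ₗ[O] IhfH O O M H :=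
  (ihmPart O M H Ps θ).subtype ∘ₗ (ihmPartTEquiv O M H Ps θ).toLinearMap

theorem ihmPartTIncl_injective : Function.Injective (ihmPartTIncl O M H Ps θ) := by
  intro x y h
  exact Subtype.ext h

theorem ihmPartTIncl_mem (x : IhmPartT O M H Ps θ) :
    ihmPartTIncl O M H Ps θ x ∈ ihmPart O M H Ps θ :=
  Subtype.property (ihmPartTEquiv O M H Ps θ x)

theorem ihmPartTIncl_range : LinearMap.range (ihmPartTIncl O M H Ps θ) = ihmPart O M H Ps θ := by
  apply le_antisymm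
  · rintro _ ⟨x, rfl⟩
    exact ihmPartTIncl_mem O M H Ps θ x
  · intro y hy
    exact ⟨(ihmPartTEquiv O M H Ps θ).symm ⟨y, hy⟩, rfl⟩

instance ihmPartT_finite : Module.Finite O (IhmPartT O M H Ps θ) :=
  Module.Finite.of_injective (ihmPartTIncl O M H Ps θ) (ihmPartTIncl_injective O M H Ps θ)

/-- the diamond action of `Δ = (ℤ/M)ˣ / H` on the `θ`-part -/
noncomputable def ihmPartTDia : (ZMod M)ˣ ⧸ H →* Module.End O (IhmPartT O M H Ps θ) :=
  ihmPartDia O M hM H Ps θ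

/-- the Hecke operators on the `θ`-part -/
noncomputable def ihmPartTOp (ℓ : ℕ) : Module.End O (IhmPartT O M H Ps θ) :=
  ihmPartOp O M hM H Ps θ ℓ

theorem ihmPartTIncl_dia (d : (ZMod M)ˣ) (x : IhmPartT O M H Ps θ) :
    ihmPartTIncl O M H Ps θ (ihmPartTDia O M hM H Ps θ (d : (ZMod M)ˣ ⧸ H) x)
      = ihmDia O M H d (ihmPartTIncl O M H Ps θ x) := rfl

theorem ihmPartTIncl_op (ℓ : ℕ) (x : IhmPartT O M H Ps θ) :
    ihmPartTIncl O M H Ps θ (ihmPartTOp O M hM H Ps θ ℓ x)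
      = ihmOp O M H ℓ (ihmPartTIncl O M H Ps θ x) := rfl

theorem ihmPartTOp_commute (ℓ ℓ' : ℕ) :
    Commute (ihmPartTOp O M hM H Ps θ ℓ) (ihmPartTOp O M hM H Ps θ ℓ') :=
  ihmPartOp_commute O M hM H Ps θ ℓ ℓ'

theorem ihmPartTOp_commute_dia (ℓ : ℕ) (δ : (ZMod M)ˣ ⧸ H) :
    Commute (ihmPartTOp O M hM H Ps θ ℓ) (ihmPartTDia O M hM H Ps θ δ) :=
  ihmPartOp_commute_dia O M hM H Ps θ ℓ δ

omit [NeZero M] in
theorem ihm_quot_comm (a b : (ZMod M)ˣ ⧸ H) : a * b = b * a := mul_comm a b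

variable {p : ℕ} (hL : IhfLevel p M H) (hpO : (p : O) ∈ IsLocalRing.maximalIdeal O)
  {ℓ₀ : ℕ} (hℓ₀ : ℓ₀.Prime) (hℓ₀M : ¬ ℓ₀ ∣ M) (hℓ₀Ps : ℓ₀ ∈ Ps)
  (hθ : IsUnit (θ ℓ₀ - ((ℓ₀ : O) + 1)))

include hL hpO hℓ₀ hℓ₀M hℓ₀Ps hθ in
/-- **FREENESS of the `θ`-part over `O[Δ]`**: a basis of the form `δ • w_i`, `δ ∈ Δ` -/
theorem ihm_free_T :
    ∃ (n : ℕ) (w : Fin n → IhmPartT O M H Ps θ)
      (b : Module.Basis (Fin n × ((ZMod M)ˣ ⧸ H)) O (IhmPartT O M H Ps θ)),
      ∀ (i : Fin n) (δ : (ZMod M)ˣ ⧸ H), b (i, δ) = ihmPartTDia O M hM H Ps θ δ (w i) := by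
  obtain ⟨n, w, b, hb⟩ := ihm_free' O M hM H Ps θ hL hpO hℓ₀ hℓ₀M hℓ₀Ps hθ
  exact ⟨n, w, b.map (ihmPartTEquiv O M H Ps θ).symm, fun i δ => hb i δ⟩

end PartT

end Fermat.Agent.Ihara
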