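/-
IHARA track, package [HM] (helper1): **the `χ`-quotient of the `θ`-part** of `Hom_par(Γ_H(M), O)`:
`Δ = (ℤ/M)ˣ / H`, `Δ₁ ≤ Δ` with complement `Δ₂`, `χ : Δ₁ →* O`;
`IhmChiPart = IhmPartT / (δ - χ δ : δ ∈ Δ₁)` is free over `O[Δ₂]`, carries the Hecke operators, and
its reduction modulo an ideal `𝔞` with `χ ≡ χ' mod 𝔞` does not depend on `χ`.
(Everything is an instance of `Hm/Chi.lean` for `M := IhmPartT O M H Ps θ`, `ρ := ihmPartTDia`.)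
-/
import Mathlib
import Fermat.Agent.Lib.Ihara.Hm.PartT
import Fermat.Agent.Lib.Ihara.Hm.Chi

set_option autoImplicit false
set_option linter.unusedSectionVars false
set_option linter.unusedVariables false
set_option linter.style.haveILetI false

namespace Fermat.Agent.Ihara

open Matrix MatrixGroups CongruenceSubgroup ModularCurve ModularCurve.Period Module
open Fermat.Agent.DS Fermat.Agent.T1 Fermat.Agent.T1G Fermat.Agent.T2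

section ChiPart

variable (O : Type) [CommRing O] [IsDomain O] [IsDiscreteValuationRing O] [CharZero O]
  [IsAdicComplete (IsLocalRing.maximalIdeal O) O] (M : ℕ) [NeZero M] (hM : 6 ≤ M)
  (H : Subgroup (ZMod M)ˣ) (Ps : Set ℕ) (θ : ℕ → O)
  (Δ₁ : Subgroup ((ZMod M)ˣ ⧸ H)) (χ : Δ₁ →* O)

/-- the `χ`-quotient of the `θ`-part -/
abbrev IhmChiPart : Type := IhmChi (ihmPartTDia O M hM H Ps θ) Δ₁ χ

/-- the projection of the `θ`-part onto its `χ`-quotient -/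
noncomputable def ihmChiPartMk : IhmPartT O M H Ps θ →ₗ[O] IhmChiPart O M hM H Ps θ Δ₁ χ :=
  (ihmChiSub (ihmPartTDia O M hM H Ps θ) Δ₁ χ).mkQ

theorem ihmChiPartMk_surjective : Function.Surjective (ihmChiPartMk O M hM H Ps θ Δ₁ χ) :=
  Submodule.mkQ_surjective _

/-- the kernel of the projection is spanned by the `δ x - χ δ • x`, `δ ∈ Δ₁` -/
theorem ihmChiPartMk_ker :
    LinearMap.ker (ihmChiPartMk O M hM H Ps θ Δ₁ χ)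
      = Submodule.span O {y | ∃ (g : Δ₁) (x : IhmPartT O M H Ps θ),
          y = ihmPartTDia O M hM H Ps θ g x - χ g • x} :=
  Submodule.ker_mkQ _

/-- the Hecke operator at `ℓ` on the `χ`-quotient -/
noncomputable def ihmChiOp (ℓ : ℕ) : Module.End O (IhmChiPart O M hM H Ps θ Δ₁ χ) :=
  ihmChiMap (ihmPartTDia O M hM H Ps θ) Δ₁ χ (ihmPartTOp O M hM H Ps θ ℓ)
    (fun g => ihmPartTOp_commute_dia O M hM H Ps θ ℓ g)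

theorem ihmChiOp_mk (ℓ : ℕ) (x : IhmPartT O M H Ps θ) :
    ihmChiOp O M hM H Ps θ Δ₁ χ ℓ (ihmChiPartMk O M hM H Ps θ Δ₁ χ x)
      = ihmChiPartMk O M hM H Ps θ Δ₁ χ (ihmPartTOp O M hM H Ps θ ℓ x) := rfl

/-- the action of `Δ` on the `χ`-quotient (`Δ₁` acts through `χ`) -/
noncomputable def ihmChiDia :
    (ZMod M)ˣ ⧸ H →* Module.End O (IhmChiPart O M hM H Ps θ Δ₁ χ) :=
  ihmChiRho (ihm_quot_comm M H) (ihmPartTDia O M hM H Ps θ) Δ₁ χ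

theorem ihmChiDia_mk (δ : (ZMod M)ˣ ⧸ H) (x : IhmPartT O M H Ps θ) :
    ihmChiDia O M hM H Ps θ Δ₁ χ δ (ihmChiPartMk O M hM H Ps θ Δ₁ χ x)
      = ihmChiPartMk O M hM H Ps θ Δ₁ χ (ihmPartTDia O M hM H Ps θ δ x) := rfl

theorem ihmChiDia_of_mem (δ : Δ₁) (x : IhmChiPart O M hM H Ps θ Δ₁ χ) :
    ihmChiDia O M hM H Ps θ Δ₁ χ δ x = χ δ • x :=
  ihmChiRho_of_mem (ihm_quot_comm M H) (ihmPartTDia O M hM H Ps θ) Δ₁ χ δ x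

theorem ihmChiOp_commute (ℓ ℓ' : ℕ) :
    Commute (ihmChiOp O M hM H Ps θ Δ₁ χ ℓ) (ihmChiOp O M hM H Ps θ Δ₁ χ ℓ') :=
  ihmChiMap_commute (ihmPartTDia O M hM H Ps θ) Δ₁ χ _ _ _ _
    (ihmPartTOp_commute O M hM H Ps θ ℓ ℓ')

theorem ihmChiOp_commute_dia (ℓ : ℕ) (δ : (ZMod M)ˣ ⧸ H) :
    Commute (ihmChiOp O M hM H Ps θ Δ₁ χ ℓ) (ihmChiDia O M hM H Ps θ Δ₁ χ δ) :=
  ihmChiMap_commute_rho (ihm_quot_comm M H) (ihmPartTDia O M hM H Ps θ) Δ₁ χ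
    (ihmPartTOp O M hM H Ps θ ℓ) (fun g => ihmPartTOp_commute_dia O M hM H Ps θ ℓ g) δ

variable {p : ℕ} (hL : IhfLevel p M H) (hpO : (p : O) ∈ IsLocalRing.maximalIdeal O)
  {ℓ₀ : ℕ} (hℓ₀ : ℓ₀.Prime) (hℓ₀M : ¬ ℓ₀ ∣ M) (hℓ₀Ps : ℓ₀ ∈ Ps)
  (hθ : IsUnit (θ ℓ₀ - ((ℓ₀ : O) + 1)))

include hL hpO hℓ₀ hℓ₀M hℓ₀Ps hθ in
/-- **the `χ`-quotients of the `θ`-part are free over `O[Δ₂]`** for a complement `Δ₂` of `Δ₁`, all
of the same rank `n` = the rank of the `θ`-part over `O[Δ]` (ONE `n` and ONE family `w` serving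
every `Δ₁`, `χ`, `Δ₂`) -/
theorem ihm_chi_part_free :
    ∃ (n : ℕ) (w : Fin n → IhmPartT O M H Ps θ)
      (b : Module.Basis (Fin n × ((ZMod M)ˣ ⧸ H)) O (IhmPartT O M H Ps θ)),
      (∀ i δ, b (i, δ) = ihmPartTDia O M hM H Ps θ δ (w i)) ∧
      ∀ (Δ₁' : Subgroup ((ZMod M)ˣ ⧸ H)) (χ' : Δ₁' →* O) (Δ₂' : Subgroup ((ZMod M)ˣ ⧸ H)),
        IsCompl Δ₁' Δ₂' →
        ∃ b' : Module.Basis (Fin n × Δ₂') O (IhmChiPart O M hM H Ps θ Δ₁' χ'),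
          ∀ (i : Fin n) (g : Δ₂'), b' (i, g)
            = ihmChiDia O M hM H Ps θ Δ₁' χ' (g : (ZMod M)ˣ ⧸ H)
                (ihmChiPartMk O M hM H Ps θ Δ₁' χ' (w i)) := by
  obtain ⟨n, w, b, hb⟩ := ihm_free_T O M hM H Ps θ hL hpO hℓ₀ hℓ₀M hℓ₀Ps hθ
  refine ⟨n, w, b, hb, fun Δ₁' χ' Δ₂' hc' => ?_⟩
  exact ihm_chi_free (ihm_quot_comm M H) (ihmPartTDia O M hM H Ps θ) Δ₁' χ' w b hb Δ₂' hc'

/-- **if an endomorphism `t` of the `θ`-part commuting with `Δ₁` kills the `χ'`-quotient then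
`t (M^χ) ⊆ 𝔞 M^χ`** whenever `χ ≡ χ'` modulo `𝔞` -/
theorem ihm_chi_part_kill (𝔞 : Ideal O) (χ' : Δ₁ →* O) (hχ : ∀ g : Δ₁, χ g - χ' g ∈ 𝔞)
    (t : Module.End O (IhmPartT O M H Ps θ))
    (ht : ∀ g : Δ₁, Commute t (ihmPartTDia O M hM H Ps θ g))
    (h0 : ihmChiMap (ihmPartTDia O M hM H Ps θ) Δ₁ χ' t ht = 0)
    (x : IhmChiPart O M hM H Ps θ Δ₁ χ) :
    ihmChiMap (ihmPartTDia O M hM H Ps θ) Δ₁ χ t ht x
      ∈ 𝔞 • (⊤ : Submodule O (IhmChiPart O M hM H Ps θ Δ₁ χ)) :=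
  ihm_chi_kill (ihmPartTDia O M hM H Ps θ) Δ₁ χ 𝔞 χ' hχ t ht h0 x

/-- **the canonical isomorphism `M^χ / 𝔞 ≃ M^χ' / 𝔞`** (`χ ≡ χ'` modulo `𝔞`) -/
noncomputable def ihmChiPartModEquiv (𝔞 : Ideal O) (χ' : Δ₁ →* O)
    (hχ : ∀ g : Δ₁, χ g - χ' g ∈ 𝔞) :
    IhmChiMod (ihmPartTDia O M hM H Ps θ) Δ₁ χ 𝔞
      ≃ₗ[O] IhmChiMod (ihmPartTDia O M hM H Ps θ) Δ₁ χ' 𝔞 :=
  ihmChiModEquiv (ihmPartTDia O M hM H Ps θ) Δ₁ χ 𝔞 χ' hχ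

/-- the canonical isomorphism is compatible with every endomorphism commuting with `Δ₁` -/
theorem ihmChiPartModEquiv_map (𝔞 : Ideal O) (χ' : Δ₁ →* O) (hχ : ∀ g : Δ₁, χ g - χ' g ∈ 𝔞)
    (t : Module.End O (IhmPartT O M H Ps θ))
    (ht : ∀ g : Δ₁, Commute t (ihmPartTDia O M hM H Ps θ g))
    (x : IhmChiMod (ihmPartTDia O M hM H Ps θ) Δ₁ χ 𝔞) :
    ihmChiPartModEquiv O M hM H Ps θ Δ₁ χ 𝔞 χ' hχ
        (ihmChiMapMod (ihmPartTDia O M hM H Ps θ) Δ₁ χ 𝔞 t ht x)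
      = ihmChiMapMod (ihmPartTDia O M hM H Ps θ) Δ₁ χ' 𝔞 t ht
        (ihmChiPartModEquiv O M hM H Ps θ Δ₁ χ 𝔞 χ' hχ x) :=
  ihmChiModEquiv_map (ihmPartTDia O M hM H Ps θ) Δ₁ χ 𝔞 χ' hχ t ht x

end ChiPart

end Fermat.Agent.Ihara
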