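/-
IHARA track, package [HM] (helper1): **nilpotence statements on the `θ`-part and its `χ`-quotients**
(the `hnil` supplier of helper7's `ihi_part_eq_top`):
* `ihmPartTOp_nil` : for `ℓ ∈ Ps`, a power of `ihmPartTOp ℓ - θ ℓ` maps the `θ`-part into `𝔪^n`;
* `ihmChiOp_nil`   : the same on the `χ`-quotient;
* `ihm_quot_pow`, `ihmPartTDia_pow`, `ihmChiDia_pow` : the diamonds have `p`-power order.
-/
import Mathlib
import Fermat.Agent.Lib.Ihara.Hm.ChiPart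

set_option autoImplicit false
set_option linter.unusedSectionVars false
set_option linter.unusedVariables false
set_option linter.style.haveILetI false

namespace Fermat.Agent.Ihara

open Matrix MatrixGroups CongruenceSubgroup ModularCurve ModularCurve.Period Module
open Fermat.Agent.DS Fermat.Agent.T1 Fermat.Agent.T1G Fermat.Agent.T2

section Nil

variable (O : Type) [CommRing O] [IsDomain O] [IsDiscreteValuationRing O] [CharZero O]
  [IsAdicComplete (IsLocalRing.maximalIdeal O) O] (M : ℕ) [NeZero M] (hM : 6 ≤ M)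
  (H : Subgroup (ZMod M)ˣ) (Ps : Set ℕ) (θ : ℕ → O)

include hM in
/-- a retraction of the inclusion of the `θ`-part -/
theorem ihm_exists_retraction :
    ∃ π : IhfH O O M H →ₗ[O] IhmPartT O M H Ps θ,
      ∀ x : IhmPartT O M H Ps θ, π (ihmPartTIncl O M H Ps θ x) = x := by
  have hc := ihm_isCompl O M H hM Ps θ
  refine ⟨(ihmPartTEquiv O M H Ps θ).symm.toLinearMap ∘ₗ
    Submodule.projectionOnto _ _ hc, fun x => ?_⟩
  show (ihmPartTEquiv O M H Ps θ).symm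
    (Submodule.projectionOnto _ _ hc ((ihmPartTEquiv O M H Ps θ x : ↥(ihmPart O M H Ps θ)) :
      IhfH O O M H)) = x
  rw [Submodule.projectionOnto_apply_left]
  exact (ihmPartTEquiv O M H Ps θ).symm_apply_apply x

theorem ihmPartTIncl_fam_pow (ℓ : Ps) (N : ℕ) (x : IhmPartT O M H Ps θ) :
    ihmPartTIncl O M H Ps θ
        (((ihmPartTOp O M hM H Ps θ ℓ
          - algebraMap O (Module.End O (IhmPartT O M H Ps θ)) (θ ℓ)) ^ N) x)
      = (ihmFam O M H Ps θ ℓ ^ N) (ihmPartTIncl O M H Ps θ x) := by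
  refine ih4p_intertwine_pow (f := ihmPartTIncl O M H Ps θ) (fun y => ?_) N x
  show ihmPartTIncl O M H Ps θ (ihmPartTOp O M hM H Ps θ ℓ y - θ ℓ • y) = _
  rw [map_sub, map_smul, ihmPartTIncl_op]
  rfl

include hM in
/-- **uniform topological nilpotence of `T_ℓ - θ ℓ` (`ℓ ∈ Ps`) on the `θ`-part** -/
theorem ihmPartTOp_nil {ℓ : ℕ} (hℓ : ℓ ∈ Ps) (n : ℕ) :
    ∃ N : ℕ, ∀ x : IhmPartT O M H Ps θ,
      ((ihmPartTOp O M hM H Ps θ ℓ
          - algebraMap O (Module.End O (IhmPartT O M H Ps θ)) (θ ℓ)) ^ N) x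
        ∈ IsLocalRing.maximalIdeal O ^ n • (⊤ : Submodule O (IhmPartT O M H Ps θ)) := by
  obtain ⟨N, hN⟩ := ih4p_exists_pow_apply_mem_nil (ihmFam O M H Ps θ)
    (ihmFam_commute O M H hM Ps θ) ⟨ℓ, hℓ⟩ n
  obtain ⟨π, hπ⟩ := ihm_exists_retraction O M hM H Ps θ
  refine ⟨N, fun x => ?_⟩
  have h1 := hN _ (ihmPartTIncl_mem O M H Ps θ x)
  rw [← ihmPartTIncl_fam_pow O M hM H Ps θ ⟨ℓ, hℓ⟩ N x] at h1
  have h2 := ih4p_map_mem_smul_top π _ h1
  rwa [hπ] at h2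

variable (Δ₁ : Subgroup ((ZMod M)ˣ ⧸ H)) (χ : Δ₁ →* O)

theorem ihmChiPartMk_fam_pow (ℓ : ℕ) (c : O) (N : ℕ) (x : IhmPartT O M H Ps θ) :
    ihmChiPartMk O M hM H Ps θ Δ₁ χ
        (((ihmPartTOp O M hM H Ps θ ℓ
          - algebraMap O (Module.End O (IhmPartT O M H Ps θ)) c) ^ N) x)
      = ((ihmChiOp O M hM H Ps θ Δ₁ χ ℓ
          - algebraMap O (Module.End O (IhmChiPart O M hM H Ps θ Δ₁ χ)) c) ^ N)
        (ihmChiPartMk O M hM H Ps θ Δ₁ χ x) := by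
  refine ih4p_intertwine_pow (f := ihmChiPartMk O M hM H Ps θ Δ₁ χ) (fun y => ?_) N x
  show ihmChiPartMk O M hM H Ps θ Δ₁ χ (ihmPartTOp O M hM H Ps θ ℓ y - c • y) = _
  rw [map_sub, map_smul, ← ihmChiOp_mk]
  rfl

include hM in
/-- **uniform topological nilpotence of `T_ℓ - θ ℓ` (`ℓ ∈ Ps`) on the `χ`-quotient** -/
theorem ihmChiOp_nil {ℓ : ℕ} (hℓ : ℓ ∈ Ps) (n : ℕ) :
    ∃ N : ℕ, ∀ x : IhmChiPart O M hM H Ps θ Δ₁ χ,
      ((ihmChiOp O M hM H Ps θ Δ₁ χ ℓ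
          - algebraMap O (Module.End O (IhmChiPart O M hM H Ps θ Δ₁ χ)) (θ ℓ)) ^ N) x
        ∈ IsLocalRing.maximalIdeal O ^ n • (⊤ : Submodule O (IhmChiPart O M hM H Ps θ Δ₁ χ)) := by
  obtain ⟨N, hN⟩ := ihmPartTOp_nil O M hM H Ps θ hℓ n
  refine ⟨N, fun x => ?_⟩
  obtain ⟨y, rfl⟩ := ihmChiPartMk_surjective O M hM H Ps θ Δ₁ χ x
  rw [← ihmChiPartMk_fam_pow]
  exact ih4p_map_mem_smul_top (ihmChiPartMk O M hM H Ps θ Δ₁ χ) _ (hN y)

variable {p : ℕ} (hL : IhfLevel p M H)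

include hL in
omit [NeZero M] in
/-- `Δ = (ℤ/M)ˣ / H` is a `p`-group -/
theorem ihm_quot_pow (δ : (ZMod M)ˣ ⧸ H) : ∃ n : ℕ, δ ^ p ^ n = 1 := by
  obtain ⟨d, rfl⟩ := QuotientGroup.mk_surjective δ
  obtain ⟨n, hn⟩ := hL.pgroup d
  refine ⟨n, ?_⟩
  rw [← QuotientGroup.mk_pow]
  exact (QuotientGroup.eq_one_iff _).mpr hn

include hL in
theorem ihmPartTDia_pow (δ : (ZMod M)ˣ ⧸ H) :
    ∃ n : ℕ, ihmPartTDia O M hM H Ps θ δ ^ p ^ n = 1 := by
  obtain ⟨n, hn⟩ := ihm_quot_pow M H hL δ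
  exact ⟨n, by rw [← map_pow, hn, map_one]⟩

include hL in
theorem ihmChiDia_pow (δ : (ZMod M)ˣ ⧸ H) :
    ∃ n : ℕ, ihmChiDia O M hM H Ps θ Δ₁ χ δ ^ p ^ n = 1 := by
  obtain ⟨n, hn⟩ := ihm_quot_pow M H hL δ
  exact ⟨n, by rw [← map_pow, hn, map_one]⟩

end Nil

end Fermat.Agent.Ihara
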