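/-
IHARA track, package [HM]/[LVL] (helper1): **the rank of the `θ`-part over `O[Δ]`**.
If the `θ`-part at level `Γ_H(M)` has an `O`-basis `δ • w_i` (`i : Fin n`, `δ ∈ Δ = (ℤ/M)ˣ/H`), then
`n = finrank O (ih4Part O M Ps θ)` (the `Γ₀(M)`-level of helper3), and along a list of Taylor–Wiles
primes `n = finrank O (ih4Part O N Ps (ih4Shift O θ b Q))` does not depend on the list.
-/
import Mathlib
import Fermat.Agent.Lib.Ihara.Hm.Ctrl

set_option autoImplicit false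
set_option linter.unusedSectionVars false
set_option linter.unusedVariables false
set_option linter.style.haveILetI false

namespace Fermat.Agent.Ihara

open Matrix MatrixGroups CongruenceSubgroup ModularCurve ModularCurve.Period Module
open Fermat.Agent.DS Fermat.Agent.T1 Fermat.Agent.T1G Fermat.Agent.T2

section Rank

variable (O : Type) [CommRing O] [IsDomain O] [IsDiscreteValuationRing O] [CharZero O]
  [IsAdicComplete (IsLocalRing.maximalIdeal O) O] (M : ℕ) [NeZero M] (hM : 6 ≤ M)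
  (H : Subgroup (ZMod M)ˣ) (Ps : Set ℕ) (θ : ℕ → O)

omit [NeZero M] in
theorem ihm_basis_subsingleton_iff {X : Type*} [AddCommGroup X] [Module O X] {ι : Type*}
    (b : Module.Basis ι O X) : Subsingleton X ↔ IsEmpty ι := by
  constructor
  · intro h
    by_contra hne
    rw [not_isEmpty_iff] at hne
    obtain ⟨i⟩ := hne
    exact b.ne_zero i (Subsingleton.elim _ _)
  · intro h
    exact b.repr.toEquiv.subsingleton

theorem ihm_map_top_part :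
    (ihmPart O M ⊤ Ps θ).map (ihmTop O M).toLinearMap = ih4Part O M Ps θ := by
  ext y
  constructor
  · rintro ⟨x, hx, rfl⟩
    exact (ihmTop_mem_part O M Ps θ).mpr hx
  · intro hy
    refine ⟨(ihmTop O M).symm y, ?_, (ihmTop O M).apply_symm_apply y⟩
    rw [SetLike.mem_coe, ← ihmTop_mem_part O M Ps θ, LinearEquiv.apply_symm_apply]
    exact hy

/-- the `θ`-part at the top level is helper3's `ih4Part` -/
noncomputable def ihmTopPart : IhmPartT O M ⊤ Ps θ ≃ₗ[O] ↥(ih4Part O M Ps θ) :=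
  (ihmPartTEquiv O M ⊤ Ps θ).trans
    (LinearEquiv.ofSubmodules (ihmTop O M) (ihmPart O M ⊤ Ps θ) (ih4Part O M Ps θ)
      (ihm_map_top_part O M Ps θ))

theorem ihmTopPart_coe (x : IhmPartT O M ⊤ Ps θ) :
    ((ihmTopPart O M Ps θ x : ↥(ih4Part O M Ps θ)) : Ih4H O O M)
      = ihmTop O M (ihmPartTIncl O M ⊤ Ps θ x) := rfl

theorem ihm_finrank_top :
    Module.finrank O (IhmPartT O M ⊤ Ps θ) = Module.finrank O ↥(ih4Part O M Ps θ) :=
  (ihmTopPart O M Ps θ).finrank_eq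

variable {p : ℕ} (hL : IhfLevel p M H) (hpO : (p : O) ∈ IsLocalRing.maximalIdeal O)
  {ℓ₀ : ℕ} (hℓ₀ : ℓ₀.Prime) (hℓ₀M : ¬ ℓ₀ ∣ M) (hℓ₀Ps : ℓ₀ ∈ Ps)
  (hθ : IsUnit (θ ℓ₀ - ((ℓ₀ : O) + 1)))

include hM hL hpO hℓ₀ hℓ₀M hℓ₀Ps hθ in
/-- **the number of `O[Δ]`-generators of the `θ`-part at level `Γ_H(M)` is the `O`-rank of the
`θ`-part at level `Γ₀(M)`** -/
theorem ihm_rank_eq {n : ℕ} (w : Fin n → IhmPartT O M H Ps θ)
    (b : Module.Basis (Fin n × ((ZMod M)ˣ ⧸ H)) O (IhmPartT O M H Ps θ))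
    (hb : ∀ i δ, b (i, δ) = ihmPartTDia O M hM H Ps θ δ (w i)) :
    n = Module.finrank O ↥(ih4Part O M Ps θ) := by
  classical
  haveI : Fintype ((ZMod M)ˣ ⧸ H) := Fintype.ofFinite _
  obtain ⟨e, -⟩ := ihm_exists_ctrlEquiv O M hM (le_top : H ≤ ⊤) (ihfTransTop H) Ps θ hL hpO hℓ₀
    hℓ₀M hℓ₀Ps hθ
  obtain ⟨b', -⟩ := ihm_chi_basis (ihm_quot_comm M H) (ihmPartTDia O M hM H Ps θ)
    (ihmSubQ M H ⊤) (1 : ihmSubQ M H ⊤ →* O) w b hb (fun x => Quotient.out x)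
    (fun x => QuotientGroup.out_eq' x)
  have htop : ihmSubQ M H ⊤ = ⊤ := by
    rw [eq_top_iff]
    intro δ _
    obtain ⟨d, rfl⟩ := QuotientGroup.mk_surjective δ
    exact ihm_mem_subQ M (Subgroup.mem_top d)
  haveI : Subsingleton (((ZMod M)ˣ ⧸ H) ⧸ ihmSubQ M H ⊤) := by
    rw [htop]
    exact QuotientGroup.subsingleton_quotient_top
  haveI : Fintype (((ZMod M)ˣ ⧸ H) ⧸ ihmSubQ M H ⊤) := Fintype.ofFinite _
  have h1 : Module.finrank O (IhmChi (ihmPartTDia O M hM H Ps θ) (ihmSubQ M H ⊤)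
      (1 : ihmSubQ M H ⊤ →* O)) = n := by
    rw [Module.finrank_eq_card_basis b', Fintype.card_prod, Fintype.card_fin]
    have : Fintype.card (((ZMod M)ˣ ⧸ H) ⧸ ihmSubQ M H ⊤) = 1 :=
      Fintype.card_eq_one_iff.mpr ⟨((1 : (ZMod M)ˣ ⧸ H) : _ ⧸ ihmSubQ M H ⊤),
        fun y => Subsingleton.elim _ _⟩
    rw [this, mul_one]
  rw [← ihm_finrank_top O M Ps θ, ← e.finrank_eq, h1]

include hM hL hpO hℓ₀ hℓ₀M hℓ₀Ps hθ in
/-- **the `θ`-part at level `Γ_H(M)` is free over `O[Δ]` of rank `finrank O (ih4Part O M Ps θ)`** -/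
theorem ihm_free_rank :
    ∃ (w : Fin (Module.finrank O ↥(ih4Part O M Ps θ)) → IhmPartT O M H Ps θ)
      (b : Module.Basis (Fin (Module.finrank O ↥(ih4Part O M Ps θ)) × ((ZMod M)ˣ ⧸ H)) O
        (IhmPartT O M H Ps θ)),
      ∀ i δ, b (i, δ) = ihmPartTDia O M hM H Ps θ δ (w i) := by
  obtain ⟨n, w, b, hb⟩ := ihm_free_T O M hM H Ps θ hL hpO hℓ₀ hℓ₀M hℓ₀Ps hθ
  have hn := ihm_rank_eq O M hM H Ps θ hL hpO hℓ₀ hℓ₀M hℓ₀Ps hθ w b hb
  subst hn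
  exact ⟨w, b, hb⟩

include hM hL hpO hℓ₀ hℓ₀M hℓ₀Ps hθ in
/-- the `θ`-part at level `Γ_H(M)` vanishes iff the `θ`-part at level `Γ₀(M)` does -/
theorem ihm_part_eq_bot_iff : ihmPart O M H Ps θ = ⊥ ↔ ih4Part O M Ps θ = ⊥ := by
  classical
  haveI : Fintype ((ZMod M)ˣ ⧸ H) := Fintype.ofFinite _
  obtain ⟨n, w, b, hb⟩ := ihm_free_T O M hM H Ps θ hL hpO hℓ₀ hℓ₀M hℓ₀Ps hθ
  obtain ⟨e, -⟩ := ihm_exists_ctrlEquiv O M hM (le_top : H ≤ ⊤) (ihfTransTop H) Ps θ hL hpO hℓ₀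
    hℓ₀M hℓ₀Ps hθ
  obtain ⟨b', -⟩ := ihm_chi_basis (ihm_quot_comm M H) (ihmPartTDia O M hM H Ps θ)
    (ihmSubQ M H ⊤) (1 : ihmSubQ M H ⊤ →* O) w b hb (fun x => Quotient.out x)
    (fun x => QuotientGroup.out_eq' x)
  rw [← Submodule.subsingleton_iff_eq_bot, ← Submodule.subsingleton_iff_eq_bot]
  have h1 : Subsingleton ↥(ihmPart O M H Ps θ) ↔ IsEmpty (Fin n × ((ZMod M)ˣ ⧸ H)) := by
    show Subsingleton (IhmPartT O M H Ps θ) ↔ _
    exact ihm_basis_subsingleton_iff O b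
  have h2 : Subsingleton ↥(ih4Part O M Ps θ)
      ↔ IsEmpty (Fin n × (((ZMod M)ˣ ⧸ H) ⧸ ihmSubQ M H ⊤)) := by
    rw [← ihm_basis_subsingleton_iff O b']
    exact ⟨fun h => (e.trans (ihmTopPart O M Ps θ)).toEquiv.subsingleton,
      fun h => (e.trans (ihmTopPart O M Ps θ)).symm.toEquiv.subsingleton⟩
  rw [h1, h2, isEmpty_prod, isEmpty_prod]
  have h3 : ¬ IsEmpty ((ZMod M)ˣ ⧸ H) := not_isEmpty_iff.mpr ⟨1⟩
  have h4 : ¬ IsEmpty (((ZMod M)ˣ ⧸ H) ⧸ ihmSubQ M H ⊤) :=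
    not_isEmpty_iff.mpr ⟨QuotientGroup.mk 1⟩
  tauto

end Rank

end Fermat.Agent.Ihara
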