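/-
IHARA track, package [DEG-H] (helper1): **the transfer `Γ_H(N) → Γ_{Hm}(Nm)` (`N = Nm · q₀`, `H` the
full preimage of `Hm`) commutes with the Hecke operators away from `q₀` and with the diamonds**.

`ihm_deg_cor_op : C.corPar O O (ihmOp O N H ℓ x) = ihmOp O Nm Hm ℓ (C.corPar O O x)` (`ℓ ≠ q₀`) for ANY
transversal-type two-group coset system `C` with representatives in `Γ_{Hm}(Nm)`.
-/
import Mathlib
import Fermat.Agent.Lib.Ihara.Hm.DegGen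
import Fermat.Agent.Lib.Ihara.Hm.Part

set_option autoImplicit false
set_option linter.unusedSectionVars false
set_option linter.unusedVariables false
set_option linter.style.haveILetI false

namespace Fermat.Agent.Ihara

open Matrix MatrixGroups CongruenceSubgroup ModularCurve ModularCurve.Period Module
open Fermat.Agent.DS Fermat.Agent.T1 Fermat.Agent.T1G Fermat.Agent.T2

theorem ihm_Gamma_le_GammaH {M : ℕ} {H : Subgroup (ZMod M)ˣ} : Gamma M ≤ ihfGammaH M H := by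
  intro γ hγ
  apply ihfGamma1_le_GammaH
  rw [Gamma_mem] at hγ
  rw [Gamma1_mem]
  exact ⟨hγ.1, hγ.2.2.2, hγ.2.2.1⟩

section Deg

variable {N Nm q₀ : ℕ} [NeZero N] [NeZero Nm] {H : Subgroup (ZMod N)ˣ} {Hm : Subgroup (ZMod Nm)ˣ}
  (hq₀ : q₀.Prime) (heq : N = Nm * q₀) (hnd : ¬ q₀ ∣ Nm)
  (hH : ∀ (h : Nm ∣ N) (x : (ZMod N)ˣ), x ∈ H ↔ ZMod.unitsMap h x ∈ Hm)

include heq in
theorem ihd_dvd : Nm ∣ N := heq ▸ Dvd.intro _ rfl

omit [NeZero N] [NeZero Nm] in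
theorem ihd_dshD_cast (h : Nm ∣ N) (γ : SL(2, ℤ)) :
    ZMod.castHom h (ZMod Nm) (dshD N γ) = dshD Nm γ := by
  simp [dshD]

theorem ihd_Gamma0_le (h : Nm ∣ N) : Gamma0 N ≤ Gamma0 Nm := by
  intro γ hγ
  rw [tdm_mem_Gamma0_iff] at hγ ⊢
  exact Dvd.dvd.trans (Int.natCast_dvd_natCast.mpr h) hγ

include heq hH in
/-- `Γ_H(N) ≤ Γ_{Hm}(Nm)` -/
theorem ihd_GammaH_le : ihfGammaH N H ≤ ihfGammaH Nm Hm := by
  have hd := ihd_dvd heq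
  rintro γ ⟨h0, x, hx, e⟩
  refine ⟨ihd_Gamma0_le hd h0, ZMod.unitsMap hd x, (hH hd x).mp hx, ?_⟩
  rw [← ihd_dshD_cast hd, e]
  rfl

include hq₀ heq hnd hH in
/-- an element of `Γ_{Hm}(Nm)` whose lower left entry is divisible by `q₀` lies in `Γ_H(N)` -/
theorem ihd_mem_of_dvd {δ : SL(2, ℤ)} (hδ : δ ∈ ihfGammaH Nm Hm) (hq : (q₀ : ℤ) ∣ δ 1 0) :
    δ ∈ ihfGammaH N H := by
  have hd := ihd_dvd heq
  obtain ⟨h0, y, hy, e⟩ := hδ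
  have hcop : IsCoprime (Nm : ℤ) (q₀ : ℤ) := by
    rw [isCoprime_comm, (Nat.prime_iff_prime_int.mp hq₀).irreducible.coprime_iff_not_dvd]
    exact fun h' => hnd (Int.natCast_dvd_natCast.mp h')
  have hδ0 : δ ∈ Gamma0 N := by
    rw [tdm_mem_Gamma0_iff, heq]
    push_cast
    exact hcop.mul_dvd ((tdm_mem_Gamma0_iff δ).mp h0) hq
  refine (ihf_mem_GammaH_iff' hδ0).mpr ?_
  rw [hH hd]
  have : ZMod.unitsMap hd (ihfUnitHom N ⟨δ, hδ0⟩) = y := by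
    apply Units.ext
    show ZMod.castHom hd (ZMod Nm) ((ihfUnitHom N ⟨δ, hδ0⟩ : (ZMod N)ˣ) : ZMod N) = _
    rw [ihfUnitHom_coe, ihd_dshD_cast hd, e]
  rw [this]
  exact hy

/-- the divisibility argument behind hypothesis (b) of `ihm_cor_hom_comm` -/
theorem ihd_dvd_of_mul_eq {q : ℕ} (hq : q.Prime) {R₁ R₂ : Matrix (Fin 2) (Fin 2) ℤ}
    (h1 : (q : ℤ) ∣ R₁ 1 0) (h2 : (q : ℤ) ∣ R₂ 1 0) (h11 : ¬ (q : ℤ) ∣ R₁ 1 1)
    {δ γ : SL(2, ℤ)} (hγ : (q : ℤ) ∣ γ 1 0)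
    (h : R₁ * (δ : Matrix (Fin 2) (Fin 2) ℤ) = (γ : Matrix (Fin 2) (Fin 2) ℤ) * R₂) :
    (q : ℤ) ∣ δ 1 0 := by
  have h10 := congrFun (congrFun h 1) 0
  simp only [Matrix.mul_apply, Fin.sum_univ_two] at h10
  have hqp : Prime (q : ℤ) := Nat.prime_iff_prime_int.mp hq
  have h3 : (q : ℤ) ∣ R₁ 1 1 * δ 1 0 := by
    have e : R₁ 1 1 * δ 1 0 = γ 1 0 * R₂ 0 0 + γ 1 1 * R₂ 1 0 - R₁ 1 0 * δ 0 0 := by
      linear_combination h10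
    rw [e]
    exact dvd_sub (dvd_add (Dvd.dvd.mul_right hγ _) (Dvd.dvd.mul_left h2 _))
      (Dvd.dvd.mul_right h1 _)
  exact (hqp.dvd_or_dvd h3).resolve_left h11

section T

variable {ℓ : ℕ} (hℓ : ℓ.Prime) (hℓN : ¬ ℓ ∣ N) (hℓNm : ¬ ℓ ∣ Nm)

omit [NeZero Nm] in
theorem ihd_repT_10 (i : Option (Fin ℓ)) : (N : ℤ) ∣ tgmRepT N hℓ hℓN i 1 0 := by
  rcases i with _ | b
  · have h0 : (N : ℤ) ∣ (tgmGammaP N hℓ hℓN) 1 0 :=
      (tdm_mem_Gamma0_iff _).mp (tgmGammaP_mem N hℓ hℓN)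
    simp only [tgmRepT, Matrix.mul_apply, Fin.sum_univ_two]
    simp
    exact Dvd.dvd.mul_right h0 _
  · simp [tgmRepT]

omit [NeZero Nm] in
theorem ihd_repT_11 (i : Option (Fin ℓ)) : (N : ℤ) ∣ tgmRepT N hℓ hℓN i 1 1 - ℓ := by
  rcases i with _ | b
  · have h0 := dshD_tgmGammaP N hℓ hℓN
    have h1 : (N : ℤ) ∣ (tgmGammaP N hℓ hℓN) 1 1 - ℓ := by
      rw [dvd_sub_comm, ← ZMod.intCast_eq_intCast_iff_dvd_sub]
      rw [dshD] at h0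
      push_cast
      exact h0
    simp only [tgmRepT, Matrix.mul_apply, Fin.sum_univ_two]
    simpa using h1
  · simp [tgmRepT]

include heq hH in
/-- hypothesis (a) for `T_ℓ` -/
theorem ihd_repT_change (i : Option (Fin ℓ)) :
    ∃ u : ihfGammaH Nm Hm, tgmRepT N hℓ hℓN i
      = ((u : SL(2, ℤ)) : Matrix (Fin 2) (Fin 2) ℤ) * tgmRepT Nm hℓ hℓNm i := by
  have hd := ihd_dvd heq
  rcases i with _ | b
  · set g := tgmGammaP N hℓ hℓN with hg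
    set g' := tgmGammaP Nm hℓ hℓNm with hg'
    have hgm : g ∈ Gamma0 Nm := ihd_Gamma0_le hd (tgmGammaP_mem N hℓ hℓN)
    have hg'm : g' ∈ Gamma0 Nm := tgmGammaP_mem Nm hℓ hℓNm
    have hD : dshD Nm g = dshD Nm g' := by
      rw [← ihd_dshD_cast hd, dshD_tgmGammaP, dshD_tgmGammaP, map_natCast]
    have hu : g * g'⁻¹ ∈ ihfGammaH Nm Hm := by
      apply ihfGamma1_le_GammaH
      rw [dsh_mem_Gamma1_iff]
      refine ⟨mul_mem hgm (inv_mem hg'm), ?_⟩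
      rw [dshD_mul hgm, hD, dshD_mul_inv hg'm]
    refine ⟨⟨g * g'⁻¹, hu⟩, ?_⟩
    show (g : Matrix (Fin 2) (Fin 2) ℤ) * !![(ℓ : ℤ), 0; 0, 1]
      = ((g * g'⁻¹ : SL(2, ℤ)) : Matrix (Fin 2) (Fin 2) ℤ)
        * ((g' : Matrix (Fin 2) (Fin 2) ℤ) * !![(ℓ : ℤ), 0; 0, 1])
    rw [Matrix.SpecialLinearGroup.coe_mul, Matrix.mul_assoc, iht_SL_inv_mul_cancel]
  · refine ⟨1, ?_⟩
    rw [Subgroup.coe_one, Matrix.SpecialLinearGroup.coe_one, Matrix.one_mul]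
    rfl

include hq₀ heq hnd hH in
/-- **the transfer commutes with `T_ℓ`** (`ℓ ∤ N`) -/
theorem ihd_cor_T {I : Type} [Fintype I] (C : T2fSys₂ (ihfGammaH N H) (ihfGammaH Nm Hm) I)
    (hC : ∀ i, ∃ g : ihfGammaH Nm Hm, C.rep i = ((g : SL(2, ℤ)) : Matrix (Fin 2) (Fin 2) ℤ))
    {A : Type*} [AddCommGroup A] [NoZeroSMulDivisors ℕ A]
    (c : Additive (ihfGammaH N H) →+ A) :
    C.cor A ((ihfSysT N H hℓ hℓN).hom A c) = (ihfSysT Nm Hm hℓ hℓNm).hom A (C.cor A c) := by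
  have hNq : (q₀ : ℤ) ∣ (N : ℤ) := by rw [heq]; push_cast; exact Dvd.intro_left _ rfl
  have hℓq : ¬ (q₀ : ℤ) ∣ (ℓ : ℤ) := by
    intro h'
    have h1 : q₀ ∣ ℓ := Int.natCast_dvd_natCast.mp h'
    have h2 : q₀ = ℓ := (Nat.prime_dvd_prime_iff_eq hq₀ hℓ).mp h1
    exact hℓN (by rw [heq, h2]; exact Dvd.intro_left _ rfl)
  refine ihm_cor_hom_comm (ihd_GammaH_le heq hH) C hC (ihfSysT N H hℓ hℓN)
    (ihfSysT Nm Hm hℓ hℓNm) (NeZero.ne N) ihm_Gamma_le_GammaH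
    (fun i => ihd_repT_change heq hH hℓ hℓN hℓNm i) ?_ c
  intro i₁ i₂ δ γ h
  refine ihd_mem_of_dvd hq₀ heq hnd hH δ.2 ?_
  refine ihd_dvd_of_mul_eq hq₀ (R₁ := tgmRepT N hℓ hℓN i₁) (R₂ := tgmRepT N hℓ hℓN i₂)
    (hNq.trans (ihd_repT_10 hℓ hℓN i₁)) (hNq.trans (ihd_repT_10 hℓ hℓN i₂)) ?_
    (hNq.trans ((tdm_mem_Gamma0_iff _).mp (ihfGammaH_le_Gamma0 γ.2))) h
  intro h'
  apply hℓq
  have h2 := hNq.trans (ihd_repT_11 hℓ hℓN i₁)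
  have e : (ℓ : ℤ) = tgmRepT N hℓ hℓN i₁ 1 1 - (tgmRepT N hℓ hℓN i₁ 1 1 - ℓ) := by ring
  rw [e]
  exact dvd_sub h' h2

end T

section U

variable {s : ℕ} (hs : s.Prime) (hsN : s ∣ N) (hsNm : s ∣ Nm)

include hq₀ heq hnd hH in
/-- **the transfer commutes with `U_s`** (`s ∣ Nm` prime) -/
theorem ihd_cor_U {I : Type} [Fintype I] (C : T2fSys₂ (ihfGammaH N H) (ihfGammaH Nm Hm) I)
    (hC : ∀ i, ∃ g : ihfGammaH Nm Hm, C.rep i = ((g : SL(2, ℤ)) : Matrix (Fin 2) (Fin 2) ℤ))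
    {A : Type*} [AddCommGroup A] [NoZeroSMulDivisors ℕ A]
    (c : Additive (ihfGammaH N H) →+ A) :
    C.cor A ((ihfSysU N H hsN hs.ne_zero).hom A c)
      = (ihfSysU Nm Hm hsNm hs.ne_zero).hom A (C.cor A c) := by
  have hNq : (q₀ : ℤ) ∣ (N : ℤ) := by rw [heq]; push_cast; exact Dvd.intro_left _ rfl
  have hsq : ¬ (q₀ : ℤ) ∣ (s : ℤ) := by
    intro h'
    have h1 : q₀ ∣ s := Int.natCast_dvd_natCast.mp h'
    have h2 : q₀ = s := (Nat.prime_dvd_prime_iff_eq hq₀ hs).mp h1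
    exact hnd (h2 ▸ hsNm)
  refine ihm_cor_hom_comm (ihd_GammaH_le heq hH) C hC (ihfSysU N H hsN hs.ne_zero)
    (ihfSysU Nm Hm hsNm hs.ne_zero) (NeZero.ne N) ihm_Gamma_le_GammaH
    (fun i => ⟨1, by
      rw [Subgroup.coe_one, Matrix.SpecialLinearGroup.coe_one, Matrix.one_mul]; rfl⟩) ?_ c
  intro i₁ i₂ δ γ h
  refine ihd_mem_of_dvd hq₀ heq hnd hH δ.2 ?_
  refine ihd_dvd_of_mul_eq hq₀ (R₁ := tdmRepU s i₁) (R₂ := tdmRepU s i₂) ?_ ?_ ?_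
    (hNq.trans ((tdm_mem_Gamma0_iff _).mp (ihfGammaH_le_Gamma0 γ.2))) h
  · simp [tdmRepU]
  · simp [tdmRepU]
  · simpa [tdmRepU] using hsq

end U

section D

include heq hH in
/-- **the transfer commutes with the diamonds** -/
theorem ihd_cor_D {I : Type} [Fintype I] (C : T2fSys₂ (ihfGammaH N H) (ihfGammaH Nm Hm) I)
    (hC : ∀ i, ∃ g : ihfGammaH Nm Hm, C.rep i = ((g : SL(2, ℤ)) : Matrix (Fin 2) (Fin 2) ℤ))
    (d : (ZMod N)ˣ) {A : Type*} [AddCommGroup A] [NoZeroSMulDivisors ℕ A]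
    (c : Additive (ihfGammaH N H) →+ A) :
    C.cor A ((ihfSysD N H d).hom A c)
      = (ihfSysD Nm Hm (ZMod.unitsMap (ihd_dvd heq) d)).hom A (C.cor A c) := by
  have hd := ihd_dvd heq
  set g := dshGammaU N d with hg
  set g' := dshGammaU Nm (ZMod.unitsMap hd d) with hg'
  have hgN : g ∈ Gamma0 N := dshGammaU_mem N d
  have hgm : g ∈ Gamma0 Nm := ihd_Gamma0_le hd hgN
  have hg'm : g' ∈ Gamma0 Nm := dshGammaU_mem Nm _
  have hD : dshD Nm g = dshD Nm g' := by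
    rw [← ihd_dshD_cast hd, dshD_dshGammaU, dshD_dshGammaU]
    rfl
  have hu : g * g'⁻¹ ∈ ihfGammaH Nm Hm := by
    apply ihfGamma1_le_GammaH
    rw [dsh_mem_Gamma1_iff]
    refine ⟨mul_mem hgm (inv_mem hg'm), ?_⟩
    rw [dshD_mul hgm, hD, dshD_mul_inv hg'm]
  refine ihm_cor_hom_comm (ihd_GammaH_le heq hH) C hC (ihfSysD N H d)
    (ihfSysD Nm Hm (ZMod.unitsMap hd d)) (NeZero.ne N) ihm_Gamma_le_GammaH
    (fun i => ⟨⟨g * g'⁻¹, hu⟩, ?_⟩) ?_ c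
  · show (g : Matrix (Fin 2) (Fin 2) ℤ)
      = ((g * g'⁻¹ : SL(2, ℤ)) : Matrix (Fin 2) (Fin 2) ℤ) * (g' : Matrix (Fin 2) (Fin 2) ℤ)
    rw [← Matrix.SpecialLinearGroup.coe_mul, inv_mul_cancel_right]
  · intro i₁ i₂ δ γ h
    have h1 : (g : Matrix (Fin 2) (Fin 2) ℤ) * ((δ : SL(2, ℤ)) : Matrix (Fin 2) (Fin 2) ℤ)
        = ((γ : SL(2, ℤ)) : Matrix (Fin 2) (Fin 2) ℤ) * (g : Matrix (Fin 2) (Fin 2) ℤ) := h
    have h2 : g * (δ : SL(2, ℤ)) = (γ : SL(2, ℤ)) * g := by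
      apply Subtype.ext
      rw [Matrix.SpecialLinearGroup.coe_mul, Matrix.SpecialLinearGroup.coe_mul]
      exact h1
    have h3 : (δ : SL(2, ℤ)) = g⁻¹ * (γ : SL(2, ℤ)) * g⁻¹⁻¹ := by
      rw [inv_inv, mul_assoc, ← h2, inv_mul_cancel_left]
    rw [h3]
    exact ihf_conj_mem_GammaH (inv_mem hgN) γ.2

end D

section Op

variable (O : Type*) [CommRing O] [IsDomain O] [CharZero O]

include hq₀ heq hnd hH in
/-- **(E1) the transfer `Γ_H(N) → Γ_{Hm}(Nm)` commutes with the Hecke operators at `ℓ ≠ q₀`**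
(`T_ℓ` for `ℓ ∤ N`, `U_ℓ` for `ℓ ∣ Nm`) -/
theorem ihm_deg_cor_op {I : Type} [Fintype I]
    (C : T2fSys₂ (ihfGammaH N H) (ihfGammaH Nm Hm) I)
    (hC : ∀ i, ∃ g : ihfGammaH Nm Hm, C.rep i = ((g : SL(2, ℤ)) : Matrix (Fin 2) (Fin 2) ℤ))
    (ℓ : ℕ) (hℓ : ℓ ≠ q₀) (x : IhfH O O N H) :
    C.corPar O O (ihmOp O N H ℓ x) = ihmOp O Nm Hm ℓ (C.corPar O O x) := by
  by_cases hp : ℓ.Prime
  swap
  · rw [ihmOp_of_not_prime O N H hp, ihmOp_of_not_prime O Nm Hm hp, LinearMap.zero_apply,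
      LinearMap.zero_apply, map_zero]
  by_cases h1 : ℓ ∣ N
  · have h2 : ℓ ∣ Nm := by
      rw [heq] at h1
      rcases (Nat.Prime.dvd_mul hp).mp h1 with h | h
      · exact h
      · exact absurd ((Nat.prime_dvd_prime_iff_eq hp hq₀).mp h) hℓ
    rw [ihmOp_of_dvd O N H hp h1, ihmOp_of_dvd O Nm Hm hp h2]
    exact Subtype.ext (ihd_cor_U hq₀ heq hnd hH hp h1 h2 C hC x.1)
  · have h2 : ¬ ℓ ∣ Nm := fun h => h1 (h.trans (ihd_dvd heq))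
    rw [ihmOp_of_not_dvd O N H hp h1, ihmOp_of_not_dvd O Nm Hm hp h2]
    exact Subtype.ext (ihd_cor_T hq₀ heq hnd hH hp h1 h2 C hC x.1)

include heq hH in
/-- the transfer `Γ_H(N) → Γ_{Hm}(Nm)` commutes with the diamonds -/
theorem ihm_deg_cor_dia {I : Type} [Fintype I]
    (C : T2fSys₂ (ihfGammaH N H) (ihfGammaH Nm Hm) I)
    (hC : ∀ i, ∃ g : ihfGammaH Nm Hm, C.rep i = ((g : SL(2, ℤ)) : Matrix (Fin 2) (Fin 2) ℤ))
    (d : (ZMod N)ˣ) (x : IhfH O O N H) :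
    C.corPar O O (ihmDia O N H d x)
      = ihmDia O Nm Hm (ZMod.unitsMap (ihd_dvd heq) d) (C.corPar O O x) :=
  Subtype.ext (ihd_cor_D heq hH C hC d x.1)

end Op

section PartMem

variable (O : Type) [CommRing O] [IsDomain O] [CharZero O] [IsLocalRing O]

include hq₀ heq hnd hH in
/-- the transfer `Γ_H(N) → Γ_{Hm}(Nm)` maps the `θ`-part into the `θ`-part (Hecke operators away
from `q₀`) -/
theorem ihm_deg_cor_mem_part {I : Type} [Fintype I]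
    (C : T2fSys₂ (ihfGammaH N H) (ihfGammaH Nm Hm) I)
    (hC : ∀ i, ∃ g : ihfGammaH Nm Hm, C.rep i = ((g : SL(2, ℤ)) : Matrix (Fin 2) (Fin 2) ℤ))
    (Ps Ps' : Set ℕ) (hPs : Ps' ⊆ Ps) (hqPs : q₀ ∉ Ps') (θ : ℕ → O) {x : IhfH O O N H}
    (hx : x ∈ ihmPart O N H Ps θ) : C.corPar O O x ∈ ihmPart O Nm Hm Ps' θ := by
  unfold ihmPart at hx ⊢
  rw [ih4p_mem_nil] at hx ⊢
  rintro ⟨ℓ, hℓ⟩ n
  obtain ⟨k, hk⟩ := hx ⟨ℓ, hPs hℓ⟩ n
  refine ⟨k, ?_⟩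
  have hne : ℓ ≠ q₀ := fun h => hqPs (h ▸ hℓ)
  have h1 : ∀ y, C.corPar O O (ihmFam O N H Ps θ ⟨ℓ, hPs hℓ⟩ y)
      = ihmFam O Nm Hm Ps' θ ⟨ℓ, hℓ⟩ (C.corPar O O y) := by
    intro y
    unfold ihmFam
    rw [LinearMap.sub_apply, LinearMap.sub_apply, map_sub,
      ihm_deg_cor_op hq₀ heq hnd hH O C hC ℓ hne, Module.algebraMap_end_apply,
      Module.algebraMap_end_apply, map_smul]
  rw [← ih4p_intertwine_pow (f := C.corPar O O) h1 k x]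
  exact ih4p_map_mem_smul_top (C.corPar O O) _ hk

end PartMem

end Deg

end Fermat.Agent.Ihara
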