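/-
IHARA track, package [DEG-H] (helper1): **the transfer between two congruence subgroups commutes
with a pair of compatible coset operators** (generic statement, via helper8's `IhtLoc`).

`Γ ≤ Γ'`, `C : T2fSys₂ Γ Γ' I` a transversal with representatives in `Γ'`, `S` a coset system on `Γ`
and `S'` one on `Γ'` with the same index type such that
(a) `S.rep i ∈ Γ' · S'.rep i`, and
(b) `S.rep i₁ · δ = γ · S.rep i₂` with `δ ∈ Γ'`, `γ ∈ Γ` forces `δ ∈ Γ`.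
Then `C.cor ∘ S.hom = S'.hom ∘ C.cor` on torsion-free coefficients.
-/
import Mathlib
import Fermat.Agent.Lib.Ihara.Tw.Loc
import Fermat.Agent.Lib.T1.Mono.Coset

set_option autoImplicit false
set_option linter.unusedSectionVars false
set_option linter.unusedVariables false
set_option linter.style.haveILetI false

namespace Fermat.Agent.Ihara

open Matrix MatrixGroups CongruenceSubgroup ModularCurve ModularCurve.Period
open Fermat.Agent.T1 Fermat.Agent.T2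

section Gen

variable {Γ Γ' : Subgroup SL(2, ℤ)} {I ι : Type} [Fintype I] [Fintype ι]

/-- the representatives of a transversal are inequivalent -/
theorem ihm_sys₂_inequiv (C : T2fSys₂ Γ Γ' I) {j₁ j₂ : I} {γ : Γ}
    (h : C.rep j₁ = ((γ : SL(2, ℤ)) : Matrix (Fin 2) (Fin 2) ℤ) * C.rep j₂) : j₁ = j₂ := by
  have h1 : C.rep j₁ * (((1 : Γ') : SL(2, ℤ)) : Matrix (Fin 2) (Fin 2) ℤ)
      = ((γ : SL(2, ℤ)) : Matrix (Fin 2) (Fin 2) ℤ) * C.rep j₂ := by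
    rw [Subgroup.coe_one, Matrix.SpecialLinearGroup.coe_one, Matrix.mul_one]
    exact h
  have h2 := (C.eq_of_rep_mul h1).1
  rw [C.sigmaFun_one] at h2
  exact h2.symm

theorem ihm_sys_inequiv (S : tdmCosetSys Γ ι) {i₁ i₂ : ι} {γ : Γ}
    (h : S.rep i₁ = ((γ : SL(2, ℤ)) : Matrix (Fin 2) (Fin 2) ℤ) * S.rep i₂) : i₁ = i₂ := by
  have h1 : S.rep i₁ * (((1 : Γ) : SL(2, ℤ)) : Matrix (Fin 2) (Fin 2) ℤ)
      = ((γ : SL(2, ℤ)) : Matrix (Fin 2) (Fin 2) ℤ) * S.rep i₂ := by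
    rw [Subgroup.coe_one, Matrix.SpecialLinearGroup.coe_one, Matrix.mul_one]
    exact h
  have h2 := (S.eq_of_rep_mul h1).1
  rw [S.sigmaFun_one] at h2
  exact h2.symm

/-- a transversal with representatives in `Γ'` covers `Γ'` -/
theorem ihm_sys₂_cover (C : T2fSys₂ Γ Γ' I)
    (hC : ∀ j, ∃ g : Γ', C.rep j = ((g : SL(2, ℤ)) : Matrix (Fin 2) (Fin 2) ℤ)) (j₀ : I)
    (x : Γ') : ∃ (j : I) (γ : Γ), ((x : SL(2, ℤ)) : Matrix (Fin 2) (Fin 2) ℤ)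
      = ((γ : SL(2, ℤ)) : Matrix (Fin 2) (Fin 2) ℤ) * C.rep j := by
  obtain ⟨g, hg⟩ := hC j₀
  refine ⟨C.sigma (g⁻¹ * x) j₀, C.eps (g⁻¹ * x) j₀, ?_⟩
  rw [← C.rep_mul (g⁻¹ * x) j₀, hg, Subgroup.coe_mul, Matrix.SpecialLinearGroup.coe_mul,
    Subgroup.coe_inv, iht_SL_mul_inv_cancel]

variable (hle : Γ ≤ Γ') (C : T2fSys₂ Γ Γ' I)
  (hC : ∀ j, ∃ g : Γ', C.rep j = ((g : SL(2, ℤ)) : Matrix (Fin 2) (Fin 2) ℤ))
  (S : tdmCosetSys Γ ι) (S' : tdmCosetSys Γ' ι) {K : ℕ} (hK0 : K ≠ 0) (hK : Gamma K ≤ Γ)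
  (ha : ∀ i, ∃ u : Γ', S.rep i = ((u : SL(2, ℤ)) : Matrix (Fin 2) (Fin 2) ℤ) * S'.rep i)
  (hb : ∀ (i₁ i₂ : ι) (δ : Γ') (γ : Γ),
    S.rep i₁ * ((δ : SL(2, ℤ)) : Matrix (Fin 2) (Fin 2) ℤ)
      = ((γ : SL(2, ℤ)) : Matrix (Fin 2) (Fin 2) ℤ) * S.rep i₂ → (δ : SL(2, ℤ)) ∈ Γ)

include hle hC hK0 hK ha hb in
/-- **the transfer commutes with compatible coset operators** -/
theorem ihm_cor_hom_comm {A : Type*} [AddCommGroup A] [NoZeroSMulDivisors ℕ A]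
    (c : Additive Γ →+ A) : C.cor A (S.hom A c) = S'.hom A (C.cor A c) := by
  classical
  have hf : IhtLoc (A := A) (fun c => C.cor A (S.hom A c))
      (fun p : ι × I => S.rep p.1 * C.rep p.2) :=
    IhtLoc.comp (IhtLoc.of_sys S hK0 hK) (IhtLoc.of_sys₂ C hK0 hK)
  have hf' : IhtLoc (A := A) (fun c => S'.hom A (C.cor A c))
      (fun p : I × ι => C.rep p.1 * S'.rep p.2) :=
    IhtLoc.comp (IhtLoc.of_sys₂ C hK0 hK) (IhtLoc.of_sys S' hK0 (hK.trans hle))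
  -- the matching of the representatives
  have key : ∀ p : ι × I, ∃ (p' : I × ι) (γ : Γ),
      S.rep p.1 * C.rep p.2
        = ((γ : SL(2, ℤ)) : Matrix (Fin 2) (Fin 2) ℤ) * (C.rep p'.1 * S'.rep p'.2) := by
    rintro ⟨i, j⟩
    obtain ⟨u, hu⟩ := ha i
    obtain ⟨g, hg⟩ := hC j
    obtain ⟨j', γ, hγ⟩ := ihm_sys₂_cover C hC j (u * S'.eps g i)
    refine ⟨(j', S'.sigma g i), γ, ?_⟩
    show S.rep i * C.rep j = _
    rw [hu, hg, Matrix.mul_assoc, S'.rep_mul g i, ← Matrix.mul_assoc, ← Matrix.mul_assoc,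
      ← hγ, Subgroup.coe_mul, Matrix.SpecialLinearGroup.coe_mul]
  choose e γ he using key
  have hinj : Function.Injective e := by
    rintro ⟨i₁, j₁⟩ ⟨i₂, j₂⟩ h12
    have h1 := he (i₁, j₁)
    have h2 := he (i₂, j₂)
    rw [h12] at h1
    obtain ⟨g₁, hg₁⟩ := hC j₁
    obtain ⟨g₂, hg₂⟩ := hC j₂
    simp only at h1 h2
    -- `S.rep i₁ * (g₁ g₂⁻¹) = (γ₁ γ₂⁻¹) * S.rep i₂`
    have h3 : S.rep i₁ * (((g₁ * g₂⁻¹ : Γ') : SL(2, ℤ)) : Matrix (Fin 2) (Fin 2) ℤ)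
        = (((γ (i₁, j₁) * (γ (i₂, j₂))⁻¹ : Γ) : SL(2, ℤ)) : Matrix (Fin 2) (Fin 2) ℤ)
          * S.rep i₂ := by
      rw [hg₁] at h1
      rw [hg₂] at h2
      generalize C.rep (e (i₂, j₂)).1 * S'.rep (e (i₂, j₂)).2 = Y at h1 h2
      have h5 : Y = (((γ (i₂, j₂) : SL(2, ℤ))⁻¹ : SL(2, ℤ)) : Matrix (Fin 2) (Fin 2) ℤ)
          * (S.rep i₂ * ((g₂ : SL(2, ℤ)) : Matrix (Fin 2) (Fin 2) ℤ)) := by
        rw [h2, iht_SL_inv_mul_cancel]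
      have h6 : (((g₁ * g₂⁻¹ : Γ') : SL(2, ℤ)) : Matrix (Fin 2) (Fin 2) ℤ)
          = ((g₁ : SL(2, ℤ)) : Matrix (Fin 2) (Fin 2) ℤ)
            * (((g₂ : SL(2, ℤ))⁻¹ : SL(2, ℤ)) : Matrix (Fin 2) (Fin 2) ℤ) := by
        rw [Subgroup.coe_mul, Subgroup.coe_inv, Matrix.SpecialLinearGroup.coe_mul]
      have h7 : (((γ (i₁, j₁) * (γ (i₂, j₂))⁻¹ : Γ) : SL(2, ℤ)) : Matrix (Fin 2) (Fin 2) ℤ)
          = ((γ (i₁, j₁) : SL(2, ℤ)) : Matrix (Fin 2) (Fin 2) ℤ)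
            * (((γ (i₂, j₂) : SL(2, ℤ))⁻¹ : SL(2, ℤ)) : Matrix (Fin 2) (Fin 2) ℤ) := by
        rw [Subgroup.coe_mul, Subgroup.coe_inv, Matrix.SpecialLinearGroup.coe_mul]
      rw [h6, h7, ← Matrix.mul_assoc, h1, h5]
      simp only [Matrix.mul_assoc]
      rw [← Matrix.SpecialLinearGroup.coe_mul (g₂ : SL(2, ℤ)), mul_inv_cancel,
        Matrix.SpecialLinearGroup.coe_one, Matrix.mul_one]
    have hδ : ((g₁ * g₂⁻¹ : Γ') : SL(2, ℤ)) ∈ Γ := hb i₁ i₂ _ _ h3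
    have hj : j₁ = j₂ := by
      refine ihm_sys₂_inequiv C (γ := ⟨_, hδ⟩) ?_
      rw [hg₁, hg₂]
      show ((g₁ : SL(2, ℤ)) : Matrix (Fin 2) (Fin 2) ℤ)
        = (((g₁ * g₂⁻¹ : Γ') : SL(2, ℤ)) : Matrix (Fin 2) (Fin 2) ℤ)
          * ((g₂ : SL(2, ℤ)) : Matrix (Fin 2) (Fin 2) ℤ)
      rw [← Matrix.SpecialLinearGroup.coe_mul, ← Subgroup.coe_mul, inv_mul_cancel_right]
    subst hj
    have hgg : g₁ = g₂ := by
      apply Subtype.ext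
      apply Subtype.ext
      rw [← hg₁, ← hg₂]
    subst hgg
    have hi : i₁ = i₂ := by
      refine ihm_sys_inequiv S (γ := γ (i₁, j₁) * (γ (i₂, j₁))⁻¹) ?_
      rw [← h3, mul_inv_cancel, Subgroup.coe_one, Matrix.SpecialLinearGroup.coe_one,
        Matrix.mul_one]
    rw [hi]
  have hρ : ∀ p : ι × I, (S.rep p.1 * C.rep p.2).det ≠ 0 := by
    intro p
    rw [Matrix.det_mul]
    exact mul_ne_zero (S.det_ne_zero _) (C.det_ne_zero _)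
  exact IhtLoc.ext_of_injective hρ hf hf' e hinj
    (by rw [Fintype.card_prod, Fintype.card_prod, Nat.mul_comm])
    (fun p => ⟨γ p, 1, 1, one_ne_zero, by rw [one_smul, one_smul]; exact he p⟩) c

end Gen

end Fermat.Agent.Ihara
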