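/-
IHARA track, package [HM] (helper1): **the non-Eisenstein prime** `ℓ₀`.

The freeness statements of `Hm/` (`ihm_free_T`, `ihm_lvl_free`, `ihm_chi_part_free_O`, …) need a prime
`ℓ₀ ∤ M`, `ℓ₀ ∈ Ps`, with `θ ℓ₀ - (ℓ₀ + 1)` a unit.  For the `θ₀` of an absolutely irreducible
residual representation `ρbar` (`charpoly ρbar(Frob_ℓ) = X² - θ₀(ℓ) X + ℓ` off `S`) such a prime exists
outside any finite set:
* if `tr ρbar = 1 + det ρbar` on all of `G_ℚ`, every `4 × 4` Gram matrix of the trace function has
  rank `≤ 2`, against Burnside (`exists_gram_ne_zero`, S53 library); so some `σ` has no non-zero fixed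
  vector;
* `σ` is a power of a Frobenius element `φ` at a prime `ℓ₀ ∉ S ∪ T` on the finite level of `ρbar`
  (`s31t_exists_frobenius_pow`, Frobenius density), so `ρbar φ` has no fixed vector either:
  `1 - θ₀(ℓ₀) + ℓ₀ ≠ 0` in the residue field.
-/
import Mathlib
import Fermat.Agent.Lib.S53.GramBurnside
import Fermat.Agent.Lib.S31.Trace.FrobPow

set_option autoImplicit false
set_option linter.unusedSectionVars false
set_option linter.unusedVariables false
set_option linter.style.haveILetI false

namespace Fermat.Agent.Ihara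

open Polynomial IsLocalRing
open Fermat.Agent.S53Lib (FrameIdx gram gramMat coordMatrix)

local notation "Qbar" => AlgebraicClosure ℚ
local notation "GQ" => (AlgebraicClosure ℚ ≃ₐ[ℚ] AlgebraicClosure ℚ)

section Alg

variable {k : Type*} [Field k]

/-- the diagonal representation `1 ⊕ δ` -/
def ihmDiagRep {G : Type*} [Monoid G] (δ : G →* k) : G →* Matrix (Fin 2) (Fin 2) k where
  toFun x := Matrix.diagonal ![1, δ x]
  map_one' := by
    ext i j
    fin_cases i <;> fin_cases j <;> simp
  map_mul' x y := by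
    rw [Matrix.diagonal_mul_diagonal]
    congr 1
    funext i
    fin_cases i <;> simp

/-- the Gram matrices of the function `1 + δ` (`δ` a character) are singular -/
theorem ihm_gram_one_add_det_zero {G : Type*} [Monoid G] (δ : G →* k) (g : FrameIdx → G) :
    (gram (fun x => 1 + δ x) g).det = 0 := by
  have h1 : gram (fun x => 1 + δ x) g = gramMat (fun a => ihmDiagRep δ (g a)) := by
    rw [← Fermat.Agent.S53Lib.gram_trace_eq_gramMat]
    congr 1
    funext x
    simp [ihmDiagRep]
  have h2 : (coordMatrix fun a => ihmDiagRep δ (g a)).det = 0 :=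
    Matrix.det_eq_zero_of_column_eq_zero ((0, 1) : FrameIdx) (fun a => by
      simp [coordMatrix, ihmDiagRep])
  rw [h1, Fermat.Agent.S53Lib.det_gramMat, h2]
  simp

/-- the characteristic polynomial of an endomorphism of a plane -/
theorem ihm_charpoly_two {V : Type*} [AddCommGroup V] [Module k V] [Module.Finite k V]
    (hV : Module.finrank k V = 2) (f : Module.End k V) :
    f.charpoly = X ^ 2 - C (LinearMap.trace k V f) * X + C (LinearMap.det f) := by
  let b : Module.Basis (Fin 2) k V := Module.finBasisOfFinrankEq k V hV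
  rw [← LinearMap.charpoly_toMatrix f b, Matrix.charpoly_fin_two,
    LinearMap.trace_eq_matrix_trace k b, LinearMap.det_toMatrix]

/-- an endomorphism of a plane has a non-zero fixed vector iff `tr = 1 + det` -/
theorem ihm_hasEigenvalue_one_iff {V : Type*} [AddCommGroup V] [Module k V] [Module.Finite k V]
    (hV : Module.finrank k V = 2) (f : Module.End k V) :
    f.HasEigenvalue 1 ↔ LinearMap.trace k V f = 1 + LinearMap.det f := by
  rw [Module.End.hasEigenvalue_iff_isRoot_charpoly, ihm_charpoly_two hV, IsRoot.def]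
  simp only [eval_add, eval_sub, eval_mul, eval_pow, eval_X, eval_C, one_pow, mul_one]
  constructor
  · intro h
    linear_combination -h
  · intro h
    rw [h]
    ring

end Alg

section Res

variable {k : Type} [Field k]

/-- **an absolutely irreducible residual representation has an element without non-zero fixed
vectors** -/
theorem ihm_exists_no_fixed (ρbar : ResidualGaloisRep k) (habs : ρbar.IsAbsolutelyIrreducible) :
    ∃ σ : GQ, ¬ (ρbar.ρ σ).HasEigenvalue 1 := by
  by_contra hcon
  simp only [not_exists, not_not] at hcon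
  obtain ⟨g, hg⟩ := Fermat.Agent.S53Lib.exists_gram_ne_zero ρbar habs
  apply hg
  set δ : GQ →* k := (LinearMap.det : Module.End k ρbar.V →* k).comp ρbar.ρ with hδ
  have h1 : (fun σ : GQ => LinearMap.trace k ρbar.V (ρbar.ρ σ)) = fun σ => 1 + δ σ := by
    funext σ
    exact (ihm_hasEigenvalue_one_iff ρbar.finrank_eq (ρbar.ρ σ)).mp (hcon σ)
  rw [h1]
  exact ihm_gram_one_add_det_zero δ g

end Res

section NonEis

variable (O : Type) [CommRing O] [IsLocalRing O]

/-- **the non-Eisenstein prime**: for the eigensystem `θ₀` of an absolutely irreducible residual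
representation there is a prime `ℓ₀` outside any given finite set with `θ₀ ℓ₀ - (ℓ₀ + 1)` a unit -/
theorem ihm_exists_nonEis (ρbar : ResidualGaloisRep (ResidueField O))
    (habs : ρbar.IsAbsolutelyIrreducible) (S T : Finset ℕ) (θ₀ : ℕ → O)
    (hfrob : ∀ (ℓ : ℕ), ℓ.Prime → ℓ ∉ S →
      ∀ P : ValuationSubring Qbar, P.LiesOverPrime ℓ → ∀ σ : GQ, P.IsFrobeniusAt σ ℓ →
        LinearMap.charpoly (ρbar.ρ σ) =
          X ^ 2 - C (residue O (θ₀ ℓ)) * X + C ((ℓ : ResidueField O))) :
    ∃ ℓ₀ : ℕ, ℓ₀.Prime ∧ ℓ₀ ∉ S ∧ ℓ₀ ∉ T ∧ IsUnit (θ₀ ℓ₀ - ((ℓ₀ : O) + 1)) := by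
  classical
  obtain ⟨σ, hσ⟩ := ihm_exists_no_fixed ρbar habs
  obtain ⟨L₀, hL₀fin, hL₀⟩ := ρbar.factorsThroughFiniteLevel
  haveI := hL₀fin
  haveI := Fermat.Agent.Lib.Helper6.isGalois_rat_algebraicClosure
  set L := IntermediateField.normalClosure ℚ L₀ Qbar with hL
  haveI : FiniteDimensional ℚ L := normalClosure.is_finiteDimensional ℚ L₀ Qbar
  haveI : Normal ℚ L := normalClosure.normal ℚ L₀ Qbar
  have hL₀L : L₀ ≤ L := IntermediateField.le_normalClosure L₀
  obtain ⟨l, hl, hlT, P, φ, hP, hφ, b, hb⟩ :=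
    Fermat.Agent.S31T.s31t_exists_frobenius_pow L σ (S ∪ T)
  have hlS : l ∉ S := fun h => hlT (Finset.mem_union_left _ h)
  have hlT' : l ∉ T := fun h => hlT (Finset.mem_union_right _ h)
  refine ⟨l, hl, hlS, hlT', ?_⟩
  -- `ρbar σ = (ρbar φ) ^ b`
  have hρ : ρbar.ρ σ = ρbar.ρ φ ^ b := by
    have h1 : ρbar.ρ ((φ ^ b)⁻¹ * σ) = 1 := by
      refine hL₀ _ fun x hx => ?_
      rw [AlgEquiv.mul_apply, hb x (hL₀L hx)]
      show (φ ^ b)⁻¹ ((φ ^ b) x) = x
      rw [← AlgEquiv.mul_apply, inv_mul_cancel]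
      rfl
    rw [← map_pow]
    have h2 : σ = φ ^ b * ((φ ^ b)⁻¹ * σ) := by rw [mul_inv_cancel_left]
    conv_lhs => rw [h2]
    rw [map_mul, h1, mul_one]
  -- no fixed vector for `ρbar φ`
  have hφ1 : ¬ (ρbar.ρ φ).HasEigenvalue 1 := by
    intro h
    apply hσ
    obtain ⟨v, hv⟩ := h.exists_hasEigenvector
    have hv1 : ρbar.ρ φ v = v := by
      have := hv.apply_eq_smul
      rwa [one_smul] at this
    have hpow : ∀ n : ℕ, (ρbar.ρ φ ^ n) v = v := by
      intro n
      induction n with
      | zero => rfl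
      | succ n ih => rw [pow_succ, Module.End.mul_apply, hv1, ih]
    refine Module.End.hasEigenvalue_of_hasEigenvector (x := v) ⟨?_, hv.2⟩
    rw [Module.End.mem_eigenspace_iff, hρ, hpow, one_smul]
  haveI : Module.Finite (ResidueField O) ρbar.V := inferInstance
  rw [Module.End.hasEigenvalue_iff_isRoot_charpoly, hfrob l hl hlS P hP φ hφ, IsRoot.def] at hφ1
  simp only [eval_add, eval_sub, eval_mul, eval_pow, eval_X, eval_C, one_pow, mul_one] at hφ1
  -- back to `O`
  by_contra hnu
  apply hφ1
  have h3 : residue O (θ₀ l - ((l : O) + 1)) = 0 := by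
    rw [residue_eq_zero_iff]
    exact (mem_maximalIdeal _).mpr hnu
  rw [map_sub, map_add, map_one, map_natCast, sub_eq_zero] at h3
  rw [h3]
  ring

end NonEis

end Fermat.Agent.Ihara
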