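/-
IHARA track, package [HM] (helper1): **the eigensystem `θ_Q` at level `N · ∏ Q`** for a set `Q` of
Taylor–Wiles primes.

`θ₀ : ℕ → O` the eigensystem of `ρbar` at the base level (`charpoly ρbar(Frob_ℓ) = X² - θ₀(ℓ) X + ℓ`
off `S`).  At a Taylor–Wiles prime `r ∉ S`, `r ≡ 1 mod p`, the polynomial `X² - θ₀(r) X + r` has two
roots `θ r`, `bq r` in the complete discrete valuation ring `O`, distinct modulo `𝔪` (Hensel), and
`θ_Q := θ₀` off `Q`, `θ r` at `r ∈ Q` satisfies exactly the hypothesis `hθQ` of `ihm_lvl_free`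
(`Hm/Lvl.lean`) with `ih4Shift O θ_Q bq Q = θ₀` — so the rank `d` of `ihm_lvl_free` is
`finrank O (ih4Part O N Ps θ₀)`, INDEPENDENT of `Q`.
-/
import Mathlib
import Fermat.Agent.Lib.TW.Interface
import Fermat.Agent.Lib.Helper6.FrobeniusExists
import Fermat.Agent.Lib.Ihara.H4.TwBetti

set_option autoImplicit false
set_option linter.unusedSectionVars false
set_option linter.unusedVariables false
set_option linter.style.haveILetI false
set_option linter.unusedSimpArgs false

namespace Fermat.Agent.Ihara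

open Polynomial IsLocalRing

local notation "Qbar" => AlgebraicClosure ℚ
local notation "GQ" => (AlgebraicClosure ℚ ≃ₐ[ℚ] AlgebraicClosure ℚ)

section Roots

variable (O : Type) [CommRing O] [IsLocalRing O] [IsAdicComplete (maximalIdeal O) O]

/-- **Hensel for a quadratic polynomial with simple roots modulo `𝔪`** -/
theorem ihm_exists_roots (a c : O) (α β : ResidueField O) (hαβ : α ≠ β)
    (h : (X ^ 2 - C (residue O a) * X + C (residue O c) : (ResidueField O)[X])
      = (X - C α) * (X - C β)) :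
    ∃ x y : O, x + y = a ∧ x * y = c ∧ residue O x = α ∧ residue O y = β := by
  -- the coefficients
  have h0 : residue O c = α * β := by
    have := congrArg (Polynomial.eval 0) h
    simp only [eval_add, eval_sub, eval_mul, eval_pow, eval_X, eval_C] at this
    linear_combination this
  have h1 : residue O a = α + β := by
    have := congrArg (Polynomial.eval 1) h
    simp only [eval_add, eval_sub, eval_mul, eval_pow, eval_X, eval_C] at this
    linear_combination h0 - this
  obtain ⟨a₀, ha₀⟩ := residue_surjective (R := O) α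
  set f : O[X] := X ^ 2 - C a * X + C c with hf
  have hmonic : f.Monic := by
    rw [hf]
    have h2 : (X ^ 2 - C a * X + C c : O[X]) = X ^ 2 - (C a * X - C c) := by ring
    rw [h2]
    refine Polynomial.monic_X_pow_sub ?_
    refine lt_of_le_of_lt (Polynomial.degree_sub_le _ _) ?_
    refine max_lt (lt_of_le_of_lt (Polynomial.degree_C_mul_X_le a) (by norm_num)) ?_
    exact lt_of_le_of_lt Polynomial.degree_C_le (by norm_num)
  have heval : f.eval a₀ ∈ maximalIdeal O := by
    rw [← residue_eq_zero_iff, hf]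
    simp only [eval_add, eval_sub, eval_mul, eval_pow, eval_X, eval_C, map_add, map_sub, map_mul,
      map_pow, ha₀, h0, h1]
    ring
  have hder : IsUnit (Ideal.Quotient.mk (maximalIdeal O) (f.derivative.eval a₀)) := by
    have h3 : (Ideal.Quotient.mk (maximalIdeal O) (f.derivative.eval a₀) : ResidueField O)
        = α - β := by
      show residue O (f.derivative.eval a₀) = α - β
      rw [hf]
      simp only [derivative_add, derivative_sub, derivative_mul, derivative_X_pow, derivative_C,
        derivative_X, eval_add, eval_sub, eval_mul, eval_pow, eval_X, eval_C, map_add, map_sub,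
        map_mul, map_pow, ha₀, h1, zero_mul, mul_one, zero_add, add_zero, Nat.cast_ofNat,
        Nat.add_one_sub_one, pow_one, eval_ofNat, map_ofNat]
      ring
    rw [h3]
    exact (sub_ne_zero.mpr hαβ).isUnit
  obtain ⟨x, hx, hxa⟩ := HenselianRing.is_henselian (R := O) (I := maximalIdeal O) f hmonic a₀
    heval hder
  have hxα : residue O x = α := by
    rw [← ha₀]
    have := (residue_eq_zero_iff _).mpr hxa
    rwa [map_sub, sub_eq_zero] at this
  have hroot : x ^ 2 - a * x + c = 0 := by
    have := hx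
    rw [IsRoot.def, hf] at this
    simpa only [eval_add, eval_sub, eval_mul, eval_pow, eval_X, eval_C] using this
  refine ⟨x, a - x, by ring, by linear_combination -hroot, hxα, ?_⟩
  rw [map_sub, h1, hxα]
  ring

end Roots

section ThetaQ

variable (O : Type) [CommRing O] [IsDomain O] [IsDiscreteValuationRing O] [CharZero O]
  [IsAdicComplete (IsLocalRing.maximalIdeal O) O]

/-- **the eigensystem at level `N · ∏ Q`** -/
theorem ihm_exists_thetaQ (ρbar : ResidualGaloisRep (ResidueField O)) (S : Finset ℕ) (θ₀ : ℕ → O)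
    (hfrob : ∀ (ℓ : ℕ), ℓ.Prime → ℓ ∉ S →
      ∀ P : ValuationSubring Qbar, P.LiesOverPrime ℓ → ∀ σ : GQ, P.IsFrobeniusAt σ ℓ →
        LinearMap.charpoly (ρbar.ρ σ) =
          X ^ 2 - C (residue O (θ₀ ℓ)) * X + C ((ℓ : ResidueField O)))
    {p : ℕ} (hpO : (p : O) ∈ maximalIdeal O) (Q : List ℕ)
    (hQ : ∀ r ∈ Q, r.Prime ∧ r ∉ S ∧ p ∣ r - 1 ∧ Fermat.Agent.TW.IsTWPrime ρbar r) :
    ∃ θ bq : ℕ → O,
      (∀ ℓ, ℓ ∉ Q → θ ℓ = θ₀ ℓ) ∧
      (∀ r ∈ Q, θ r + bq r = θ₀ r) ∧
      (∀ r ∈ Q, θ r * bq r = ((r : ℕ) : O) ∧ IsUnit (θ r) ∧ IsUnit (θ r - bq r) ∧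
        IsUnit (1 - θ r ^ 2)) ∧
      ih4Shift O θ bq Q = θ₀ ∧
      (∀ r ∈ Q, ∀ P : ValuationSubring Qbar, P.LiesOverPrime r → ∀ φ : GQ, P.IsFrobeniusAt φ r →
        LinearMap.charpoly (ρbar.ρ φ)
          = (X - C (residue O (θ r))) * (X - C (residue O (bq r)))) ∧
      (∀ r ∈ Q, residue O (θ r) ≠ residue O (bq r)) := by
  classical
  -- the roots, prime by prime
  have hroots : ∀ r : ℕ, ∃ x y : O, r ∈ Q →
      x + y = θ₀ r ∧ x * y = ((r : ℕ) : O) ∧ residue O x ≠ residue O y := by
    intro r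
    by_cases hr : r ∈ Q
    · obtain ⟨hrp, hrS, -, hTW⟩ := hQ r hr
      obtain ⟨A, φ, hA, hφ⟩ := Fermat.Agent.Lib.Helper6.exists_frobenius r hrp
      obtain ⟨α, β, hαβ, hcp⟩ := hTW A hA φ hφ
      have h1 := hfrob r hrp hrS A hA φ hφ
      rw [hcp] at h1
      have h2 : (X ^ 2 - C (residue O (θ₀ r)) * X + C (residue O ((r : ℕ) : O)) :
          (ResidueField O)[X]) = (X - C α) * (X - C β) := by
        rw [map_natCast]
        exact h1.symm
      obtain ⟨x, y, hxy, hxy', hx, hy⟩ := ihm_exists_roots O (θ₀ r) ((r : ℕ) : O) α β hαβ h2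
      exact ⟨x, y, fun _ => ⟨hxy, hxy', by rw [hx, hy]; exact hαβ⟩⟩
    · exact ⟨0, 0, fun h => absurd h hr⟩
  choose x y hxy using hroots
  -- units
  have hunit : ∀ r ∈ Q, IsUnit (((r : ℕ) : O)) := by
    intro r hr
    obtain ⟨hrp, -, ⟨m, hm⟩, -⟩ := hQ r hr
    have h1 : r = 1 + p * m := by
      have := hrp.one_lt
      omega
    have h2 : ((r : ℕ) : O) = 1 + (p : O) * (m : O) := by
      conv_lhs => rw [h1]
      push_cast
      ring
    by_contra hnu
    have h3 : ((r : ℕ) : O) ∈ maximalIdeal O := (mem_maximalIdeal _).mpr hnu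
    have h4 : (1 : O) ∈ maximalIdeal O := by
      have h5 : (1 : O) = ((r : ℕ) : O) - (p : O) * (m : O) := by rw [h2]; ring
      rw [h5]
      exact (maximalIdeal O).sub_mem h3 ((maximalIdeal O).mul_mem_right _ hpO)
    exact (maximalIdeal.isMaximal O).ne_top ((Ideal.eq_top_iff_one _).mpr h4)
  have hres_one : ∀ r ∈ Q, residue O (((r : ℕ) : O)) = 1 := by
    intro r hr
    obtain ⟨hrp, -, ⟨m, hm⟩, -⟩ := hQ r hr
    have h1 : r = 1 + p * m := by
      have := hrp.one_lt
      omega
    have h2 : ((r : ℕ) : O) - 1 = (p : O) * (m : O) := by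
      conv_lhs => rw [h1]
      push_cast
      ring
    have h3 : ((r : ℕ) : O) - 1 ∈ maximalIdeal O := by
      rw [h2]
      exact (maximalIdeal O).mul_mem_right _ hpO
    have := (residue_eq_zero_iff _).mpr h3
    rwa [map_sub, map_one, sub_eq_zero] at this
  refine ⟨fun ℓ => if ℓ ∈ Q then x ℓ else θ₀ ℓ, y, ?_, ?_, ?_, ?_, ?_, ?_⟩
  · intro ℓ hℓ
    simp only [hℓ, if_false]
  · intro r hr
    simp only [hr, if_true]
    exact (hxy r hr).1
  · intro r hr
    simp only [hr, if_true]
    obtain ⟨h1, h2, h3⟩ := hxy r hr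
    have hux : IsUnit (x r) := isUnit_of_mul_isUnit_left (h2 ▸ hunit r hr)
    refine ⟨h2, hux, ?_, ?_⟩
    · by_contra hnu
      apply h3
      have := (residue_eq_zero_iff _).mpr ((mem_maximalIdeal _).mpr hnu)
      rwa [map_sub, sub_eq_zero] at this
    · by_contra hnu
      have h4 := (residue_eq_zero_iff _).mpr ((mem_maximalIdeal _).mpr hnu)
      have h5 : residue O (x r) * residue O (y r) = 1 := by
        rw [← map_mul, h2, hres_one r hr]
      have h6 : residue O (x r) * (residue O (y r) - residue O (x r)) = 0 := by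
        rw [map_sub, map_one, map_pow] at h4
        linear_combination h4 + h5
      rcases mul_eq_zero.mp h6 with h7 | h7
      · rw [h7, zero_mul] at h5
        exact zero_ne_one h5
      · exact h3 (sub_eq_zero.mp h7).symm
  · funext ℓ
    unfold ih4Shift
    by_cases hℓ : ℓ ∈ Q
    · simp only [hℓ, if_true]
      exact (hxy ℓ hℓ).1
    · simp only [hℓ, if_false]
  · intro r hr P hP φ hφ
    simp only [hr, if_true]
    obtain ⟨hrp, hrS, -, -⟩ := hQ r hr
    obtain ⟨h1, h2, -⟩ := hxy r hr
    rw [hfrob r hrp hrS P hP φ hφ, ← h1, ← map_natCast (residue O) r, ← h2, map_add, map_mul,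
      C_add, C_mul]
    ring
  · intro r hr
    simp only [hr, if_true]
    exact (hxy r hr).2.2

end ThetaQ

end Fermat.Agent.Ihara
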