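/-
IHARA track, package [HM] (helper1): **enlarging the subgroup of the `χ`-coinvariants** (pure algebra,
continuation of `Hm/Chi.lean`).

`G₁ ≤ G₁'` subgroups of the commutative group `G`, `χ : G₁ →* 𝒪`, `χ' : G₁' →* 𝒪` with `χ' = χ` on
`G₁`:
* `ihmChiProj`            : the canonical surjection `M^χ → M^χ'`, compatible with every `ihmChiMap`
  (hence with `ihmChiRho`);
* `ihmChiProj_ker_eq`     : if `G₁' ≤ G₁ ⊔ ⟨γ⟩`, `γ ∈ G₁'`, `χ' γ = 1` then the kernel of the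
  surjection is `(ρ̄ γ - 1) M^χ`, i.e. `M^χ' = M^χ / (ρ̄ γ - 1)`;
* `ihm_exists_quot_action`: an algebra acting on `M` and preserving the kernel of a surjection
  `π : M → M'` acts on `M'`.
-/
import Mathlib
import Fermat.Agent.Lib.Ihara.Hm.Chi

set_option autoImplicit false
set_option linter.unusedSectionVars false
set_option linter.unusedVariables false
set_option linter.style.haveILetI false

namespace Fermat.Agent.Ihara

open Module Submodule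

section Proj

variable {𝒪 : Type*} [CommRing 𝒪] {M : Type*} [AddCommGroup M] [Module 𝒪 M]
  {G : Type*} [Group G] (hG : ∀ a b : G, a * b = b * a) (ρ : G →* Module.End 𝒪 M)
  (G₁ : Subgroup G) (χ : G₁ →* 𝒪) (G₁' : Subgroup G) (χ' : G₁' →* 𝒪)
  (hle : G₁ ≤ G₁') (hχ : ∀ g : G₁, χ' ⟨g, hle g.2⟩ = χ g)

include hχ in
theorem ihmChiSub_mono : ihmChiSub ρ G₁ χ ≤ ihmChiSub ρ G₁' χ' := by
  refine Submodule.span_le.mpr ?_
  rintro _ ⟨g, m, rfl⟩
  have h1 := ihm_chi_sub_mem ρ G₁' χ' ⟨g, hle g.2⟩ m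
  rw [hχ] at h1
  exact h1

/-- the canonical surjection `M^χ → M^χ'` for `G₁ ≤ G₁'`, `χ' = χ` on `G₁` -/
def ihmChiProj : IhmChi ρ G₁ χ →ₗ[𝒪] IhmChi ρ G₁' χ' :=
  (ihmChiSub ρ G₁ χ).mapQ (ihmChiSub ρ G₁' χ') LinearMap.id
    (ihmChiSub_mono ρ G₁ χ G₁' χ' hle hχ)

@[simp] theorem ihmChiProj_mk (m : M) :
    ihmChiProj ρ G₁ χ G₁' χ' hle hχ (Submodule.Quotient.mk m) = Submodule.Quotient.mk m := rfl

theorem ihmChiProj_surjective : Function.Surjective (ihmChiProj ρ G₁ χ G₁' χ' hle hχ) := by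
  intro y
  obtain ⟨m, rfl⟩ := Submodule.Quotient.mk_surjective _ y
  exact ⟨Submodule.Quotient.mk m, rfl⟩

/-- the surjection is compatible with every endomorphism commuting with `ρ G₁'` -/
theorem ihmChiProj_map (t : Module.End 𝒪 M) (ht : ∀ g : G₁, Commute t (ρ g))
    (ht' : ∀ g : G₁', Commute t (ρ g)) (x : IhmChi ρ G₁ χ) :
    ihmChiProj ρ G₁ χ G₁' χ' hle hχ (ihmChiMap ρ G₁ χ t ht x)
      = ihmChiMap ρ G₁' χ' t ht' (ihmChiProj ρ G₁ χ G₁' χ' hle hχ x) := by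
  obtain ⟨m, rfl⟩ := Submodule.Quotient.mk_surjective _ x
  rfl

/-- the surjection is `G`-equivariant -/
theorem ihmChiProj_rho (g : G) (x : IhmChi ρ G₁ χ) :
    ihmChiProj ρ G₁ χ G₁' χ' hle hχ (ihmChiRho hG ρ G₁ χ g x)
      = ihmChiRho hG ρ G₁' χ' g (ihmChiProj ρ G₁ χ G₁' χ' hle hχ x) := by
  obtain ⟨m, rfl⟩ := Submodule.Quotient.mk_surjective _ x
  rfl

theorem ihmChiProj_mk_eq_zero_iff (m : M) :
    ihmChiProj ρ G₁ χ G₁' χ' hle hχ (Submodule.Quotient.mk m) = 0 ↔ m ∈ ihmChiSub ρ G₁' χ' := by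
  rw [ihmChiProj_mk, Submodule.Quotient.mk_eq_zero]

/-! ### The kernel, when `G₁'` is generated by `G₁` and one element `γ` with `χ' γ = 1` -/

variable (γ : G) (hγ : γ ∈ G₁') (hγ1 : χ' ⟨γ, hγ⟩ = 1)

include hγ1 in
/-- `(ρ̄ γ - 1) M^χ` dies in `M^χ'` -/
theorem ihmChiProj_range_le :
    LinearMap.range (ihmChiRho hG ρ G₁ χ γ - 1) ≤ LinearMap.ker (ihmChiProj ρ G₁ χ G₁' χ' hle hχ) := by
  rintro _ ⟨x, rfl⟩
  rw [LinearMap.mem_ker, LinearMap.sub_apply, Module.End.one_apply, map_sub, ihmChiProj_rho hG,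
    show ihmChiRho hG ρ G₁' χ' γ = ihmChiRho hG ρ G₁' χ' ((⟨γ, hγ⟩ : G₁') : G) from rfl,
    ihmChiRho_of_mem hG ρ G₁' χ' ⟨γ, hγ⟩, hγ1, one_smul, sub_self]

/-- the subgroup of the `g` with `(ρ̄ g - 1) M^χ ⊆ N` -/
def ihmChiStab (N : Submodule 𝒪 (IhmChi ρ G₁ χ)) : Subgroup G where
  carrier := {g | ∀ x, ihmChiRho hG ρ G₁ χ g x - x ∈ N}
  one_mem' := fun x => by
    rw [map_one, Module.End.one_apply, sub_self]
    exact N.zero_mem
  mul_mem' := by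
    intro g h hg hh x
    have h1 : ihmChiRho hG ρ G₁ χ (g * h) x - x
        = (ihmChiRho hG ρ G₁ χ g (ihmChiRho hG ρ G₁ χ h x) - ihmChiRho hG ρ G₁ χ h x)
          + (ihmChiRho hG ρ G₁ χ h x - x) := by
      rw [map_mul, Module.End.mul_apply]; abel
    rw [h1]
    exact N.add_mem (hg _) (hh x)
  inv_mem' := by
    intro g hg x
    have h1 : ihmChiRho hG ρ G₁ χ g⁻¹ x - x
        = -(ihmChiRho hG ρ G₁ χ g (ihmChiRho hG ρ G₁ χ g⁻¹ x) - ihmChiRho hG ρ G₁ χ g⁻¹ x) := by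
      rw [← Module.End.mul_apply, ← map_mul, mul_inv_cancel, map_one, Module.End.one_apply]; abel
    rw [h1]
    exact N.neg_mem (hg _)

theorem ihm_mem_chiStab (N : Submodule 𝒪 (IhmChi ρ G₁ χ)) (g : G) :
    g ∈ ihmChiStab hG ρ G₁ χ N ↔ ∀ x, ihmChiRho hG ρ G₁ χ g x - x ∈ N := Iff.rfl

/-- `(ρ̄ z - 1) M^χ ⊆ (ρ̄ γ - 1) M^χ` for every power `z` of `γ` -/
theorem ihm_chi_zpowers_sub_mem (z : G) (hz : z ∈ Subgroup.zpowers γ) (x : IhmChi ρ G₁ χ) :
    ihmChiRho hG ρ G₁ χ z x - x ∈ LinearMap.range (ihmChiRho hG ρ G₁ χ γ - 1) := by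
  have h1 : γ ∈ ihmChiStab hG ρ G₁ χ (LinearMap.range (ihmChiRho hG ρ G₁ χ γ - 1)) := by
    intro y
    exact ⟨y, by rw [LinearMap.sub_apply, Module.End.one_apply]⟩
  exact ((Subgroup.zpowers_le.mpr h1) hz) x

include hγ1 in
/-- `χ'` is trivial on the powers of `γ` -/
theorem ihm_chi_zpowers_eq_one (z : G) (hz : z ∈ Subgroup.zpowers γ) (hz' : z ∈ G₁') :
    χ' ⟨z, hz'⟩ = 1 := by
  have h1 : γ ∈ (MonoidHom.ker χ').map G₁'.subtype :=
    ⟨⟨γ, hγ⟩, MonoidHom.mem_ker.mpr hγ1, rfl⟩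
  obtain ⟨y, hy, hyz⟩ := (Subgroup.zpowers_le.mpr h1) hz
  have h2 : y = ⟨z, hz'⟩ := Subtype.ext hyz
  rw [← h2]
  exact MonoidHom.mem_ker.mp hy

variable (hsup : G₁' ≤ G₁ ⊔ Subgroup.zpowers γ)

include hG hγ hγ1 hsup in
/-- **the kernel of `M^χ → M^χ'` is contained in `(ρ̄ γ - 1) M^χ`** -/
theorem ihmChiProj_ker_le :
    LinearMap.ker (ihmChiProj ρ G₁ χ G₁' χ' hle hχ) ≤ LinearMap.range (ihmChiRho hG ρ G₁ χ γ - 1) := by
  have key : ihmChiSub ρ G₁' χ'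
      ≤ (LinearMap.range (ihmChiRho hG ρ G₁ χ γ - 1)).comap (ihmChiSub ρ G₁ χ).mkQ := by
    refine Submodule.span_le.mpr ?_
    rintro _ ⟨g, m, rfl⟩
    rw [SetLike.mem_coe, Submodule.mem_comap]
    haveI : (Subgroup.zpowers γ).Normal :=
      ⟨fun n hn g => by rw [hG g n, mul_inv_cancel_right]; exact hn⟩
    obtain ⟨h, hh, z, hz, hhz⟩ := Subgroup.mem_sup_of_normal_right.mp (hsup g.2)
    have hz' : z ∈ G₁' := by
      have h1 : z = h⁻¹ * (g : G) := by rw [← hhz, inv_mul_cancel_left]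
      rw [h1]
      exact G₁'.mul_mem (G₁'.inv_mem (hle hh)) g.2
    have hg : g = (⟨h, hle hh⟩ : G₁') * ⟨z, hz'⟩ := Subtype.ext hhz.symm
    have hχg : χ' g = χ ⟨h, hh⟩ := by
      rw [hg, map_mul, ihm_chi_zpowers_eq_one G₁' χ' γ hγ hγ1 z hz hz', mul_one]
      exact hχ ⟨h, hh⟩
    have h2 : (ihmChiSub ρ G₁ χ).mkQ (ρ (g : G) m - χ' g • m)
        = χ ⟨h, hh⟩ • (ihmChiRho hG ρ G₁ χ z (Submodule.Quotient.mk m) - Submodule.Quotient.mk m) := by
      rw [hχg, smul_sub, ← ihmChiRho_of_mem hG ρ G₁ χ ⟨h, hh⟩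
        (ihmChiRho hG ρ G₁ χ z (Submodule.Quotient.mk m)), ← Module.End.mul_apply, ← map_mul]
      show (Submodule.Quotient.mk (ρ (g : G) m - χ ⟨h, hh⟩ • m) : IhmChi ρ G₁ χ) = _
      rw [Submodule.Quotient.mk_sub, Submodule.Quotient.mk_smul, ← hhz]
      rfl
    rw [h2]
    exact Submodule.smul_mem _ _ (ihm_chi_zpowers_sub_mem hG ρ G₁ χ γ z hz _)
  intro x hx
  obtain ⟨m, rfl⟩ := Submodule.Quotient.mk_surjective _ x
  rw [LinearMap.mem_ker, ihmChiProj_mk_eq_zero_iff] at hx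
  exact key hx

include hG hγ hγ1 hsup in
/-- **`M^χ' = M^χ / (ρ̄ γ - 1) M^χ`** -/
theorem ihmChiProj_ker_eq :
    LinearMap.ker (ihmChiProj ρ G₁ χ G₁' χ' hle hχ) = LinearMap.range (ihmChiRho hG ρ G₁ χ γ - 1) :=
  le_antisymm (ihmChiProj_ker_le hG ρ G₁ χ G₁' χ' hle hχ γ hγ hγ1 hsup)
    (ihmChiProj_range_le hG ρ G₁ χ G₁' χ' hle hχ γ hγ hγ1)

end Proj

/-! ### Descending an algebra action along a surjection -/

section Descend

variable {𝒪 : Type*} [CommRing 𝒪] {M : Type*} [AddCommGroup M] [Module 𝒪 M]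
  {M' : Type*} [AddCommGroup M'] [Module 𝒪 M']
  {A : Type*} [CommRing A] [Algebra 𝒪 A]

/-- **an algebra acting on `M` and preserving the kernel of the surjection `π : M → M'` acts on
`M'`**, and `π` is equivariant -/
theorem ihm_exists_quot_action (ρM : A →ₐ[𝒪] Module.End 𝒪 M) (π : M →ₗ[𝒪] M')
    (hπ : Function.Surjective π) (hker : ∀ t v, π v = 0 → π (ρM t v) = 0) :
    ∃ ρM' : A →ₐ[𝒪] Module.End 𝒪 M', ∀ t v, π (ρM t v) = ρM' t (π v) := by
  classical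
  set e : (M ⧸ LinearMap.ker π) ≃ₗ[𝒪] M' := π.quotKerEquivOfSurjective hπ with he
  have he_mk : ∀ v, e (Submodule.Quotient.mk v) = π v := fun v => rfl
  have hk : ∀ t, LinearMap.ker π ≤ LinearMap.ker (π ∘ₗ ρM t) := fun t v hv => by
    rw [LinearMap.mem_ker] at hv ⊢
    exact hker t v hv
  set f : A → Module.End 𝒪 M' := fun t =>
    ((LinearMap.ker π).liftQ (π ∘ₗ ρM t) (hk t)) ∘ₗ e.symm.toLinearMap with hf
  have hf_apply : ∀ t v, f t (π v) = π (ρM t v) := by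
    intro t v
    show (LinearMap.ker π).liftQ (π ∘ₗ ρM t) (hk t) (e.symm (π v)) = _
    rw [← he_mk, LinearEquiv.symm_apply_apply, Submodule.liftQ_apply]
    rfl
  refine ⟨AlgHom.ofLinearMap
    { toFun := f
      map_add' := ?_
      map_smul' := ?_ } ?_ ?_, fun t v => (hf_apply t v).symm⟩
  · intro t t'
    refine LinearMap.ext fun y => ?_
    obtain ⟨v, rfl⟩ := hπ y
    rw [LinearMap.add_apply, hf_apply, hf_apply, hf_apply, map_add, LinearMap.add_apply, map_add]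
  · intro a t
    refine LinearMap.ext fun y => ?_
    obtain ⟨v, rfl⟩ := hπ y
    rw [RingHom.id_apply, LinearMap.smul_apply, hf_apply, hf_apply, map_smul, LinearMap.smul_apply,
      map_smul]
  · refine LinearMap.ext fun y => ?_
    obtain ⟨v, rfl⟩ := hπ y
    show f 1 (π v) = _
    rw [hf_apply, map_one, Module.End.one_apply, Module.End.one_apply]
  · intro t t'
    refine LinearMap.ext fun y => ?_
    obtain ⟨v, rfl⟩ := hπ y
    show f (t * t') (π v) = (f t * f t') (π v)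
    rw [Module.End.mul_apply, hf_apply, hf_apply, hf_apply, map_mul, Module.End.mul_apply]

end Descend

end Fermat.Agent.Ihara
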