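/-
IHARA track, package [HM] (helper1): **the quotient `M^χ / (⟨γ⟩ - 1) M^χ` of the `χ`-quotient of the
`θ`-part is again a `χ'`-quotient of the `θ`-part** (instance of `Hm/Proj.lean` for
`M := IhmPartT O M H Ps θ`, `ρ := ihmPartTDia`): for `Δ₁ ≤ Δ₁' ≤ Δ₁ ⊔ ⟨γ⟩`, `χ' = χ` on `Δ₁`,
`χ' γ = 1`, the canonical surjection

  `ihmChiPartProj : IhmChiPart … Δ₁ χ → IhmChiPart … Δ₁' χ'`

commutes with the Hecke operators and the diamonds and has kernel `(⟨γ⟩ - 1) M^χ`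
(`ihmChiPartProj_ker_eq`).  This is the `π` of helper8's `ihsc_main` ((H) [SC]).
Also: the `χ`-quotients are free over `O` without any complement (`ihm_chi_part_free_O`), and the
descent of an algebra action along `π` (`ihm_quot_action_of_commute`).
-/
import Mathlib
import Fermat.Agent.Lib.Ihara.Hm.ChiPart
import Fermat.Agent.Lib.Ihara.Hm.Proj

set_option autoImplicit false
set_option linter.unusedSectionVars false
set_option linter.unusedVariables false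
set_option linter.style.haveILetI false

namespace Fermat.Agent.Ihara

open Matrix MatrixGroups CongruenceSubgroup ModularCurve ModularCurve.Period Module
open Fermat.Agent.DS Fermat.Agent.T1 Fermat.Agent.T1G Fermat.Agent.T2

/-! ### Descent of an algebra action along a surjection whose kernel is `(X - 1) M` -/

section DescendX

variable {𝒪 : Type*} [CommRing 𝒪] {M : Type*} [AddCommGroup M] [Module 𝒪 M]
  {M' : Type*} [AddCommGroup M'] [Module 𝒪 M']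
  {A : Type*} [CommRing A] [Algebra 𝒪 A]

/-- an algebra acting on `M` through endomorphisms commuting with `X` acts on every quotient
`π : M → M'` with kernel `(X - 1) M` -/
theorem ihm_quot_action_of_commute (ρM : A →ₐ[𝒪] Module.End 𝒪 M) (π : M →ₗ[𝒪] M')
    (hπ : Function.Surjective π) (X : Module.End 𝒪 M)
    (hX : LinearMap.ker π = LinearMap.range (X - 1)) (hc : ∀ t, Commute (ρM t) X) :
    ∃ ρM' : A →ₐ[𝒪] Module.End 𝒪 M', ∀ t v, π (ρM t v) = ρM' t (π v) := by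
  refine ihm_exists_quot_action ρM π hπ fun t v hv => ?_
  have h1 : v ∈ LinearMap.range (X - 1) := by rw [← hX]; exact LinearMap.mem_ker.mpr hv
  obtain ⟨u, rfl⟩ := h1
  have h2 : ρM t ((X - 1) u) = (X - 1) (ρM t u) := by
    have h3 : Commute (ρM t) (X - 1) := (hc t).sub_right (Commute.one_right _)
    exact LinearMap.congr_fun h3.eq u
  rw [h2, ← LinearMap.mem_ker, hX]
  exact ⟨_, rfl⟩

/-- the descended action commutes with every descended endomorphism commuting upstairs -/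
theorem ihm_quot_action_commute (ρM : A →ₐ[𝒪] Module.End 𝒪 M) (π : M →ₗ[𝒪] M')
    (hπ : Function.Surjective π) (ρM' : A →ₐ[𝒪] Module.End 𝒪 M')
    (hρπ : ∀ t v, π (ρM t v) = ρM' t (π v)) (x : Module.End 𝒪 M) (x' : Module.End 𝒪 M')
    (hx : ∀ v, π (x v) = x' (π v)) (t : A) (hc : Commute (ρM t) x) :
    Commute (ρM' t) x' := by
  refine LinearMap.ext fun y => ?_
  obtain ⟨v, rfl⟩ := hπ y
  show ρM' t (x' (π v)) = x' (ρM' t (π v))
  rw [← hx, ← hρπ, ← hρπ, ← hx]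
  exact congrArg π (LinearMap.congr_fun hc.eq v)

/-- the descended action of `t` is the descended endomorphism -/
theorem ihm_quot_action_eq (ρM : A →ₐ[𝒪] Module.End 𝒪 M) (π : M →ₗ[𝒪] M')
    (hπ : Function.Surjective π) (ρM' : A →ₐ[𝒪] Module.End 𝒪 M')
    (hρπ : ∀ t v, π (ρM t v) = ρM' t (π v)) (t : A) (f : Module.End 𝒪 M) (f' : Module.End 𝒪 M')
    (hf : ρM t = f) (hff' : ∀ v, π (f v) = f' (π v)) : ρM' t = f' := by
  refine LinearMap.ext fun y => ?_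
  obtain ⟨v, rfl⟩ := hπ y
  rw [← hρπ, hf, hff']

end DescendX

section ProjPart

variable (O : Type) [CommRing O] [IsDomain O] [IsDiscreteValuationRing O] [CharZero O]
  [IsAdicComplete (IsLocalRing.maximalIdeal O) O] (M : ℕ) [NeZero M] (hM : 6 ≤ M)
  (H : Subgroup (ZMod M)ˣ) (Ps : Set ℕ) (θ : ℕ → O)
  (Δ₁ : Subgroup ((ZMod M)ˣ ⧸ H)) (χ : Δ₁ →* O)
  (Δ₁' : Subgroup ((ZMod M)ˣ ⧸ H)) (χ' : Δ₁' →* O)
  (hle : Δ₁ ≤ Δ₁') (hχ : ∀ g : Δ₁, χ' ⟨g, hle g.2⟩ = χ g)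

/-- **the canonical surjection `M^χ → M^χ'`** (`Δ₁ ≤ Δ₁'`, `χ' = χ` on `Δ₁`) -/
noncomputable def ihmChiPartProj :
    IhmChiPart O M hM H Ps θ Δ₁ χ →ₗ[O] IhmChiPart O M hM H Ps θ Δ₁' χ' :=
  ihmChiProj (ihmPartTDia O M hM H Ps θ) Δ₁ χ Δ₁' χ' hle hχ

theorem ihmChiPartProj_mk (x : IhmPartT O M H Ps θ) :
    ihmChiPartProj O M hM H Ps θ Δ₁ χ Δ₁' χ' hle hχ (ihmChiPartMk O M hM H Ps θ Δ₁ χ x)
      = ihmChiPartMk O M hM H Ps θ Δ₁' χ' x := rfl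

theorem ihmChiPartProj_surjective :
    Function.Surjective (ihmChiPartProj O M hM H Ps θ Δ₁ χ Δ₁' χ' hle hχ) :=
  ihmChiProj_surjective (ihmPartTDia O M hM H Ps θ) Δ₁ χ Δ₁' χ' hle hχ

/-- the surjection commutes with the Hecke operators -/
theorem ihmChiPartProj_op (ℓ : ℕ) (x : IhmChiPart O M hM H Ps θ Δ₁ χ) :
    ihmChiPartProj O M hM H Ps θ Δ₁ χ Δ₁' χ' hle hχ (ihmChiOp O M hM H Ps θ Δ₁ χ ℓ x)
      = ihmChiOp O M hM H Ps θ Δ₁' χ' ℓ (ihmChiPartProj O M hM H Ps θ Δ₁ χ Δ₁' χ' hle hχ x) :=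
  ihmChiProj_map (ihmPartTDia O M hM H Ps θ) Δ₁ χ Δ₁' χ' hle hχ _ _ _ x

/-- the surjection commutes with the diamonds -/
theorem ihmChiPartProj_dia (δ : (ZMod M)ˣ ⧸ H) (x : IhmChiPart O M hM H Ps θ Δ₁ χ) :
    ihmChiPartProj O M hM H Ps θ Δ₁ χ Δ₁' χ' hle hχ (ihmChiDia O M hM H Ps θ Δ₁ χ δ x)
      = ihmChiDia O M hM H Ps θ Δ₁' χ' δ (ihmChiPartProj O M hM H Ps θ Δ₁ χ Δ₁' χ' hle hχ x) :=
  ihmChiProj_rho (ihm_quot_comm M H) (ihmPartTDia O M hM H Ps θ) Δ₁ χ Δ₁' χ' hle hχ δ x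

/-- the surjection commutes with every induced endomorphism -/
theorem ihmChiPartProj_map (t : Module.End O (IhmPartT O M H Ps θ))
    (ht : ∀ g : Δ₁, Commute t (ihmPartTDia O M hM H Ps θ g))
    (ht' : ∀ g : Δ₁', Commute t (ihmPartTDia O M hM H Ps θ g))
    (x : IhmChiPart O M hM H Ps θ Δ₁ χ) :
    ihmChiPartProj O M hM H Ps θ Δ₁ χ Δ₁' χ' hle hχ
        (ihmChiMap (ihmPartTDia O M hM H Ps θ) Δ₁ χ t ht x)
      = ihmChiMap (ihmPartTDia O M hM H Ps θ) Δ₁' χ' t ht'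
        (ihmChiPartProj O M hM H Ps θ Δ₁ χ Δ₁' χ' hle hχ x) :=
  ihmChiProj_map (ihmPartTDia O M hM H Ps θ) Δ₁ χ Δ₁' χ' hle hχ t ht ht' x

variable (γ : (ZMod M)ˣ ⧸ H) (hγ : γ ∈ Δ₁') (hγ1 : χ' ⟨γ, hγ⟩ = 1)

include hγ1 in
theorem ihmChiPartProj_range_le :
    LinearMap.range (ihmChiDia O M hM H Ps θ Δ₁ χ γ - 1)
      ≤ LinearMap.ker (ihmChiPartProj O M hM H Ps θ Δ₁ χ Δ₁' χ' hle hχ) :=
  ihmChiProj_range_le (ihm_quot_comm M H) (ihmPartTDia O M hM H Ps θ) Δ₁ χ Δ₁' χ' hle hχ γ hγ hγ1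

variable (hsup : Δ₁' ≤ Δ₁ ⊔ Subgroup.zpowers γ)

include hγ hγ1 hsup in
/-- **the `hπ` of `ihsc_main`**: the kernel of `M^χ → M^χ'` is contained in `(⟨γ⟩ - 1) M^χ` -/
theorem ihmChiPartProj_ker_le :
    LinearMap.ker (ihmChiPartProj O M hM H Ps θ Δ₁ χ Δ₁' χ' hle hχ)
      ≤ LinearMap.range (ihmChiDia O M hM H Ps θ Δ₁ χ γ - 1) :=
  ihmChiProj_ker_le (ihm_quot_comm M H) (ihmPartTDia O M hM H Ps θ) Δ₁ χ Δ₁' χ' hle hχ γ hγ hγ1 hsup

include hγ hγ1 hsup in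
/-- **`M^χ' = M^χ / (⟨γ⟩ - 1) M^χ`** -/
theorem ihmChiPartProj_ker_eq :
    LinearMap.ker (ihmChiPartProj O M hM H Ps θ Δ₁ χ Δ₁' χ' hle hχ)
      = LinearMap.range (ihmChiDia O M hM H Ps θ Δ₁ χ γ - 1) :=
  ihmChiProj_ker_eq (ihm_quot_comm M H) (ihmPartTDia O M hM H Ps θ) Δ₁ χ Δ₁' χ' hle hχ γ hγ hγ1 hsup

include hγ hγ1 hsup in
/-- **an algebra acting on `M^χ` through endomorphisms commuting with `⟨γ⟩` acts on `M^χ'`**, and the
surjection is equivariant (the `ρM'`, `hρπ` of `ihsc_main`) -/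
theorem ihm_chi_part_exists_action {A : Type*} [CommRing A] [Algebra O A]
    (ρM : A →ₐ[O] Module.End O (IhmChiPart O M hM H Ps θ Δ₁ χ))
    (hc : ∀ t, Commute (ρM t) (ihmChiDia O M hM H Ps θ Δ₁ χ γ)) :
    ∃ ρM' : A →ₐ[O] Module.End O (IhmChiPart O M hM H Ps θ Δ₁' χ'),
      ∀ t v, ihmChiPartProj O M hM H Ps θ Δ₁ χ Δ₁' χ' hle hχ (ρM t v)
        = ρM' t (ihmChiPartProj O M hM H Ps θ Δ₁ χ Δ₁' χ' hle hχ v) :=
  ihm_quot_action_of_commute ρM _ (ihmChiPartProj_surjective O M hM H Ps θ Δ₁ χ Δ₁' χ' hle hχ)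
    (ihmChiDia O M hM H Ps θ Δ₁ χ γ)
    (ihmChiPartProj_ker_eq O M hM H Ps θ Δ₁ χ Δ₁' χ' hle hχ γ hγ hγ1 hsup) hc

end ProjPart

/-! ### Freeness over `O` without a complement -/

section FreeO

variable (O : Type) [CommRing O] [IsDomain O] [IsDiscreteValuationRing O] [CharZero O]
  [IsAdicComplete (IsLocalRing.maximalIdeal O) O] (M : ℕ) [NeZero M] (hM : 6 ≤ M)
  (H : Subgroup (ZMod M)ˣ) (Ps : Set ℕ) (θ : ℕ → O)
  {p : ℕ} (hL : IhfLevel p M H) (hpO : (p : O) ∈ IsLocalRing.maximalIdeal O)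
  {ℓ₀ : ℕ} (hℓ₀ : ℓ₀.Prime) (hℓ₀M : ¬ ℓ₀ ∣ M) (hℓ₀Ps : ℓ₀ ∈ Ps)
  (hθ : IsUnit (θ ℓ₀ - ((ℓ₀ : O) + 1)))

include hL hpO hℓ₀ hℓ₀M hℓ₀Ps hθ in
/-- **every `χ`-quotient of the `θ`-part is free (and finite) over `O`** — no complement of `Δ₁`
needed -/
theorem ihm_chi_part_free_O (Δ₁ : Subgroup ((ZMod M)ˣ ⧸ H)) (χ : Δ₁ →* O) :
    Module.Free O (IhmChiPart O M hM H Ps θ Δ₁ χ) ∧
      Module.Finite O (IhmChiPart O M hM H Ps θ Δ₁ χ) := by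
  obtain ⟨n, w, b, hb⟩ := ihm_free_T O M hM H Ps θ hL hpO hℓ₀ hℓ₀M hℓ₀Ps hθ
  obtain ⟨b', -⟩ := ihm_chi_basis (ihm_quot_comm M H) (ihmPartTDia O M hM H Ps θ) Δ₁ χ w b hb
    (fun x => Quotient.out x) (fun x => QuotientGroup.out_eq' x)
  exact ⟨Module.Free.of_basis b', inferInstance⟩

end FreeO

end Fermat.Agent.Ihara
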