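/-
IHARA track, package [HM] (helper1): **the top level `H = ⊤`**: `Γ_⊤(M) = Γ₀(M)`, identification of
`Hom_par(Γ_⊤(M), O)` with helper3's `Ih4H O O M`, of `ihmOp O M ⊤ ℓ` with `ih4Op O M ℓ` and of the
`θ`-parts; control down to `Γ₀(M)`-level (`ihm_control_top`).
-/
import Mathlib
import Fermat.Agent.Lib.Ihara.Hm.Part
import Fermat.Agent.Lib.Ihara.H4.TwBetti

set_option autoImplicit false
set_option linter.unusedSectionVars false
set_option linter.unusedVariables false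
set_option linter.style.haveILetI false

namespace Fermat.Agent.Ihara

open Matrix MatrixGroups CongruenceSubgroup ModularCurve ModularCurve.Period Module
open Fermat.Agent.DS Fermat.Agent.T1 Fermat.Agent.T1G Fermat.Agent.T2

/-! ### Restriction along an equality of subgroups -/

section Eq

variable {Γ Γ' : Subgroup SL(2, ℤ)} (hΓ : Γ = Γ') (R : Type*) [Semiring R] (A : Type*)
  [AddCommGroup A] [Module R A]

/-- the identification of the parabolic homomorphisms of two equal subgroups -/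
noncomputable def ihmCongr : ↥(parabolicHoms R Γ' A) ≃ₗ[R] ↥(parabolicHoms R Γ A) where
  toLinearMap := t2fResPar hΓ.le R A
  invFun := t2fResPar hΓ.ge R A
  left_inv x := by
    apply Subtype.ext
    refine AddMonoidHom.ext fun δ' => ?_
    obtain ⟨δ, rfl⟩ := Additive.ofMul.surjective δ'
    rfl
  right_inv x := by
    apply Subtype.ext
    refine AddMonoidHom.ext fun δ' => ?_
    obtain ⟨δ, rfl⟩ := Additive.ofMul.surjective δ'
    rfl

theorem ihmCongr_apply (x : ↥(parabolicHoms R Γ' A)) :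
    ihmCongr hΓ R A x = t2fResPar hΓ.le R A x := rfl

end Eq

/-! ### `T_ℓ` with the two systems of representatives -/

section TwoReps

variable {M : ℕ} [NeZero M] {ℓ : ℕ} (hℓ : ℓ.Prime) (hℓM : ¬ ℓ ∣ M)

theorem ihm_res_T_top_aux (Γ : Subgroup SL(2, ℤ)) (hΓ : Gamma0 M = Γ)
    (S : tdmCosetSys Γ (Option (Fin ℓ))) (hS : S.rep = tgmRepT M hℓ hℓM)
    {A : Type*} [AddCommGroup A] (ψ : Additive Γ →+ A) :
    t2fRes hΓ.le A (S.hom A ψ) = (tdmSysT M ℓ hℓ hℓM).hom A (t2fRes hΓ.le A ψ) := by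
  subst hΓ
  refine AddMonoidHom.ext fun δ' => ?_
  obtain ⟨δ, rfl⟩ := Additive.ofMul.surjective δ'
  show S.hom A ψ (Additive.ofMul δ) = (tdmSysT M ℓ hℓ hℓM).hom A ψ (Additive.ofMul δ)
  have := tdmCosetSys.hom_twist S (tdmSysT M ℓ hℓ hℓM) (MonoidHom.id _) id (fun _ _ => rfl)
    (fun _ => rfl) (Equiv.refl _)
    (fun i => match i with
      | none => ⟨tgmGammaP M hℓ hℓM, tgmGammaP_mem M hℓ hℓM⟩
      | some _ => 1)
    (fun i => by
      rw [hS]
      rcases i with _ | b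
      · rfl
      · show tgmRepT M hℓ hℓM (some b) = ((1 : SL(2, ℤ)) : Matrix (Fin 2) (Fin 2) ℤ) * _
        rw [Matrix.SpecialLinearGroup.coe_one, Matrix.one_mul]
        rfl)
    ψ δ
  exact this.symm

end TwoReps

/-! ### The top level -/

section Top

variable (O : Type*) [CommRing O] (M : ℕ) [NeZero M]

/-- `Hom_par(Γ_⊤(M), O) ≃ Hom_par(Γ₀(M), O)` -/
noncomputable def ihmTop : IhfH O O M (⊤ : Subgroup (ZMod M)ˣ) ≃ₗ[O] Ih4H O O M :=
  ihmCongr (ihfGammaH_top (M := M)).symm O O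

/-- the identification intertwines the Hecke operators -/
theorem ihmTop_op (ℓ : ℕ) (x : IhfH O O M (⊤ : Subgroup (ZMod M)ˣ)) :
    ihmTop O M (ihmOp O M ⊤ ℓ x) = ih4Op O M ℓ (ihmTop O M x) := by
  by_cases hℓ : ℓ.Prime
  swap
  · rw [ihmOp_of_not_prime O M ⊤ hℓ, ih4Op_of_not_prime O M hℓ, LinearMap.zero_apply,
      LinearMap.zero_apply, map_zero]
  by_cases h1 : ℓ ∣ M
  · rw [ihmOp_of_dvd O M ⊤ hℓ h1, ih4Op_of_dvd O M hℓ h1]
    exact Subtype.ext (ihf_res_hom (ihfGammaH_top (M := M)).symm.le (tdmSysU M ℓ h1 hℓ.ne_zero)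
      (ihfSysU M ⊤ h1 hℓ.ne_zero) rfl x.1)
  · rw [ihmOp_of_not_dvd O M ⊤ hℓ h1, ih4Op_of_not_dvd O M hℓ h1]
    exact Subtype.ext (ihm_res_T_top_aux hℓ h1 _ (ihfGammaH_top (M := M)).symm
      (ihfSysT M ⊤ hℓ h1) rfl x.1)

theorem ihmTop_symm_op (ℓ : ℕ) (y : Ih4H O O M) :
    (ihmTop O M).symm (ih4Op O M ℓ y) = ihmOp O M ⊤ ℓ ((ihmTop O M).symm y) := by
  apply (ihmTop O M).injective
  rw [LinearEquiv.apply_symm_apply, ihmTop_op, LinearEquiv.apply_symm_apply]

end Top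

section TopPart

variable (O : Type) [CommRing O] [IsLocalRing O] (M : ℕ) [NeZero M] (Ps : Set ℕ) (θ : ℕ → O)

/-- the identification maps the `θ`-part onto helper3's `ih4Part` -/
theorem ihmTop_mem_part {x : IhfH O O M (⊤ : Subgroup (ZMod M)ˣ)} :
    ihmTop O M x ∈ ih4Part O M Ps θ ↔ x ∈ ihmPart O M ⊤ Ps θ := by
  constructor
  · intro hx
    have := ih4pNil_map (𝔞 := IsLocalRing.maximalIdeal O)
      (S := fun ℓ : Ps => ih4Op O M ℓ - algebraMap O (Module.End O (Ih4H O O M)) (θ ℓ))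
      (S' := ihmFam O M ⊤ Ps θ) (f := (ihmTop O M).symm.toLinearMap)
      (fun i y => by
        unfold ihmFam
        rw [LinearMap.sub_apply, LinearMap.sub_apply, Module.algebraMap_end_apply,
          Module.algebraMap_end_apply]
        show (ihmTop O M).symm (ih4Op O M i y - θ i • y) = _
        rw [map_sub, map_smul, ihmTop_symm_op]
        rfl) hx
    have h2 : (ihmTop O M).symm.toLinearMap (ihmTop O M x) = x := (ihmTop O M).symm_apply_apply x
    rw [h2] at this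
    exact this
  · intro hx
    exact ih4pNil_map (𝔞 := IsLocalRing.maximalIdeal O)
      (S := ihmFam O M ⊤ Ps θ)
      (S' := fun ℓ : Ps => ih4Op O M ℓ - algebraMap O (Module.End O (Ih4H O O M)) (θ ℓ))
      (f := (ihmTop O M).toLinearMap)
      (fun i y => by
        unfold ihmFam
        rw [LinearMap.sub_apply, LinearMap.sub_apply, Module.algebraMap_end_apply,
          Module.algebraMap_end_apply]
        show ihmTop O M (ihmOp O M ⊤ i y - θ i • y) = _
        rw [map_sub, map_smul, ihmTop_op]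
        rfl) hx

end TopPart

/-! ### Control down to `Γ₀(M)` -/

section ControlTop

variable (O : Type) [CommRing O] [IsDomain O] [IsDiscreteValuationRing O] [CharZero O]
  [IsAdicComplete (IsLocalRing.maximalIdeal O) O] (M : ℕ) [NeZero M] (hM : 6 ≤ M)
  {H : Subgroup (ZMod M)ˣ} {I : Type} [Fintype I]
  (τ : IhfTrans (ihfGammaH M H) (ihfGammaH M (⊤ : Subgroup (ZMod M)ˣ)) I)
  (Ps : Set ℕ) (θ : ℕ → O)

/-- the transfer from level `Γ_H(M)` to level `Γ₀(M)` -/
noncomputable def ihmCorTop : IhfH O O M H →ₗ[O] Ih4H O O M :=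
  (ihmTop O M).toLinearMap ∘ₗ (τ.sys (ihfGammaH_mono le_top)).corPar O O

include hM in
/-- the transfer to `Γ₀(M)` is Hecke-equivariant -/
theorem ihmCorTop_op (ℓ : ℕ) (x : IhfH O O M H) :
    ihmCorTop O M τ (ihmOp O M H ℓ x) = ih4Op O M ℓ (ihmCorTop O M τ x) := by
  unfold ihmCorTop
  rw [LinearMap.comp_apply, LinearMap.comp_apply, ihm_cor_op O M hM le_top τ]
  exact ihmTop_op O M ℓ _

variable {p : ℕ} (hL : IhfLevel p M H) (hpO : (p : O) ∈ IsLocalRing.maximalIdeal O)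
  {ℓ₀ : ℕ} (hℓ₀ : ℓ₀.Prime) (hℓ₀M : ¬ ℓ₀ ∣ M) (hℓ₀Ps : ℓ₀ ∈ Ps)
  (hθ : IsUnit (θ ℓ₀ - ((ℓ₀ : O) + 1)))

include hM hL hpO hℓ₀ hℓ₀M hℓ₀Ps hθ in
/-- **CONTROL down to `Γ₀(M)`**: the transfer maps the `θ`-part at level `Γ_H(M)` onto helper3's
`ih4Part O M Ps θ` at level `Γ₀(M)`, with kernel `∑_d (⟨d⟩ - 1)` of the `θ`-part -/
theorem ihm_control_top :
    (∀ x' ∈ ih4Part O M Ps θ, ∃ x ∈ ihmPart O M H Ps θ, ihmCorTop O M τ x = x') ∧
    (∀ x ∈ ihmPart O M H Ps θ, ihmCorTop O M τ x = 0 →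
      x ∈ Submodule.span O {y | ∃ d : (ZMod M)ˣ, ∃ z ∈ ihmPart O M H Ps θ,
        y = ihmDia O M H d z - z}) := by
  obtain ⟨h1, h2⟩ := ihm_control O M hM le_top τ Ps θ hL hpO hℓ₀ hℓ₀M hℓ₀Ps hθ
  refine ⟨?_, ?_⟩
  · intro x' hx'
    have hx'' : (ihmTop O M).symm x' ∈ ihmPart O M ⊤ Ps θ := by
      rw [← ihmTop_mem_part, LinearEquiv.apply_symm_apply]
      exact hx'
    obtain ⟨x, hx, e⟩ := h1 _ hx''
    refine ⟨x, hx, ?_⟩
    unfold ihmCorTop
    rw [LinearMap.comp_apply, e]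
    exact (ihmTop O M).apply_symm_apply x'
  · intro x hx h0
    have h0' : (τ.sys (ihfGammaH_mono le_top)).corPar O O x = 0 := by
      apply (ihmTop O M).injective
      rw [map_zero]
      exact h0
    have h3 := h2 x hx h0'
    refine Submodule.span_mono ?_ h3
    rintro y ⟨d, -, z, hz, rfl⟩
    exact ⟨d, z, hz, rfl⟩

end ControlTop

end Fermat.Agent.Ihara
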